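/-
PROGRAMME MP (row 38 via S44), chapter FUNC (helper1): **constancy of the local multiplicities of a
covering of semistable data** (`KerMap1.Mult`) from the compatibility of the Gauss rings.

`GaussMap 𝔻₁ 𝔻₂ φ ρ` : over every smooth disc `(v₂, Q₂)` of `𝔻₂` with `ρ (v₂, Q₂) = (v₁, Q₁)` :
`φ (G₁ v₁) ⊆ G₂ v₂`, `red₂ (φ g) = φ̄ (red₁ g)` for a ring homomorphism `φ̄ : Ft₁ →+* Ft₂`, and `φ̄`
maps the units at `Q₁` to units at `Q₂` (`Q₂` lies over `Q₁`).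

`exists_mult` : `SpecMap` + `GaussMap` ⟹ `∃ m, Mult 𝔻₁ 𝔻₂ φ hφ ρ m` : for a good uniformizer `u` of
`𝔻₁` centred at `P₁`, the number of points of the fibre of `P₁` in the disc `(v₂, Q₂)` is
`ord_{Q₂} φ̄ (red₁ u)` (fibre sums of `φ u`), and the reductions of two good uniformizers of the same
disc differ by a unit at `Q₁`.

`pic0Pull_mem_kerRed'` : the pull-back maps `kerRed 𝔻₁` into `kerRed 𝔻₂`.
-/
import Mathlib
import Fermat.Agent.MP.FUNC.KerMap1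

set_option autoImplicit false
set_option linter.unusedSectionVars false
set_option linter.unusedVariables false
set_option linter.style.longLine false

namespace Fermat.Agent.MP.FUNC.KerMult1

open AlgebraicCurve Fermat.Agent.X0.FF Fermat.Agent.RR.LSpace Fermat.Agent.MW.EMB.Value6
open Fermat.Agent.ORD.ANN.Side3 Fermat.Agent.ORD.ANN.Node3
open Fermat.Agent.ORD.SEMIRED.SemiRedDatum9 Fermat.Agent.ORD.REDN.DiscC9
open Fermat.Agent.ORD.KERN.KerDefs9 Fermat.Agent.ORD.KERN.KerN9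
open Fermat.Agent.ES.N35.PushO12 Fermat.Agent.ES.HECKE.LevelPullback12
open Fermat.Agent.MP.FUNC.KerMap1

noncomputable section

variable {L F₁ F₂ k Ft₁ Ft₂ : Type*} [Field L] [Field F₁] [Field F₂] [Algebra L F₁] [Algebra L F₂]
  [Field k] [Field Ft₁] [Field Ft₂] [Algebra k Ft₁] [Algebra k Ft₂]
variable {ι₁ E₁ ι₂ E₂ : Type*}
variable (𝔻₁ : SemiRedDatum L F₁ k Ft₁ ι₁ E₁) (𝔻₂ : SemiRedDatum L F₂ k Ft₂ ι₂ E₂)
  (φ : F₁ →ₐ[L] F₂) (hφ : φ.toRingHom.IsIntegral)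

/-- **compatibility of the Gauss rings and reductions** over the smooth discs. -/
def GaussMap (𝔻₁ : SemiRedDatum L F₁ k Ft₁ ι₁ E₁) (𝔻₂ : SemiRedDatum L F₂ k Ft₂ ι₂ E₂)
    (φ : F₁ →ₐ[L] F₂) (ρ : Pts ι₂ E₂ k Ft₂ → Pts ι₁ E₁ k Ft₁) : Prop :=
  ∀ (v₂ : ι₂) (Q₂ : Place k Ft₂) (v₁ : ι₁) (Q₁ : Place k Ft₁),
    ρ (Sum.inl (v₂, Q₂)) = Sum.inl (v₁, Q₁) →
      ∃ φbar : Ft₁ →+* Ft₂,
        (∀ g : 𝔻₁.G v₁, ∃ h : φ (g : F₁) ∈ 𝔻₂.G v₂, 𝔻₂.red v₂ ⟨_, h⟩ = φbar (𝔻₁.red v₁ g)) ∧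
        (∀ f : Ft₁, f ≠ 0 → Q₁.ord f = 0 → Q₂.ord (φbar f) = 0)

variable {𝔻₁ 𝔻₂ φ hφ} {ρ : Pts ι₂ E₂ k Ft₂ → Pts ι₁ E₁ k Ft₁} [HasPrincipalDivisors L F₂]

/-- the pull-back of the divisor of `u` is the divisor of `φ u`. -/
theorem pullbackAlong_divOf_apply {u : F₁} (hu : u ≠ 0) (w : Place L F₂) :
    Divisor.pullbackAlong φ hφ (divOf 𝔻₁.HL hu) w = w.ord (φ u) := by
  rw [Divisor.pullbackAlong_apply, divOf_apply, Place.ord_restrictAlong φ hφ w u]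

/-- a divisor vanishing on the disc `ρ x₂` has a pull-back without fibre sum on `x₂`. -/
theorem mapDomain_pullbackAlong_of_forall (h : SpecMap 𝔻₁ 𝔻₂ φ hφ ρ) {D : Divisor L F₁}
    {x₂ : Pts ι₂ E₂ k Ft₂} (hD : ∀ P₁, 𝔻₁.r P₁ = ρ x₂ → D P₁ = 0) :
    Finsupp.mapDomain 𝔻₂.r (Divisor.pullbackAlong φ hφ D) x₂ = 0 := by
  refine mapDomain_apply_eq_zero_of_forall _ _ fun w hw => ?_
  rw [Divisor.pullbackAlong_apply, hD _ (by rw [h.r_restrict w, hw]), mul_zero]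

/-- **the local multiplicity through a good uniformizer.** -/
theorem mult_eq_ord (h : SpecMap 𝔻₁ 𝔻₂ φ hφ ρ) {v₂ : ι₂} {Q₂ : Place k Ft₂} {v₁ : ι₁}
    {Q₁ : Place k Ft₁} (hρ : ρ (Sum.inl (v₂, Q₂)) = Sum.inl (v₁, Q₁))
    (hne : ∃ P₂, 𝔻₂.r P₂ = Sum.inl (v₂, Q₂)) {φbar : Ft₁ →+* Ft₂}
    (hG : ∀ g : 𝔻₁.G v₁, ∃ h : φ (g : F₁) ∈ 𝔻₂.G v₂, 𝔻₂.red v₂ ⟨_, h⟩ = φbar (𝔻₁.red v₁ g))
    {P₁ : Place L F₁} {u : 𝔻₁.G v₁} (hu : (𝔻₁.comp v₁).IsGoodUnif P₁ Q₁ u) :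
    Finsupp.mapDomain 𝔻₂.r (Divisor.pullbackAlong φ hφ (Finsupp.single P₁ 1))
      (Sum.inl (v₂, Q₂)) = Q₂.ord (φbar (𝔻₁.red v₁ u)) := by
  classical
  have hu0 : (u : F₁) ≠ 0 := (𝔻₁.comp v₁).coe_ne_zero_of_red_ne_zero hu.red_ne_zero
  obtain ⟨hmem, hred⟩ := hG u
  have hredne : 𝔻₂.red v₂ ⟨φ (u : F₁), hmem⟩ ≠ 0 := by
    rw [hred]
    exact (map_ne_zero φbar).mpr hu.red_ne_zero
  -- fibre sums of `φ u` on the disc `(v₂, Q₂)`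
  have h1 := 𝔻₂.compat v₂ ⟨φ (u : F₁), hmem⟩ hredne
    (Divisor.pullbackAlong φ hφ (divOf 𝔻₁.HL hu0)) (fun w => pullbackAlong_divOf_apply (𝔻₁ := 𝔻₁) (φ := φ) (hφ := hφ) hu0 w)
    Q₂ hne
  rw [hred] at h1
  rw [← h1]
  -- `div u = P₁ + (a divisor off the disc)`
  set D' : Divisor L F₁ := divOf 𝔻₁.HL hu0 - Finsupp.single P₁ 1 with hD'
  have hsplit : divOf 𝔻₁.HL hu0 = Finsupp.single P₁ 1 + D' := by rw [hD']; abel
  have hD'0 : ∀ P', 𝔻₁.r P' = ρ (Sum.inl (v₂, Q₂)) → D' P' = 0 := by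
    intro P' hP'
    rw [hρ] at hP'
    rw [hD', Finsupp.sub_apply, divOf_apply]
    by_cases hPP : P' = P₁
    · subst hPP
      rw [Finsupp.single_eq_same]
      have := hu.ord_self
      show P'.ord (u : F₁) - 1 = 0
      rw [this, sub_self]
    · rw [Finsupp.single_eq_of_ne hPP, sub_zero]
      exact hu.ord_of_ne ((𝔻₁.comp_r_eq_some_iff).mpr hP') hPP
  rw [hsplit, map_add, Finsupp.mapDomain_add, Finsupp.add_apply,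
    mapDomain_pullbackAlong_of_forall h hD'0, add_zero]

/-- **`Mult` from the compatibility of the Gauss rings.** -/
theorem exists_mult (h : SpecMap 𝔻₁ 𝔻₂ φ hφ ρ) (hG : GaussMap 𝔻₁ 𝔻₂ φ ρ) :
    ∃ m : Pts ι₂ E₂ k Ft₂ → ℤ, Mult 𝔻₁ 𝔻₂ φ hφ ρ m := by
  classical
  -- the multiplicity of the disc `x₂`, read at a chosen point of the disc `ρ x₂`
  refine ⟨fun x => Sum.elim (fun x₂ : ι₂ × Place k Ft₂ =>
    if hx : ∃ P₁, 𝔻₁.r P₁ = ρ (Sum.inl x₂) then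
      Finsupp.mapDomain 𝔻₂.r (Divisor.pullbackAlong φ hφ (Finsupp.single (Classical.choose hx) 1))
        (Sum.inl x₂) else 0) (fun _ => 0) x, ?_⟩
  rintro P₁ ⟨v₂, Q₂⟩ hP₁
  have hx : ∃ P₁, 𝔻₁.r P₁ = ρ (Sum.inl (v₂, Q₂)) := ⟨P₁, hP₁⟩
  show _ = dite _ _ _
  rw [dif_pos hx]
  set P₁' := Classical.choose hx with hP₁'def
  have hP₁' : 𝔻₁.r P₁' = ρ (Sum.inl (v₂, Q₂)) := Classical.choose_spec hx
  obtain ⟨⟨v₁, Q₁⟩, hρ⟩ := h.inl_inl (v₂, Q₂)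
  rw [hρ] at hP₁ hP₁'
  by_cases hne : ∃ P₂, 𝔻₂.r P₂ = Sum.inl (v₂, Q₂)
  · obtain ⟨φbar, hG1, hG2⟩ := hG v₂ Q₂ v₁ Q₁ hρ
    obtain ⟨u, hu⟩ := (𝔻₁.comp v₁).exists_isGoodUnif ((𝔻₁.comp_r_eq_some_iff).mpr hP₁)
    obtain ⟨u', hu'⟩ := (𝔻₁.comp v₁).exists_isGoodUnif ((𝔻₁.comp_r_eq_some_iff).mpr hP₁')
    rw [mult_eq_ord h hρ hne hG1 hu, mult_eq_ord h hρ hne hG1 hu']
    -- the two reductions differ by a unit at `Q₁`
    have hr : 𝔻₁.red v₁ u ≠ 0 := hu.red_ne_zero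
    have hr' : 𝔻₁.red v₁ u' ≠ 0 := hu'.red_ne_zero
    have ho : Q₁.ord (𝔻₁.red v₁ u) = 1 := hu.ord_red
    have ho' : Q₁.ord (𝔻₁.red v₁ u') = 1 := hu'.ord_red
    set f : Ft₁ := 𝔻₁.red v₁ u * (𝔻₁.red v₁ u')⁻¹ with hf
    have hf0 : f ≠ 0 := mul_ne_zero hr (inv_ne_zero hr')
    have hfo : Q₁.ord f = 0 := by
      rw [hf, Q₁.ord_mul hr (inv_ne_zero hr'), Q₁.ord_inv, ho, ho']
      norm_num
    have h2 := hG2 f hf0 hfo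
    have e : 𝔻₁.red v₁ u = f * 𝔻₁.red v₁ u' := by
      rw [hf, mul_assoc, inv_mul_cancel₀ hr', mul_one]
    rw [e, map_mul, Q₂.ord_mul ((map_ne_zero φbar).mpr hf0) ((map_ne_zero φbar).mpr hr'), h2,
      zero_add]
  · -- empty disc: both sides vanish
    have h0 : ∀ P : Place L F₁, Finsupp.mapDomain 𝔻₂.r
        (Divisor.pullbackAlong φ hφ (Finsupp.single P 1)) (Sum.inl (v₂, Q₂)) = 0 := by
      intro P
      refine mapDomain_apply_eq_zero_of_forall _ _ fun w hw => ?_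
      exact absurd ⟨w, hw⟩ hne
    rw [h0, h0]

/-- **`φ^*` maps the kernel of reduction into the kernel of reduction** (Gauss form). -/
theorem pic0Pull_mem_kerRed' (h : SpecMap 𝔻₁ 𝔻₂ φ hφ ρ) (hG : GaussMap 𝔻₁ 𝔻₂ φ ρ)
    (hFI : FundamentalIdentityAlong L φ hφ) {x : Pic0 L F₁} (hx : x ∈ kerRed 𝔻₁) :
    pic0PullbackAlong φ hφ hFI x ∈ kerRed 𝔻₂ := by
  obtain ⟨m, hm⟩ := exists_mult h hG
  exact pic0Pull_mem_kerRed h hm hFI hx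

end

end Fermat.Agent.MP.FUNC.KerMult1
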