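/-
PROGRAMME MP (row 38 via S44), chapter FUNC (helper1): **`KerMult1` with the Gauss condition only over
the non-empty smooth discs.**

`GaussMapOn 𝔻₁ 𝔻₂ φ ρ` is `KerMult1.GaussMap` restricted to the smooth discs `(v₂, Q₂)` of `𝔻₂`
containing a place (`∃ P₂, 𝔻₂.r P₂ = (v₂, Q₂)`): this is what a covering of two-chart models
provides (`PtsMap1`), the value of `ρ` on the pairs `(v₂, Q₂)` which are not smooth points of `𝔻₂`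
being junk.

`exists_mult_on`, `pic0Pull_mem_kerRed_on` : the conclusions of `KerMult1.exists_mult`,
`KerMult1.pic0Pull_mem_kerRed'` from `SpecMap` + `GaussMapOn`.
-/
import Mathlib
import Fermat.Agent.MP.FUNC.KerMult1

set_option autoImplicit false
set_option linter.unusedSectionVars false
set_option linter.unusedVariables false
set_option linter.style.longLine false

namespace Fermat.Agent.MP.FUNC.KerMultOn1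

open AlgebraicCurve Fermat.Agent.X0.FF Fermat.Agent.RR.LSpace Fermat.Agent.MW.EMB.Value6
open Fermat.Agent.ORD.ANN.Side3 Fermat.Agent.ORD.ANN.Node3
open Fermat.Agent.ORD.SEMIRED.SemiRedDatum9 Fermat.Agent.ORD.REDN.DiscC9
open Fermat.Agent.ORD.KERN.KerDefs9 Fermat.Agent.ORD.KERN.KerN9
open Fermat.Agent.ES.N35.PushO12 Fermat.Agent.ES.HECKE.LevelPullback12
open Fermat.Agent.MP.FUNC.KerMap1 Fermat.Agent.MP.FUNC.KerMult1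

noncomputable section

variable {L F₁ F₂ k Ft₁ Ft₂ : Type*} [Field L] [Field F₁] [Field F₂] [Algebra L F₁] [Algebra L F₂]
  [Field k] [Field Ft₁] [Field Ft₂] [Algebra k Ft₁] [Algebra k Ft₂]
variable {ι₁ E₁ ι₂ E₂ : Type*}

/-- **compatibility of the Gauss rings and reductions** over the non-empty smooth discs. -/
def GaussMapOn (𝔻₁ : SemiRedDatum L F₁ k Ft₁ ι₁ E₁) (𝔻₂ : SemiRedDatum L F₂ k Ft₂ ι₂ E₂)
    (φ : F₁ →ₐ[L] F₂) (ρ : Pts ι₂ E₂ k Ft₂ → Pts ι₁ E₁ k Ft₁) : Prop :=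
  ∀ (v₂ : ι₂) (Q₂ : Place k Ft₂) (v₁ : ι₁) (Q₁ : Place k Ft₁),
    (∃ P₂ : Place L F₂, 𝔻₂.r P₂ = Sum.inl (v₂, Q₂)) →
    ρ (Sum.inl (v₂, Q₂)) = Sum.inl (v₁, Q₁) →
      ∃ φbar : Ft₁ →+* Ft₂,
        (∀ g : 𝔻₁.G v₁, ∃ h : φ (g : F₁) ∈ 𝔻₂.G v₂, 𝔻₂.red v₂ ⟨_, h⟩ = φbar (𝔻₁.red v₁ g)) ∧
        (∀ f : Ft₁, f ≠ 0 → Q₁.ord f = 0 → Q₂.ord (φbar f) = 0)

variable {𝔻₁ : SemiRedDatum L F₁ k Ft₁ ι₁ E₁} {𝔻₂ : SemiRedDatum L F₂ k Ft₂ ι₂ E₂}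
  {φ : F₁ →ₐ[L] F₂} {hφ : φ.toRingHom.IsIntegral}
  {ρ : Pts ι₂ E₂ k Ft₂ → Pts ι₁ E₁ k Ft₁} [HasPrincipalDivisors L F₂]

theorem GaussMapOn.of_gaussMap (h : GaussMap 𝔻₁ 𝔻₂ φ ρ) : GaussMapOn 𝔻₁ 𝔻₂ φ ρ :=
  fun v₂ Q₂ v₁ Q₁ _ hρ => h v₂ Q₂ v₁ Q₁ hρ

/-- **`Mult` from the compatibility of the Gauss rings over the non-empty discs.** -/
theorem exists_mult_on (h : SpecMap 𝔻₁ 𝔻₂ φ hφ ρ) (hG : GaussMapOn 𝔻₁ 𝔻₂ φ ρ) :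
    ∃ m : Pts ι₂ E₂ k Ft₂ → ℤ, Mult 𝔻₁ 𝔻₂ φ hφ ρ m := by
  classical
  refine ⟨fun x => Sum.elim (fun x₂ : ι₂ × Place k Ft₂ =>
    if hx : ∃ P₁, 𝔻₁.r P₁ = ρ (Sum.inl x₂) then
      Finsupp.mapDomain 𝔻₂.r (Divisor.pullbackAlong φ hφ (Finsupp.single (Classical.choose hx) 1))
        (Sum.inl x₂) else 0) (fun _ => 0) x, ?_⟩
  rintro P₁ ⟨v₂, Q₂⟩ hP₁
  have hx : ∃ P₁, 𝔻₁.r P₁ = ρ (Sum.inl (v₂, Q₂)) := ⟨P₁, hP₁⟩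
  show _ = dite _ _ _
  rw [dif_pos hx]
  set P₁' := Classical.choose hx with hP₁'def
  have hP₁' : 𝔻₁.r P₁' = ρ (Sum.inl (v₂, Q₂)) := Classical.choose_spec hx
  obtain ⟨⟨v₁, Q₁⟩, hρ⟩ := h.inl_inl (v₂, Q₂)
  rw [hρ] at hP₁ hP₁'
  by_cases hne : ∃ P₂, 𝔻₂.r P₂ = Sum.inl (v₂, Q₂)
  · obtain ⟨φbar, hG1, hG2⟩ := hG v₂ Q₂ v₁ Q₁ hne hρ
    obtain ⟨u, hu⟩ := (𝔻₁.comp v₁).exists_isGoodUnif ((𝔻₁.comp_r_eq_some_iff).mpr hP₁)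
    obtain ⟨u', hu'⟩ := (𝔻₁.comp v₁).exists_isGoodUnif ((𝔻₁.comp_r_eq_some_iff).mpr hP₁')
    rw [mult_eq_ord h hρ hne hG1 hu, mult_eq_ord h hρ hne hG1 hu']
    have hr : 𝔻₁.red v₁ u ≠ 0 := hu.red_ne_zero
    have hr' : 𝔻₁.red v₁ u' ≠ 0 := hu'.red_ne_zero
    have ho : Q₁.ord (𝔻₁.red v₁ u) = 1 := hu.ord_red
    have ho' : Q₁.ord (𝔻₁.red v₁ u') = 1 := hu'.ord_red
    set f : Ft₁ := 𝔻₁.red v₁ u * (𝔻₁.red v₁ u')⁻¹ with hf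
    have hf0 : f ≠ 0 := mul_ne_zero hr (inv_ne_zero hr')
    have hfo : Q₁.ord f = 0 := by
      rw [hf, Q₁.ord_mul hr (inv_ne_zero hr'), Q₁.ord_inv, ho, ho']
      norm_num
    have h2 := hG2 f hf0 hfo
    have e : 𝔻₁.red v₁ u = f * 𝔻₁.red v₁ u' := by
      rw [hf, mul_assoc, inv_mul_cancel₀ hr', mul_one]
    rw [e, map_mul, Q₂.ord_mul ((map_ne_zero φbar).mpr hf0) ((map_ne_zero φbar).mpr hr'), h2,
      zero_add]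
  · have h0 : ∀ P : Place L F₁, Finsupp.mapDomain 𝔻₂.r
        (Divisor.pullbackAlong φ hφ (Finsupp.single P 1)) (Sum.inl (v₂, Q₂)) = 0 := by
      intro P
      refine mapDomain_apply_eq_zero_of_forall _ _ fun w hw => ?_
      exact absurd ⟨w, hw⟩ hne
    rw [h0, h0]

/-- **`φ^*` maps the kernel of reduction into the kernel of reduction** (Gauss form over the
non-empty discs). -/
theorem pic0Pull_mem_kerRed_on (h : SpecMap 𝔻₁ 𝔻₂ φ hφ ρ) (hG : GaussMapOn 𝔻₁ 𝔻₂ φ ρ)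
    (hFI : FundamentalIdentityAlong L φ hφ) {x : Pic0 L F₁} (hx : x ∈ kerRed 𝔻₁) :
    pic0PullbackAlong φ hφ hFI x ∈ kerRed 𝔻₂ := by
  obtain ⟨m, hm⟩ := exists_mult_on h hG
  exact pic0Pull_mem_kerRed h hm hFI hx

end

end Fermat.Agent.MP.FUNC.KerMultOn1
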