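/-
PROGRAMME MP (row 38 via S44), chapter FUNC (helper1), LAYER 2: **a covering of two-chart models gives a
covering of semistable data** (`KerMap1.SpecMap` + `KerMultOn1.GaussMapOn`).

Two two-chart models `𝔓₁ : PtsData B F₁ Ft₁ ι₁ E₁`, `𝔓₂ : PtsData B F₂ Ft₂ ι₂ E₂` over the same base
`B` and `φ : F₁ →ₐ[L] F₂`.

* `ChartHyp 𝔓₁ 𝔓₂ φ` : the charts `𝔓₂.B0`, `𝔓₂.B1` are integrally closed in `F₂` (`hint0`, `hint1`; for
  `chart A t` this is `ChartGeneric22.chart_intcl`) and **(H1)** for every closed point `x₂` of the target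
  model `φ t₁ ∈ ringPts x₂ ∨ (φ t₁)⁻¹ ∈ ringPts x₂` (`t₁` is a morphism to `ℙ¹` on the target model).
  `ChartHyp.of_mem` : (H1) from `φ t₁ ∈ 𝔓₂.B0`, `(φ t₁)⁻¹ ∈ 𝔓₂.B1`.
* `GaussHyp 𝔓₁ 𝔓₂ φ cmap φbar` : **(H2)** `cmap : ι₂ → ι₁` injective, `φ (G₁ (cmap v₂)) ⊆ G₂ v₂` and
  `red₂ ∘ φ = φbar v₂ ∘ red₁`.
* `locC_intcl`, `map_chart_mem`, `exists_rho0`, `rho0`, `rho0_mem`, `rho0_chi` : the image `rho0 x₂` of
  a closed point: `φ (ringPts (rho0 x₂)) ⊆ ringPts x₂`, compatibly with the residue maps;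
  `c_restrict` : `𝔓₁.c (P₂|F₁) = rho0 (𝔓₂.c P₂)`.
* `onPts_of_map`, `not_node_of_disc`, `exists_node`, `exists_pt`, `ord_phibar` : nodes map to nodes,
  one-branch points to one-branch points (of the component `cmap v₂`), units to units.
* **`specMap`, `gaussMapOn`, `exists_specMap_gaussMapOn`** for `datum 𝔓 = 𝔓.toAssemblyData.toSemiRedDatum`;
  **`pic0Push_mem_kerRed_of_hyp`, `pic0Pull_mem_kerRed_of_hyp`** : `φ_*`, `φ^*` respect `kerRed`.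
-/
import Mathlib
import Fermat.Agent.MP.FUNC.KerMultOn1
import Fermat.Agent.ORD.IFACEN.PtsAssembly3

set_option autoImplicit false
set_option linter.unusedSectionVars false
set_option linter.unusedVariables false
set_option linter.style.longLine false

namespace Fermat.Agent.MP.FUNC.PtsMap1

open AlgebraicCurve Fermat.Agent.X0.FF Fermat.Agent.RR.LSpace Fermat.Agent.MW.EMB.Value6
open Fermat.Agent.ORD.ANN.Side3 Fermat.Agent.ORD.ANN.Node3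
open Fermat.Agent.ORD.IFACEN.DiscSys8 Fermat.Agent.ORD.IFACEN.DiscPlaces8
  Fermat.Agent.ORD.IFACEN.LocAt8 Fermat.Agent.ORD.IFACEN.Centre8
  Fermat.Agent.ORD.IFACEN.SmoothAtlas8 Fermat.Agent.ORD.IFACEN.AtlasSplit6
  Fermat.Agent.ORD.IFACEN.AtlasPts6 Fermat.Agent.ORD.IFACEN.AssembleN9
  Fermat.Agent.ORD.IFACEN.PtsDict3 Fermat.Agent.ORD.IFACEN.PtsAssembly3
open Fermat.Agent.ORD.NODE.NodeSys4
open Fermat.Agent.RED.PUR.ChartGeneric22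
open Fermat.Agent.ES.N34.NodalSmooth13

noncomputable section

section IntCl

variable {L F k : Type*} [Field L] [Field F] [Algebra L F] [Field k]
variable {A : ValuationSubring L} [Algebra A F] [IsScalarTower A L F]

/-- **the local ring of an integrally closed chart is integrally closed in `F`.** -/
theorem locC_intcl (BA : Subalgebra A F) (χ₀ : BA →+* k)
    (hBA : ∀ x : F, IsIntegral BA x → x ∈ BA) (x : F) (hx : IsIntegral (locC BA χ₀) x) :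
    x ∈ locC BA χ₀ := by
  have hx' : IsIntegral ↥(locSub BA (pt BA χ₀)) x := by
    obtain ⟨p, hp, hpx⟩ := hx
    refine ⟨p.map (toLocSub BA χ₀), hp.map _, ?_⟩
    rw [Polynomial.eval₂_map]
    exact hpx
  have : IsScalarTower ↥BA ↥(locSub BA (pt BA χ₀)) F :=
    IsScalarTower.of_algebraMap_eq (fun _ => rfl)
  obtain ⟨⟨d, hd⟩, hdx⟩ :=
    IsIntegral.exists_multiple_integral_of_isLocalization (pt BA χ₀).primeCompl x hx'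
  have hmem : (d : F) * x ∈ BA := hBA _ hdx
  exact ⟨⟨_, hmem⟩, d, hd, by rw [mul_comm]⟩

end IntCl

section MapChart

variable {L F₁ F₂ : Type*} [Field L] [Field F₁] [Field F₂] [Algebra L F₁] [Algebra L F₂]
variable {A : ValuationSubring L} [Algebra A F₁] [IsScalarTower A L F₁] [Algebra A F₂]
  [IsScalarTower A L F₂]

theorem map_algebraMap_A (φ : F₁ →ₐ[L] F₂) (a : A) :
    φ (algebraMap A F₁ a) = algebraMap A F₂ a := by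
  rw [algebraMap_A_eq, algebraMap_A_eq, AlgHom.commutes]

/-- `φ` maps `A[t]` into an integrally closed subring containing the constants and `φ t`. -/
theorem map_adjoin_mem (φ : F₁ →ₐ[L] F₂) {C : Subring F₂}
    (hconst : ∀ a : A, algebraMap L F₂ (a : L) ∈ C) {t : F₁} (ht : φ t ∈ C) {y : F₁}
    (hy : y ∈ Algebra.adjoin A {t}) : φ y ∈ C := by
  induction hy using Algebra.adjoin_induction with
  | mem x hx =>
    rw [Set.mem_singleton_iff] at hx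
    subst hx
    exact ht
  | algebraMap r =>
    rw [map_algebraMap_A, algebraMap_A_eq]
    exact hconst r
  | add x y _ _ hx hy => rw [map_add]; exact C.add_mem hx hy
  | mul x y _ _ hx hy => rw [map_mul]; exact C.mul_mem hx hy

/-- **`φ` maps the chart `chart A t` into every integrally closed subring of `F₂` containing the
constants and `φ t`.** -/
theorem map_chart_mem (φ : F₁ →ₐ[L] F₂) {C : Subring F₂}
    (hC : ∀ x : F₂, IsIntegral C x → x ∈ C)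
    (hconst : ∀ a : A, algebraMap L F₂ (a : L) ∈ C) {t : F₁} (ht : φ t ∈ C) {b : F₁}
    (hb : b ∈ chart A t) : φ b ∈ C := by
  apply hC
  have hb' : IsIntegral (Algebra.adjoin A {t}) b := hb
  let ψ : ↥(Algebra.adjoin A {t}) →+* C :=
    (φ.toRingHom.comp (Algebra.adjoin A {t}).val.toRingHom).codRestrict C
      (fun y => map_adjoin_mem φ hconst ht y.2)
  exact IsIntegral.map_of_comp_eq ψ φ.toRingHom (RingHom.ext fun _ => rfl) hb'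

end MapChart

section Local

variable {L F₁ F₂ k : Type*} [Field L] [Field F₁] [Field F₂] [Algebra L F₁] [Algebra L F₂]
  [Field k]
variable {A : ValuationSubring L} [Algebra A F₁] [IsScalarTower A L F₁] [Algebra A F₂]
  [IsScalarTower A L F₂]
variable (φ : F₁ →ₐ[L] F₂) {C : Subring F₂} (χ : C →+* k)

/-- the residue map of a closed point of the target pulled back to a chart of the source. -/
def pullChi (BA : Subalgebra A F₁) (hmap : ∀ b ∈ BA, φ b ∈ C) : BA →+* k :=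
  χ.comp ((φ.toRingHom.comp BA.val.toRingHom).codRestrict C (fun b => hmap b b.2))

theorem pullChi_apply (BA : Subalgebra A F₁) (hmap : ∀ b ∈ BA, φ b ∈ C) (b : BA) :
    pullChi φ χ BA hmap b = χ ⟨φ b, hmap b b.2⟩ := rfl

theorem pullChi_const {res : A →+* k} (hconst : ∀ a : A, algebraMap L F₂ (a : L) ∈ C)
    (hχ : ∀ a : A, χ ⟨_, hconst a⟩ = res a) (BA : Subalgebra A F₁)
    (hmap : ∀ b ∈ BA, φ b ∈ C) (a : A) :
    pullChi φ χ BA hmap (algebraMap A BA a) = res a := by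
  rw [pullChi_apply, ← hχ a]
  congr 1
  apply Subtype.ext
  show φ (algebraMap A F₁ a) = _
  rw [map_algebraMap_A, algebraMap_A_eq]

variable (hinv : ∀ c : C, χ c ≠ 0 → (c : F₂)⁻¹ ∈ C)

include hinv in
theorem map_locC_mem (BA : Subalgebra A F₁) (hmap : ∀ b ∈ BA, φ b ∈ C) {c : F₁}
    (hc : c ∈ locC BA (pullChi φ χ BA hmap)) : φ c ∈ C := by
  obtain ⟨a, d, hd, e⟩ := hc
  have hd' : χ ⟨φ d, hmap d d.2⟩ ≠ 0 := hd
  have h1 : (φ (d : F₁))⁻¹ ∈ C := hinv _ hd'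
  have hd0 : φ (d : F₁) ≠ 0 := by
    intro h0
    apply hd'
    have : (⟨φ d, hmap d d.2⟩ : C) = 0 := Subtype.ext h0
    rw [this, map_zero]
  have h2 : φ c = φ a * (φ (d : F₁))⁻¹ := by
    rw [← e, map_mul]
    field_simp
  rw [h2]
  exact C.mul_mem (hmap a a.2) h1

include hinv in
theorem chi_map_locC (BA : Subalgebra A F₁) (hmap : ∀ b ∈ BA, φ b ∈ C)
    (c : locC BA (pullChi φ χ BA hmap)) :
    χ ⟨φ c, map_locC_mem φ χ hinv BA hmap c.2⟩ = chiC BA (pullChi φ χ BA hmap) c := by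
  obtain ⟨a, d, hd, e⟩ := exists_rep BA _ c
  have h1 := chiC_mul_eq BA _ e
  have h2 : χ ⟨φ c, map_locC_mem φ χ hinv BA hmap c.2⟩ * χ ⟨φ d, hmap d d.2⟩ =
      χ ⟨φ a, hmap a a.2⟩ := by
    rw [← map_mul]
    congr 1
    apply Subtype.ext
    show φ c * φ d = φ a
    rw [← map_mul, e]
  exact mul_right_cancel₀ hd (h2.trans h1.symm)

end Local

section RingPts

variable {L F k : Type*} [Field L] [Field F] [Algebra L F] [Field k]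
variable {A : ValuationSubring L} [Algebra A F] [IsScalarTower A L F]
variable {res : A →+* k} {B0 B1 : Subalgebra A F} {tinv : B1}

theorem ringPts_inv_mem (x : Pts res B0 B1 tinv) (c : ringPts x) (hc : chiPts x c ≠ 0) :
    (c : F)⁻¹ ∈ ringPts x := by
  rcases x with x₀ | y
  · exact inv_mem_locC B0 x₀.χ c hc
  · exact inv_mem_locC B1 y.1.χ c hc

theorem ringPts_const_mem (x : Pts res B0 B1 tinv) (a : A) :
    algebraMap L F (a : L) ∈ ringPts x := by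
  rcases x with x₀ | y
  · exact const_mem_locC B0 x₀.χ a
  · exact const_mem_locC B1 y.1.χ a

theorem chiPts_const (x : Pts res B0 B1 tinv) (a : A) :
    chiPts x ⟨_, ringPts_const_mem x a⟩ = res a := by
  rcases x with x₀ | y
  · exact chiC_const B0 x₀.χ x₀.const a
  · exact chiC_const B1 y.1.χ y.1.const a

end RingPts

section RingPts2

variable {L F k : Type*} [Field L] [Field F] [Algebra L F] [Field k]
variable {A : ValuationSubring L} [Algebra A F] [IsScalarTower A L F]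
variable {res : A →+* k} {B0 B1 : Subalgebra A F} {tinv : B1}

theorem ringPts_intcl (hint0 : ∀ z : F, IsIntegral B0 z → z ∈ B0)
    (hint1 : ∀ z : F, IsIntegral B1 z → z ∈ B1) (x : Pts res B0 B1 tinv) (z : F)
    (hz : IsIntegral (ringPts x) z) : z ∈ ringPts x := by
  rcases x with x₀ | y
  · exact locC_intcl B0 x₀.χ hint0 z hz
  · exact locC_intcl B1 y.1.χ hint1 z hz

end RingPts2

/-! ### the map on closed points -/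

section Rho0

universe uL uk uF₁ uF₂ uFt₁ uFt₂ uι₁ uι₂ uE₁ uE₂ uP₁ uP₂

variable {L : Type uL} {k : Type uk} [Field L] [Field k] {B : Base L k}
variable {F₁ : Type uF₁} {F₂ : Type uF₂} {Ft₁ : Type uFt₁} {Ft₂ : Type uFt₂}
  [Field F₁] [Algebra L F₁] [Field Ft₁] [Algebra k Ft₁] [Algebra B.A F₁] [IsScalarTower B.A L F₁]
  [Field F₂] [Algebra L F₂] [Field Ft₂] [Algebra k Ft₂] [Algebra B.A F₂] [IsScalarTower B.A L F₂]
variable {ι₁ : Type uι₁} {E₁ : Type uE₁} {ι₂ : Type uι₂} {E₂ : Type uE₂}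
variable (𝔓₁ : PtsData.{uL, uk, uF₁, uFt₁, uι₁, uE₁, uP₁} B F₁ Ft₁ ι₁ E₁)
  (𝔓₂ : PtsData.{uL, uk, uF₂, uFt₂, uι₂, uE₂, uP₂} B F₂ Ft₂ ι₂ E₂)
  (φ : F₁ →ₐ[L] F₂)

/-- the closed points of the two models. -/
abbrev P1 := Pts B.res 𝔓₁.B0 𝔓₁.B1 𝔓₁.tinv

/-- **a closed point of the target model has an image in the source model**: the local ring of the
image maps to the local ring of the point, compatibly with the residue maps. -/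
theorem exists_rho0 (hint0 : ∀ z : F₂, IsIntegral 𝔓₂.B0 z → z ∈ 𝔓₂.B0)
    (hint1 : ∀ z : F₂, IsIntegral 𝔓₂.B1 z → z ∈ 𝔓₂.B1)
    (x₂ : Pts B.res 𝔓₂.B0 𝔓₂.B1 𝔓₂.tinv)
    (H1 : φ 𝔓₁.t ∈ ringPts x₂ ∨ (φ 𝔓₁.t)⁻¹ ∈ ringPts x₂) :
    ∃ (x₁ : Pts B.res 𝔓₁.B0 𝔓₁.B1 𝔓₁.tinv) (hmap : ∀ c ∈ ringPts x₁, φ c ∈ ringPts x₂),
      ∀ c : ringPts x₁, chiPts x₂ ⟨φ c, hmap c c.2⟩ = chiPts x₁ c := by
  have hC := ringPts_intcl hint0 hint1 x₂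
  by_cases h : φ 𝔓₁.t ∈ ringPts x₂
  · have hmap0 : ∀ b ∈ 𝔓₁.B0, φ b ∈ ringPts x₂ := fun b hb =>
      map_chart_mem φ hC (ringPts_const_mem x₂) h (𝔓₁.hB0 b hb)
    refine ⟨Sum.inl ⟨pullChi φ (chiPts x₂) 𝔓₁.B0 hmap0,
      pullChi_const φ (chiPts x₂) (ringPts_const_mem x₂) (chiPts_const x₂) 𝔓₁.B0 hmap0⟩,
      fun c hc => map_locC_mem φ (chiPts x₂) (ringPts_inv_mem x₂) 𝔓₁.B0 hmap0 hc, fun c => ?_⟩
    exact chi_map_locC φ (chiPts x₂) (ringPts_inv_mem x₂) 𝔓₁.B0 hmap0 c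
  · have hinv' : (φ 𝔓₁.t)⁻¹ ∈ ringPts x₂ := H1.resolve_left h
    have hmap1 : ∀ b ∈ 𝔓₁.B1, φ b ∈ ringPts x₂ := fun b hb =>
      map_chart_mem φ hC (ringPts_const_mem x₂) (t := 𝔓₁.t⁻¹) (by rw [map_inv₀]; exact hinv')
        (𝔓₁.hB1 b hb)
    have hti : pullChi φ (chiPts x₂) 𝔓₁.B1 hmap1 𝔓₁.tinv = 0 := by
      by_contra hne
      rw [pullChi_apply] at hne
      have := ringPts_inv_mem x₂ _ hne
      apply h
      have e : (φ (𝔓₁.tinv : F₁))⁻¹ = φ 𝔓₁.t := by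
        rw [𝔓₁.ht1, map_inv₀, inv_inv]
      rw [← e]
      exact this
    refine ⟨Sum.inr ⟨⟨pullChi φ (chiPts x₂) 𝔓₁.B1 hmap1,
      pullChi_const φ (chiPts x₂) (ringPts_const_mem x₂) (chiPts_const x₂) 𝔓₁.B1 hmap1⟩, hti⟩,
      fun c hc => map_locC_mem φ (chiPts x₂) (ringPts_inv_mem x₂) 𝔓₁.B1 hmap1 hc, fun c => ?_⟩
    exact chi_map_locC φ (chiPts x₂) (ringPts_inv_mem x₂) 𝔓₁.B1 hmap1 c

/-- **the hypotheses on the covering of two-chart models**: the charts of the target are integrally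
closed and `t₁` is a morphism to `ℙ¹` on the target model. -/
structure ChartHyp : Prop where
  hint0 : ∀ z : F₂, IsIntegral 𝔓₂.B0 z → z ∈ 𝔓₂.B0
  hint1 : ∀ z : F₂, IsIntegral 𝔓₂.B1 z → z ∈ 𝔓₂.B1
  H1 : ∀ x₂ : Pts B.res 𝔓₂.B0 𝔓₂.B1 𝔓₂.tinv,
    φ 𝔓₁.t ∈ ringPts x₂ ∨ (φ 𝔓₁.t)⁻¹ ∈ ringPts x₂

variable {𝔓₁ 𝔓₂ φ} (H : ChartHyp 𝔓₁ 𝔓₂ φ)

/-- the image of a closed point. -/
def rho0 (x₂ : Pts B.res 𝔓₂.B0 𝔓₂.B1 𝔓₂.tinv) : Pts B.res 𝔓₁.B0 𝔓₁.B1 𝔓₁.tinv :=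
  Classical.choose (exists_rho0 𝔓₁ 𝔓₂ φ H.hint0 H.hint1 x₂ (H.H1 x₂))

theorem rho0_mem (x₂ : Pts B.res 𝔓₂.B0 𝔓₂.B1 𝔓₂.tinv) {c : F₁} (hc : c ∈ ringPts (rho0 H x₂)) :
    φ c ∈ ringPts x₂ :=
  Classical.choose (Classical.choose_spec (exists_rho0 𝔓₁ 𝔓₂ φ H.hint0 H.hint1 x₂ (H.H1 x₂))) c hc

theorem rho0_chi (x₂ : Pts B.res 𝔓₂.B0 𝔓₂.B1 𝔓₂.tinv) (c : ringPts (rho0 H x₂)) :
    chiPts x₂ ⟨φ c, rho0_mem H x₂ c.2⟩ = chiPts (rho0 H x₂) c :=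
  Classical.choose_spec (Classical.choose_spec
    (exists_rho0 𝔓₁ 𝔓₂ φ H.hint0 H.hint1 x₂ (H.H1 x₂))) c

/-- **the centre maps commute with the restriction of places.** -/
theorem c_restrict (hφ : φ.toRingHom.IsIntegral) (P₂ : Place L F₂) :
    𝔓₁.c (P₂.restrictAlong φ hφ) = rho0 H (𝔓₂.c P₂) := by
  rw [𝔓₁.hc]
  intro c hc
  show φ c ∈ P₂.toValuationSubring
  have h2 : InDisc (ringPts (𝔓₂.c P₂)) P₂ := (𝔓₂.hc P₂ _).mp rfl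
  exact h2 _ (rho0_mem H _ hc)

end Rho0

/-! ### the components -/

section Gauss

universe uL uk uF₁ uF₂ uFt₁ uFt₂ uι₁ uι₂ uE₁ uE₂ uP₁ uP₂

variable {L : Type uL} {k : Type uk} [Field L] [Field k] {B : Base L k}
variable {F₁ : Type uF₁} {F₂ : Type uF₂} {Ft₁ : Type uFt₁} {Ft₂ : Type uFt₂}
  [Field F₁] [Algebra L F₁] [Field Ft₁] [Algebra k Ft₁] [Algebra B.A F₁] [IsScalarTower B.A L F₁]
  [Field F₂] [Algebra L F₂] [Field Ft₂] [Algebra k Ft₂] [Algebra B.A F₂] [IsScalarTower B.A L F₂]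
variable {ι₁ : Type uι₁} {E₁ : Type uE₁} {ι₂ : Type uι₂} {E₂ : Type uE₂}
variable (𝔓₁ : PtsData.{uL, uk, uF₁, uFt₁, uι₁, uE₁, uP₁} B F₁ Ft₁ ι₁ E₁)
  (𝔓₂ : PtsData.{uL, uk, uF₂, uFt₂, uι₂, uE₂, uP₂} B F₂ Ft₂ ι₂ E₂)
  (φ : F₁ →ₐ[L] F₂)

/-- **compatibility of the Gauss rings of the components**: the component `v₂` of the target lies
over the component `cmap v₂` of the source. -/
structure GaussHyp (cmap : ι₂ → ι₁) (φbar : ι₂ → Ft₁ →+* Ft₂) : Prop where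
  inj : Function.Injective cmap
  map : ∀ (v₂ : ι₂) (g : (𝔓₁.side (cmap v₂)).G),
    ∃ h : φ (g : F₁) ∈ (𝔓₂.side v₂).G,
      (𝔓₂.side v₂).red ⟨_, h⟩ = φbar v₂ ((𝔓₁.side (cmap v₂)).red g)

variable {𝔓₁ 𝔓₂ φ} {cmap : ι₂ → ι₁} {φbar : ι₂ → Ft₁ →+* Ft₂}
  (G : GaussHyp 𝔓₁ 𝔓₂ φ cmap φbar)

include G in
theorem GaussHyp.map' (v₂ : ι₂) {v₁ : ι₁} (hv : v₁ = cmap v₂) (g : (𝔓₁.side v₁).G) :
    ∃ h : φ (g : F₁) ∈ (𝔓₂.side v₂).G,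
      (𝔓₂.side v₂).red ⟨_, h⟩ = φbar v₂ ((𝔓₁.side v₁).red g) := by
  subst hv
  exact G.map v₂ g

variable {x₂ : Pts B.res 𝔓₂.B0 𝔓₂.B1 𝔓₂.tinv}

include G in
/-- a closed point of the component `v₂` maps to a closed point of the component `cmap v₂`. -/
theorem onPts_of_map (x₁ : Pts B.res 𝔓₁.B0 𝔓₁.B1 𝔓₁.tinv)
    (hmap : ∀ c ∈ ringPts x₁, φ c ∈ ringPts x₂)
    (hchi' : ∀ c : ringPts x₁, chiPts x₂ ⟨φ c, hmap c c.2⟩ = chiPts x₁ c)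
    (v₂ : ι₂) (hle : ∀ c ∈ ringPts x₂, c ∈ (𝔓₂.side v₂).G)
    (hchi : ∀ c : ringPts x₂, (𝔓₂.side v₂).red ⟨c, hle c c.2⟩ = 0 → chiPts x₂ c = 0) :
    OnPts (𝔓₁.side (cmap v₂)).red (𝔓₁.le0 _) (𝔓₁.le1 _) x₁ := by
  rcases x₁ with x₀ | y
  · intro b hb
    have hbmem : (b : F₁) ∈ ringPts (Sum.inl x₀ : Pts B.res 𝔓₁.B0 𝔓₁.B1 𝔓₁.tinv) :=
      le_locC _ _ b.2
    have h1 := hchi' ⟨b, hbmem⟩
    have h2 : chiPts (Sum.inl x₀ : Pts B.res 𝔓₁.B0 𝔓₁.B1 𝔓₁.tinv) ⟨b, hbmem⟩ = x₀.χ b :=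
      chiC_ofBA 𝔓₁.B0 x₀.χ b
    rw [← h2, ← h1]
    apply hchi
    obtain ⟨hm, hr⟩ := G.map v₂ ⟨b, 𝔓₁.le0 _ b b.2⟩
    exact hr.trans (by rw [hb, map_zero])
  · intro b hb
    have hbmem : (b : F₁) ∈ ringPts (Sum.inr y : Pts B.res 𝔓₁.B0 𝔓₁.B1 𝔓₁.tinv) :=
      le_locC _ _ b.2
    have h1 := hchi' ⟨b, hbmem⟩
    have h2 : chiPts (Sum.inr y : Pts B.res 𝔓₁.B0 𝔓₁.B1 𝔓₁.tinv) ⟨b, hbmem⟩ = y.1.χ b :=
      chiC_ofBA 𝔓₁.B1 y.1.χ b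
    rw [← h2, ← h1]
    apply hchi
    obtain ⟨hm, hr⟩ := G.map v₂ ⟨b, 𝔓₁.le1 _ b b.2⟩
    exact hr.trans (by rw [hb, map_zero])

include G in
/-- **a one-branch point does not map to a node**: a node coordinate with nonzero reduction would
have a zero in the disc, but `x y = ϖ u` has none. -/
theorem not_node_of_disc (v₂ : ι₂) {Q₂ : Place k Ft₂} (hle₂ : ringPts x₂ ≤ (𝔓₂.side v₂).G)
    (D₂ : DiscSys B.A B.res (ringPts x₂) (redOn (𝔓₂.side v₂) hle₂) (chiPts x₂) Q₂)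
    (n₁ : E₁) (hmap : ∀ c ∈ ringPts (𝔓₁.e.symm (Sum.inr n₁)), φ c ∈ ringPts x₂)
    (hchi' : ∀ c : ringPts (𝔓₁.e.symm (Sum.inr n₁)),
      chiPts x₂ ⟨φ c, hmap c c.2⟩ = chiPts (𝔓₁.e.symm (Sum.inr n₁)) c)
    (hv : 𝔓₁.src n₁ = cmap v₂ ∨ 𝔓₁.tgt n₁ = cmap v₂) : False := by
  have N := 𝔓₁.nsys' n₁
  set X : ringPts x₂ := ⟨φ (𝔓₁.xn n₁ : F₁), hmap _ (𝔓₁.xn n₁).2⟩ with hX
  set Y : ringPts x₂ := ⟨φ (𝔓₁.yn n₁ : F₁), hmap _ (𝔓₁.yn n₁).2⟩ with hY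
  set U : ringPts x₂ := ⟨φ (𝔓₁.un n₁ : F₁), hmap _ (𝔓₁.un n₁).2⟩ with hU
  have hmul : (X : F₂) * (Y : F₂) = algebraMap L F₂ (𝔓₁.pin n₁) * (U : F₂) := by
    show φ _ * φ _ = _ * φ _
    rw [← map_mul, N.mul, map_mul, AlgHom.commutes]
  have hchiU : chiPts x₂ U ≠ 0 := by
    rw [hU, hchi' (𝔓₁.un n₁)]
    exact N.chi_u
  have hchiX : chiPts x₂ X = 0 := by
    rw [hX, hchi' (𝔓₁.xn n₁)]
    exact N.chi_x
  have hchiY : chiPts x₂ Y = 0 := by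
    rw [hY, hchi' (𝔓₁.yn n₁)]
    exact N.chi_y
  have hX0 : (X : F₂) ≠ 0 := (map_ne_zero φ).mpr N.coe_x_ne
  have hY0 : (Y : F₂) ≠ 0 := (map_ne_zero φ).mpr (N.base.coe_ne_zero N.y_ne)
  have hU0 : (U : F₂) ≠ 0 := by
    intro h0
    apply hchiU
    have : U = 0 := Subtype.ext h0
    rw [this, map_zero]
  -- no zero of `X Y` in the disc
  have hno : ∀ P : Place L F₂, InDisc (ringPts x₂) P → P.ord (X : F₂) + P.ord (Y : F₂) = 0 := by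
    intro P hP
    rw [← P.ord_mul hX0 hY0, hmul, Fermat.Agent.ORD.KERN.KerN9.ord_const_mul P N.pi_ne hU0]
    have h1 : 0 ≤ P.ord (U : F₂) := ffp_ord_nonneg_of_mem P (hP _ U.2)
    have h2 : 0 ≤ P.ord (U : F₂)⁻¹ :=
      ffp_ord_nonneg_of_mem P (hP _ (ringPts_inv_mem x₂ U hchiU))
    rw [Place.ord_inv] at h2
    omega
  have hnn : ∀ (P : Place L F₂) (Z : ringPts x₂), InDisc (ringPts x₂) P → 0 ≤ P.ord (Z : F₂) :=
    fun P Z hP => ffp_ord_nonneg_of_mem P (hP _ Z.2)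
  rcases hv with hs | ht
  · obtain ⟨hm, hr⟩ := G.map' v₂ hs ⟨(𝔓₁.xn n₁ : F₁), N.side.le_G _ (𝔓₁.xn n₁).2⟩
    have hred : redOn (𝔓₂.side v₂) hle₂ X ≠ 0 := by
      show (𝔓₂.side v₂).red ⟨φ (𝔓₁.xn n₁ : F₁), _⟩ ≠ 0
      rw [hr]
      exact (map_ne_zero (φbar v₂)).mpr N.redx_ne
    obtain ⟨P, hP, hpos⟩ := exists_inDisc_ord_pos D₂ hchiX hred
    have := hno P hP
    have := hnn P Y hP
    omega
  · obtain ⟨hm, hr⟩ := G.map' v₂ ht ⟨(𝔓₁.yn n₁ : F₁), N.side'.le_G _ (𝔓₁.yn n₁).2⟩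
    have hred : redOn (𝔓₂.side v₂) hle₂ Y ≠ 0 := by
      show (𝔓₂.side v₂).red ⟨φ (𝔓₁.yn n₁ : F₁), _⟩ ≠ 0
      rw [hr]
      exact (map_ne_zero (φbar v₂)).mpr N.redy_ne
    obtain ⟨P, hP, hpos⟩ := exists_inDisc_ord_pos D₂ hchiY hred
    have := hno P hP
    have := hnn P X hP
    omega

end Gauss

/-! ### the map on the points of the special fibres -/

section Main

universe uL uk uF₁ uF₂ uFt₁ uFt₂ uι₁ uι₂ uE₁ uE₂ uP₁ uP₂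

variable {L : Type uL} {k : Type uk} [Field L] [Field k] {B : Base L k}
variable {F₁ : Type uF₁} {F₂ : Type uF₂} {Ft₁ : Type uFt₁} {Ft₂ : Type uFt₂}
  [Field F₁] [Algebra L F₁] [Field Ft₁] [Algebra k Ft₁] [Algebra B.A F₁] [IsScalarTower B.A L F₁]
  [Field F₂] [Algebra L F₂] [Field Ft₂] [Algebra k Ft₂] [Algebra B.A F₂] [IsScalarTower B.A L F₂]
variable {ι₁ : Type uι₁} {E₁ : Type uE₁} {ι₂ : Type uι₂} {E₂ : Type uE₂}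
variable {𝔓₁ : PtsData.{uL, uk, uF₁, uFt₁, uι₁, uE₁, uP₁} B F₁ Ft₁ ι₁ E₁}
  {𝔓₂ : PtsData.{uL, uk, uF₂, uFt₂, uι₂, uE₂, uP₂} B F₂ Ft₂ ι₂ E₂}
  {φ : F₁ →ₐ[L] F₂} {cmap : ι₂ → ι₁} {φbar : ι₂ → Ft₁ →+* Ft₂}
  (H : ChartHyp 𝔓₁ 𝔓₂ φ) (G : GaussHyp 𝔓₁ 𝔓₂ φ cmap φbar)

include G in
/-- **a node maps to a node.** -/
theorem exists_node (n₂ : E₂) :
    ∃ n₁ : E₁, 𝔓₁.e.symm (Sum.inr n₁) = rho0 H (𝔓₂.e.symm (Sum.inr n₂)) := by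
  have N := 𝔓₂.nsys' n₂
  have hs := onPts_of_map G (rho0 H (𝔓₂.e.symm (Sum.inr n₂)))
    (fun c hc => rho0_mem H _ hc) (rho0_chi H _) (𝔓₂.src n₂) N.side.le_G N.side.chi_of_red
  have ht := onPts_of_map G (rho0 H (𝔓₂.e.symm (Sum.inr n₂)))
    (fun c hc => rho0_mem H _ hc) (rho0_chi H _) (𝔓₂.tgt n₂) N.side'.le_G N.side'.chi_of_red
  rcases 𝔓₁.cover _ _ hs with ⟨y, hy, hcy⟩ | ⟨n₁, hn₁, -⟩
  · rcases 𝔓₁.cover _ _ ht with ⟨y', hy', hcy'⟩ | ⟨n₁, hn₁, -⟩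
    · exfalso
      have hyy : y = y' := Sum.inl.inj (𝔓₁.e.symm.injective (hy.trans hy'.symm))
      subst hyy
      exact 𝔓₂.hloop n₂ (G.inj (hcy.symm.trans hcy'))
    · exact ⟨n₁, hn₁⟩
  · exact ⟨n₁, hn₁⟩

include G in
/-- **a one-branch point maps to a one-branch point** of the component below. -/
theorem exists_pt (y₂ : 𝔓₂.Pt) :
    ∃ y₁ : 𝔓₁.Pt, 𝔓₁.e.symm (Sum.inl y₁) = rho0 H (𝔓₂.e.symm (Sum.inl y₂)) ∧
      𝔓₁.comp y₁ = cmap (𝔓₂.comp y₂) := by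
  have D₂ := 𝔓₂.sys' y₂
  have hon := onPts_of_map G (rho0 H (𝔓₂.e.symm (Sum.inl y₂)))
    (fun c hc => rho0_mem H _ hc) (rho0_chi H _) (𝔓₂.comp y₂) (fun c hc => 𝔓₂.le_G y₂ hc)
    (fun c hc => D₂.chi_of_red c hc)
  have key : ∀ (x₁ : Pts B.res 𝔓₁.B0 𝔓₁.B1 𝔓₁.tinv)
      (hmap : ∀ c ∈ ringPts x₁, φ c ∈ ringPts (𝔓₂.e.symm (Sum.inl y₂)))
      (hchi' : ∀ c : ringPts x₁,
        chiPts (𝔓₂.e.symm (Sum.inl y₂)) ⟨φ c, hmap c c.2⟩ = chiPts x₁ c),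
      OnPts (𝔓₁.side (cmap (𝔓₂.comp y₂))).red (𝔓₁.le0 _) (𝔓₁.le1 _) x₁ →
      ∃ y₁ : 𝔓₁.Pt, 𝔓₁.e.symm (Sum.inl y₁) = x₁ ∧ 𝔓₁.comp y₁ = cmap (𝔓₂.comp y₂) := by
    intro x₁ hmap hchi' hon
    rcases 𝔓₁.cover _ _ hon with ⟨y₁, hy₁, hc⟩ | ⟨n₁, rfl, hv⟩
    · exact ⟨y₁, hy₁, hc⟩
    · exact (not_node_of_disc G (𝔓₂.comp y₂) (𝔓₂.le_G y₂) D₂ n₁ hmap hchi' hv).elim
  exact key _ (fun c hc => rho0_mem H _ hc) (rho0_chi H _) hon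

include G in
/-- **units at the image point reduce to units at the point.** -/
theorem ord_phibar (y₂ : 𝔓₂.Pt) (y₁ : 𝔓₁.Pt)
    (hy : 𝔓₁.e.symm (Sum.inl y₁) = rho0 H (𝔓₂.e.symm (Sum.inl y₂)))
    (hc : 𝔓₁.comp y₁ = cmap (𝔓₂.comp y₂)) (f : Ft₁) (hf : f ≠ 0)
    (ho : (𝔓₁.Q y₁).ord f = 0) : (𝔓₂.Q y₂).ord (φbar (𝔓₂.comp y₂) f) = 0 := by
  have D₂ := 𝔓₂.sys' y₂
  have D₁ := 𝔓₁.sys' y₁
  have key : ∀ (x₁ : Pts B.res 𝔓₁.B0 𝔓₁.B1 𝔓₁.tinv) (hx : 𝔓₁.e.symm (Sum.inl y₁) = x₁)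
      (hmap : ∀ c ∈ ringPts x₁, φ c ∈ ringPts (𝔓₂.e.symm (Sum.inl y₂)))
      (hchi' : ∀ c : ringPts x₁,
        chiPts (𝔓₂.e.symm (Sum.inl y₂)) ⟨φ c, hmap c c.2⟩ = chiPts x₁ c),
      (𝔓₂.Q y₂).ord (φbar (𝔓₂.comp y₂) f) = 0 := by
    intro x₁ hx
    subst hx
    intro hmap hchi'
    have hmem : f ∈ (𝔓₁.Q y₁).toValuationSubring := ffp_mem_of_ord_nonneg _ (by rw [ho])
    obtain ⟨c, hcf⟩ := (D₁.mem_Q f).mp hmem
    have hr : redOn (𝔓₁.side (𝔓₁.comp y₁)) (𝔓₁.le_G y₁) c ≠ 0 := by rw [hcf]; exact hf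
    have hchi1 : chiPts (𝔓₁.e.symm (Sum.inl y₁)) c ≠ 0 :=
      D₁.chi_ne_zero_of_ord_red hr (by rw [hcf]; exact ho)
    have hchi2 : chiPts (𝔓₂.e.symm (Sum.inl y₂)) ⟨φ c, hmap c c.2⟩ ≠ 0 := by
      rw [hchi' c]; exact hchi1
    have h0 := D₂.ord_red_eq_zero_of_chi hchi2
    obtain ⟨hm, hred⟩ := G.map' (𝔓₂.comp y₂) hc ⟨(c : F₁), 𝔓₁.le_G y₁ c.2⟩
    have e : redOn (𝔓₂.side (𝔓₂.comp y₂)) (𝔓₂.le_G y₂)
        (⟨φ c, hmap c c.2⟩ : ringPts (𝔓₂.e.symm (Sum.inl y₂))) = φbar (𝔓₂.comp y₂) f := by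
      rw [← hcf]
      exact hred
    rw [e] at h0
    exact h0
  exact key _ hy (fun c hc => rho0_mem H _ hc) (rho0_chi H _)

end Main

/-! ### the conclusion: `SpecMap` and `GaussMapOn` -/

section Conclusion

open Fermat.Agent.ORD.SEMIRED Fermat.Agent.ORD.KERN
open Fermat.Agent.MP.FUNC.KerMap1 Fermat.Agent.MP.FUNC.KerMult1 Fermat.Agent.MP.FUNC.KerMultOn1

universe uL uk uF₁ uF₂ uFt₁ uFt₂ uι₁ uι₂ uE₁ uE₂ uP₁ uP₂

variable {L : Type uL} {k : Type uk} [Field L] [Field k] {B : Base L k}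
variable {F₁ : Type uF₁} {F₂ : Type uF₂} {Ft₁ : Type uFt₁} {Ft₂ : Type uFt₂}
  [Field F₁] [Algebra L F₁] [Field Ft₁] [Algebra k Ft₁] [Algebra B.A F₁] [IsScalarTower B.A L F₁]
  [Field F₂] [Algebra L F₂] [Field Ft₂] [Algebra k Ft₂] [Algebra B.A F₂] [IsScalarTower B.A L F₂]
variable {ι₁ : Type uι₁} {E₁ : Type uE₁} {ι₂ : Type uι₂} {E₂ : Type uE₂}
variable {𝔓₁ : PtsData.{uL, uk, uF₁, uFt₁, uι₁, uE₁, uP₁} B F₁ Ft₁ ι₁ E₁}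
  {𝔓₂ : PtsData.{uL, uk, uF₂, uFt₂, uι₂, uE₂, uP₂} B F₂ Ft₂ ι₂ E₂}
  {φ : F₁ →ₐ[L] F₂} {cmap : ι₂ → ι₁} {φbar : ι₂ → Ft₁ →+* Ft₂}
  (H : ChartHyp 𝔓₁ 𝔓₂ φ) (G : GaussHyp 𝔓₁ 𝔓₂ φ cmap φbar)

/-- the semistable datum of a two-chart model. -/
abbrev datum {F : Type*} {Ft : Type*} [Field F] [Algebra L F] [Field Ft] [Algebra k Ft]
    [Algebra B.A F] [IsScalarTower B.A L F] {ι E : Type*} (𝔓 : PtsData B F Ft ι E) :
    SemiRedDatum9.SemiRedDatum L F k Ft ι E := 𝔓.toAssemblyData.toSemiRedDatum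

theorem datum_r {F : Type*} {Ft : Type*} [Field F] [Algebra L F] [Field Ft] [Algebra k Ft]
    [Algebra B.A F] [IsScalarTower B.A L F] {ι E : Type*} (𝔓 : PtsData B F Ft ι E)
    (P : Place L F) :
    (datum 𝔓).r P = Sum.map (fun x => (𝔓.comp x, 𝔓.Q x)) id (𝔓.e (𝔓.c P)) := rfl

open Classical in
/-- **the map on the points of the special fibres** (`d₁` : junk value on the pairs `(v₂, Q₂)` which
are not one-branch points). -/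
def rho (d₁ : ι₁ × Place k Ft₁) : KerDefs9.Pts ι₂ E₂ k Ft₂ → KerDefs9.Pts ι₁ E₁ k Ft₁ :=
  Sum.elim
    (fun vQ : ι₂ × Place k Ft₂ =>
      if h : ∃ y₂ : 𝔓₂.Pt, 𝔓₂.comp y₂ = vQ.1 ∧ 𝔓₂.Q y₂ = vQ.2 then
        Sum.map (fun x => (𝔓₁.comp x, 𝔓₁.Q x)) id
          (𝔓₁.e (rho0 H (𝔓₂.e.symm (Sum.inl (Classical.choose h)))))
      else Sum.inl d₁)
    (fun n₂ => Sum.map (fun x => (𝔓₁.comp x, 𝔓₁.Q x)) id
      (𝔓₁.e (rho0 H (𝔓₂.e.symm (Sum.inr n₂)))))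

theorem rho_inr (d₁ : ι₁ × Place k Ft₁) (n₂ : E₂) :
    rho H d₁ (Sum.inr n₂) = Sum.map (fun x => (𝔓₁.comp x, 𝔓₁.Q x)) id
      (𝔓₁.e (rho0 H (𝔓₂.e.symm (Sum.inr n₂)))) := rfl

theorem rho_inl_pt (d₁ : ι₁ × Place k Ft₁) (y₂ : 𝔓₂.Pt) :
    rho H d₁ (Sum.inl (𝔓₂.comp y₂, 𝔓₂.Q y₂)) = Sum.map (fun x => (𝔓₁.comp x, 𝔓₁.Q x)) id
      (𝔓₁.e (rho0 H (𝔓₂.e.symm (Sum.inl y₂)))) := by
  classical
  have h : ∃ y : 𝔓₂.Pt, 𝔓₂.comp y = 𝔓₂.comp y₂ ∧ 𝔓₂.Q y = 𝔓₂.Q y₂ := ⟨y₂, rfl, rfl⟩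
  show dite _ _ _ = _
  rw [dif_pos h]
  have e : Classical.choose h = y₂ :=
    𝔓₂.Q_inj _ _ (Classical.choose_spec h).1 (Classical.choose_spec h).2
  rw [e]

include G in
/-- **the specialisation maps are compatible.** -/
theorem specMap (hφ : φ.toRingHom.IsIntegral) (d₁ : ι₁ × Place k Ft₁) :
    SpecMap (datum 𝔓₁) (datum 𝔓₂) φ hφ (rho H d₁) where
  r_restrict := by
    intro P₂
    rw [datum_r, datum_r, c_restrict H hφ P₂]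
    rcases hz : 𝔓₂.e (𝔓₂.c P₂) with y₂ | n₂
    · have hx : 𝔓₂.c P₂ = 𝔓₂.e.symm (Sum.inl y₂) := (Equiv.symm_apply_eq _).mpr hz.symm |>.symm
      rw [hx]
      exact (rho_inl_pt H d₁ y₂).symm
    · have hx : 𝔓₂.c P₂ = 𝔓₂.e.symm (Sum.inr n₂) := (Equiv.symm_apply_eq _).mpr hz.symm |>.symm
      rw [hx]
      rfl
  inl_inl := by
    classical
    rintro ⟨v₂, Q₂⟩
    by_cases h : ∃ y₂ : 𝔓₂.Pt, 𝔓₂.comp y₂ = v₂ ∧ 𝔓₂.Q y₂ = Q₂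
    · obtain ⟨y₂, rfl, rfl⟩ := h
      obtain ⟨y₁, hy₁, -⟩ := exists_pt H G y₂
      refine ⟨(𝔓₁.comp y₁, 𝔓₁.Q y₁), ?_⟩
      rw [rho_inl_pt, ← hy₁, Equiv.apply_symm_apply]
      rfl
    · refine ⟨d₁, ?_⟩
      show dite _ _ _ = _
      rw [dif_neg h]
  inr_inr := by
    intro n₂
    obtain ⟨n₁, hn₁⟩ := exists_node H G n₂
    refine ⟨n₁, ?_⟩
    rw [rho_inr, ← hn₁, Equiv.apply_symm_apply]
    rfl

include G in
/-- **the Gauss rings are compatible over the non-empty smooth discs.** -/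
theorem gaussMapOn (d₁ : ι₁ × Place k Ft₁) :
    GaussMapOn (datum 𝔓₁) (datum 𝔓₂) φ (rho H d₁) := by
  rintro v₂ Q₂ v₁ Q₁ ⟨P₂, hP₂⟩ hρ
  obtain ⟨y₂, rfl, rfl, -⟩ : ∃ y₂ : 𝔓₂.Pt, 𝔓₂.comp y₂ = v₂ ∧ 𝔓₂.Q y₂ = Q₂ ∧
      InDisc (𝔓₂.atlas.C y₂) P₂ := 𝔓₂.atlas.exists_pt_of_r hP₂
  obtain ⟨y₁, hy₁, hc⟩ := exists_pt H G y₂
  have e : rho H d₁ (Sum.inl (𝔓₂.comp y₂, 𝔓₂.Q y₂)) = Sum.inl (𝔓₁.comp y₁, 𝔓₁.Q y₁) := by
    rw [rho_inl_pt, ← hy₁, Equiv.apply_symm_apply]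
    rfl
  have e2 : (𝔓₁.comp y₁, 𝔓₁.Q y₁) = (v₁, Q₁) := Sum.inl.inj (e.symm.trans hρ)
  obtain ⟨rfl, rfl⟩ := Prod.mk.inj e2
  refine ⟨φbar (𝔓₂.comp y₂), fun g => G.map' (𝔓₂.comp y₂) hc g, fun f hf ho => ?_⟩
  exact ord_phibar H G y₂ y₁ hy₁ hc f hf ho

include H G in
/-- **MAIN THEOREM of the layer**: a covering of two-chart models (`ChartHyp`) compatible with the
Gauss rings of the components (`GaussHyp`) gives `SpecMap` and `GaussMapOn` for the assembled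
semistable data. -/
theorem exists_specMap_gaussMapOn (hφ : φ.toRingHom.IsIntegral) (d₁ : ι₁ × Place k Ft₁) :
    ∃ ρ : KerDefs9.Pts ι₂ E₂ k Ft₂ → KerDefs9.Pts ι₁ E₁ k Ft₁,
      SpecMap (datum 𝔓₁) (datum 𝔓₂) φ hφ ρ ∧ GaussMapOn (datum 𝔓₁) (datum 𝔓₂) φ ρ :=
  ⟨rho H d₁, specMap H G hφ d₁, gaussMapOn H G d₁⟩

end Conclusion

/-! ### consequences for the kernels of reduction -/

section Kernels

open Fermat.Agent.ORD.SEMIRED Fermat.Agent.ORD.KERN Fermat.Agent.ORD.KERN.KerN9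
open Fermat.Agent.MP.FUNC.KerMap1 Fermat.Agent.MP.FUNC.KerMult1 Fermat.Agent.MP.FUNC.KerMultOn1
open Fermat.Agent.ES.N35.PushO12 Fermat.Agent.ES.HECKE.LevelPullback12

universe uL uk uF₁ uF₂ uFt₁ uFt₂ uι₁ uι₂ uE₁ uE₂ uP₁ uP₂

variable {L : Type uL} {k : Type uk} [Field L] [Field k] {B : Base L k}
variable {F₁ : Type uF₁} {F₂ : Type uF₂} {Ft₁ : Type uFt₁} {Ft₂ : Type uFt₂}
  [Field F₁] [Algebra L F₁] [Field Ft₁] [Algebra k Ft₁] [Algebra B.A F₁] [IsScalarTower B.A L F₁]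
  [Field F₂] [Algebra L F₂] [Field Ft₂] [Algebra k Ft₂] [Algebra B.A F₂] [IsScalarTower B.A L F₂]
variable {ι₁ : Type uι₁} {E₁ : Type uE₁} {ι₂ : Type uι₂} {E₂ : Type uE₂}
variable {𝔓₁ : PtsData.{uL, uk, uF₁, uFt₁, uι₁, uE₁, uP₁} B F₁ Ft₁ ι₁ E₁}
  {𝔓₂ : PtsData.{uL, uk, uF₂, uFt₂, uι₂, uE₂, uP₂} B F₂ Ft₂ ι₂ E₂}
  {φ : F₁ →ₐ[L] F₂} {cmap : ι₂ → ι₁} {φbar : ι₂ → Ft₁ →+* Ft₂}

/-- `ChartHyp` when `φ t₁` is integral on the chart `t₂ ≠ ∞` and `(φ t₁)⁻¹` on the chart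
`t₂ ≠ 0` (degeneracy maps `α_d`, `β_d`). -/
theorem ChartHyp.of_mem (hint0 : ∀ z : F₂, IsIntegral 𝔓₂.B0 z → z ∈ 𝔓₂.B0)
    (hint1 : ∀ z : F₂, IsIntegral 𝔓₂.B1 z → z ∈ 𝔓₂.B1)
    (h0 : φ 𝔓₁.t ∈ 𝔓₂.B0) (h1 : (φ 𝔓₁.t)⁻¹ ∈ 𝔓₂.B1) : ChartHyp 𝔓₁ 𝔓₂ φ where
  hint0 := hint0
  hint1 := hint1
  H1 := by
    rintro (x₀ | y)
    · exact Or.inl (le_locC _ _ h0)
    · exact Or.inr (le_locC _ _ h1)

variable (H : ChartHyp 𝔓₁ 𝔓₂ φ) (G : GaussHyp 𝔓₁ 𝔓₂ φ cmap φbar)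

include H G in
/-- **`φ_*` maps the kernel of reduction of the target model into that of the source model.** -/
theorem pic0Push_mem_kerRed_of_hyp (hφ : φ.toRingHom.IsIntegral) (d₁ : ι₁ × Place k Ft₁)
    (hf : ∀ w : Place L F₂, w.inertiaDegAlong φ hφ = 1) (hfin : FiniteAlong L φ)
    (hN : NormFormulaAlong L φ hfin) {x : Pic0 L F₂} (hx : x ∈ kerRed (datum 𝔓₂)) :
    pic0PushAlong φ hφ hfin hN x ∈ kerRed (datum 𝔓₁) :=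
  pic0Push_mem_kerRed hf (specMap H G hφ d₁) hfin hN hx

include H G in
/-- **`φ^*` maps the kernel of reduction of the source model into that of the target model.** -/
theorem pic0Pull_mem_kerRed_of_hyp [HasPrincipalDivisors L F₂] (hφ : φ.toRingHom.IsIntegral)
    (d₁ : ι₁ × Place k Ft₁) (hFI : FundamentalIdentityAlong L φ hφ) {x : Pic0 L F₁}
    (hx : x ∈ kerRed (datum 𝔓₁)) :
    pic0PullbackAlong φ hφ hFI x ∈ kerRed (datum 𝔓₂) :=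
  pic0Pull_mem_kerRed_on (specMap H G hφ d₁) (gaussMapOn H G d₁) hFI hx

end Kernels

end

end Fermat.Agent.MP.FUNC.PtsMap1
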