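/-
PROGRAMME MP (row 38 via S44), chapter FUNC (helper1): **the Fricke involutions and the degeneracy maps
over `ℚbar`**: `W_{N₂} ∘ α = β_d ∘ W_{N₁}` and `W_{N₂} ∘ β_d = α ∘ W_{N₁}` for `N₂ = N₁ d`
(the `ℚbar`-level twins of `ES/N34/FrickeV11.frickeFK_alpha`, `frickeFK_beta`).

To avoid casts between levels such as `(M * p) * ℓ` and `(M * ℓ) * p`, the degeneracy maps are ARBITRARY
`ℚbar`-algebra homomorphisms `φ ψ : FF N₁ →ₐ[ℚbar] FF N₂` characterised by their `q`-expansions: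

* `IsAlpha φ` : `(φ x : ℚbar((q))) = x`            (e.g. `heckeAlphaBar ℚbar N c`, `isAlpha_heckeAlphaBar`,
                                                     or `LevelPullback12.levelIncl`);
* `IsBeta d ψ` : `(ψ x : ℚbar((q))) = x(q^d)`      (e.g. `heckeBetaBar ℚbar N c`, `isBeta_heckeBetaBar`).

* `algHom_ext_gen` : two `ℚbar`-algebra homomorphisms from `FF N` to a field agreeing on the generators
  `j(q^d)`, `d ∣ N`, are equal;
* `IsAlpha.unique`, `IsBeta.unique`;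
* **`fricke_alpha`, `fricke_beta`** : the two relations, for `N₁ * d = N₂`;
* `frickeBar_heckeAlphaBar`, `frickeBar_heckeBetaBar` : the instances for the Prelude's maps.
-/
import Mathlib
import Fermat.Agent.ES.N34.FrickeFK8
import Fermat.Agent.ES.N34.FrickeV11

set_option autoImplicit false
set_option linter.unusedSectionVars false
set_option linter.unusedVariables false
set_option linter.style.longLine false
set_option synthInstance.maxHeartbeats 400000
set_option maxHeartbeats 1000000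

noncomputable section

namespace Fermat.Agent.MP.FUNC.FrickeDeg1

open Fermat.Agent.X0 ModularCurve IntermediateField
open Fermat.Agent.ES.N34.FrickeFK8

/-- Two `ℚbar`-algebra homomorphisms from `Fbar N` to a field that agree on the generators `x_d`
agree. -/
theorem algHom_ext_gen (N : ℕ) [NeZero N] {T : Type*} [Field T] [Algebra Kbar T]
    {φ ψ : FF N →ₐ[Kbar] T}
    (h : ∀ (d : ℕ) [NeZero d] (hd : d ∣ N), φ (jdF N d hd) = ψ (jdF N d hd)) : φ = ψ := by
  have hR : ∀ u : Rsub N, φ (u : FF N) = ψ (u : FF N) := by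
    intro u
    induction u using FracR.Rsub_induction with
    | hgen d hd => exact h d hd
    | hconst c =>
        show φ (algebraMap Kbar (FF N) c) = ψ (algebraMap Kbar (FF N) c)
        rw [φ.commutes, ψ.commutes]
    | hadd u v hu hv =>
        show φ ((u : FF N) + (v : FF N)) = ψ ((u : FF N) + (v : FF N))
        rw [map_add, map_add, hu, hv]
    | hmul u v hu hv =>
        show φ ((u : FF N) * (v : FF N)) = ψ ((u : FF N) * (v : FF N))
        rw [map_mul, map_mul, hu, hv]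
  apply AlgHom.ext
  intro y
  obtain ⟨r, s, rfl⟩ := FracR.exists_div N y
  rw [map_div₀, map_div₀, hR r, hR s]

variable {N₁ N₂ : ℕ} [NeZero N₁] [NeZero N₂]

/-- `φ` is the first degeneracy map (the inclusion of `q`-expansions). -/
def IsAlpha (φ : FF N₁ →ₐ[Kbar] FF N₂) : Prop :=
  ∀ x : FF N₁, ((φ x : FF N₂) : LaurentSeries Kbar) = (x : LaurentSeries Kbar)

/-- `ψ` is the `d`-th second degeneracy map (`q ↦ q^d`). -/
def IsBeta (d : ℕ) [NeZero d] (ψ : FF N₁ →ₐ[Kbar] FF N₂) : Prop :=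
  ∀ x : FF N₁, ((ψ x : FF N₂) : LaurentSeries Kbar) = qExpand Kbar d (x : LaurentSeries Kbar)

theorem IsAlpha.unique {φ φ' : FF N₁ →ₐ[Kbar] FF N₂} (h : IsAlpha φ) (h' : IsAlpha φ') : φ = φ' :=
  AlgHom.ext fun x => Subtype.ext ((h x).trans (h' x).symm)

theorem IsBeta.unique {d : ℕ} [NeZero d] {ψ ψ' : FF N₁ →ₐ[Kbar] FF N₂} (h : IsBeta d ψ)
    (h' : IsBeta d ψ') : ψ = ψ' :=
  AlgHom.ext fun x => Subtype.ext ((h x).trans (h' x).symm)

theorem IsAlpha.jdF {φ : FF N₁ →ₐ[Kbar] FF N₂} (h : IsAlpha φ) (e : ℕ) [NeZero e] (he : e ∣ N₁)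
    (he' : e ∣ N₂) : φ (jdF N₁ e he) = jdF N₂ e he' :=
  Subtype.ext (h _)

theorem IsBeta.jdF {d : ℕ} [NeZero d] {ψ : FF N₁ →ₐ[Kbar] FF N₂} (h : IsBeta d ψ) (e : ℕ) [NeZero e]
    (he : e ∣ N₁) [NeZero (d * e)] (hde : d * e ∣ N₂) : ψ (jdF N₁ e he) = jdF N₂ (d * e) hde := by
  apply Subtype.ext
  rw [h, coe_jdF_eq_qExpand, coe_jdF_eq_qExpand, qExpand_qExpand]

theorem isAlpha_heckeAlphaBar (N c : ℕ) [NeZero N] [NeZero c] :
    IsAlpha (N₁ := N) (N₂ := N * c) (heckeAlphaBar Kbar N c) :=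
  fun x => coe_heckeAlphaBar N c x

theorem isBeta_heckeBetaBar (N c : ℕ) [NeZero N] [NeZero c] :
    IsBeta (N₁ := N) (N₂ := N * c) c (heckeBetaBar Kbar N c) :=
  fun x => coe_heckeBetaBar N c x

variable {d : ℕ} [NeZero d] {φ ψ : FF N₁ →ₐ[Kbar] FF N₂}

/-- **`W_{N₂} ∘ α = β_d ∘ W_{N₁}`** for `N₂ = N₁ d`. -/
theorem fricke_alpha (h : N₁ * d = N₂) (hφ : IsAlpha φ) (hψ : IsBeta d ψ) (x : FF N₁) :
    frickeBar N₂ (φ x) = ψ (frickeBar N₁ x) := by
  have key : (frickeBar N₂).comp φ = ψ.comp (frickeBar N₁) := by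
    apply algHom_ext_gen
    intro e _ he
    obtain ⟨e', hee'⟩ := he
    have he'0 : e' ≠ 0 := by
      rintro rfl
      exact NeZero.ne N₁ (by rw [hee', mul_zero])
    have : NeZero e' := ⟨he'0⟩
    have : NeZero (d * e') := ⟨Nat.mul_ne_zero (NeZero.ne d) he'0⟩
    have h1 : e * (d * e') = N₂ := by rw [← h, hee']; ring
    rw [AlgHom.comp_apply, AlgHom.comp_apply,
      hφ.jdF e ⟨e', hee'⟩ (Dvd.intro _ h1), frickeBar_jdF N₂ e (d * e') h1,
      frickeBar_jdF N₁ e e' hee'.symm, hψ.jdF e' (Dvd.intro_left _ hee'.symm)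
        (Dvd.intro_left _ h1)]
  exact DFunLike.congr_fun key x

/-- **`W_{N₂} ∘ β_d = α ∘ W_{N₁}`** for `N₂ = N₁ d`. -/
theorem fricke_beta (h : N₁ * d = N₂) (hφ : IsAlpha φ) (hψ : IsBeta d ψ) (x : FF N₁) :
    frickeBar N₂ (ψ x) = φ (frickeBar N₁ x) := by
  have key : (frickeBar N₂).comp ψ = φ.comp (frickeBar N₁) := by
    apply algHom_ext_gen
    intro e _ he
    obtain ⟨e', hee'⟩ := he
    have he'0 : e' ≠ 0 := by
      rintro rfl
      exact NeZero.ne N₁ (by rw [hee', mul_zero])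
    have : NeZero e' := ⟨he'0⟩
    have : NeZero (d * e) := ⟨Nat.mul_ne_zero (NeZero.ne d) (NeZero.ne e)⟩
    have h1 : (d * e) * e' = N₂ := by rw [← h, hee']; ring
    rw [AlgHom.comp_apply, AlgHom.comp_apply,
      hψ.jdF e ⟨e', hee'⟩ (Dvd.intro _ h1), frickeBar_jdF N₂ (d * e) e' h1,
      frickeBar_jdF N₁ e e' hee'.symm, hφ.jdF e' (Dvd.intro_left _ hee'.symm)
        (Dvd.intro_left _ h1)]
  exact DFunLike.congr_fun key x

/-- `W_{N c} ∘ α_c = β_c ∘ W_N` for the Prelude's maps. -/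
theorem frickeBar_heckeAlphaBar (N c : ℕ) [NeZero N] [NeZero c] (x : FF N) :
    frickeBar (N * c) (heckeAlphaBar Kbar N c x) = heckeBetaBar Kbar N c (frickeBar N x) :=
  fricke_alpha rfl (isAlpha_heckeAlphaBar N c) (isBeta_heckeBetaBar N c) x

/-- `W_{N c} ∘ β_c = α_c ∘ W_N` for the Prelude's maps. -/
theorem frickeBar_heckeBetaBar (N c : ℕ) [NeZero N] [NeZero c] (x : FF N) :
    frickeBar (N * c) (heckeBetaBar Kbar N c x) = heckeAlphaBar Kbar N c (frickeBar N x) :=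
  fricke_beta rfl (isAlpha_heckeAlphaBar N c) (isBeta_heckeBetaBar N c) x

end Fermat.Agent.MP.FUNC.FrickeDeg1
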