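/-
Programme MP (row 38 via S44), chapter FUNC (helper4), file Twist4: **the twist `s₁ : q ↦ -q`**.

* `tw : R((q)) →+* R((q))`, `(tw f)_n = (-1)^n f_n` (`sgn n = (-1)^n`), an involution commuting with
  coefficient maps (`coeffMap_tw`), fixing series in `q^d` for `d` even (`tw_qExpand_of_even`) and
  commuting with `q ↦ q^d` for `d` odd (`tw_qExpand_of_odd`); `twAlg` its `K`-algebra form;
* `relfinrank_beta_two` : `[F_4 : V_2(F_2)] = 2` (any field of characteristic `0`);
* `mem_of_relfinrank_two` : a ring endomorphism fixing `B` pointwise keeps `x ∈ F` in `F` when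
  `[F : B] = 2`;
* **`tw_jq_mem`** : `tw j ∈ Fbar 4`;
* **`tw_mem_Fbar`** : `tw` maps `Fbar N` into itself for `4 ∣ N`;
* **`s1 N h4 : Fbar N ≃ₐ[ℚ̄] Fbar N`**, `coe_s1 : (s1 N h4 f : ℚ̄((q))) = tw f`, `s1_s1`, `s1_symm`;
* **`exists_tw_tK`** : `∃ b, tw t = -t + b` for the Hauptmodul `t = tK 4 8` (as Laurent series), and
  **`s1_tF`** : `s1 N h4 (tF N h) = -tF N h + algebraMap b` with the same `b` at every level `4 ∣ N`
  (`twConst`).
-/
import Mathlib
import Fermat.Agent.ES.HECKE.DegreeL25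
import Fermat.Agent.RED.LVL.LevelDegree10
import Fermat.Agent.X0.GNTable
import Fermat.Agent.ES.N34.ModEqBar23

set_option autoImplicit false
set_option linter.unusedSectionVars false
set_option linter.style.longLine false

open HahnSeries ModularCurve IntermediateField Module

noncomputable section

namespace Fermat.Agent.MP.FUNC.Twist4

open Fermat.Agent.IG Fermat.Agent.RED.PUR Fermat.Agent.ES.HECKE.DegreeL25
open Fermat.Agent.RED.Interface4 Fermat.Agent.RED.LVL.LevelDegree10

/-! ### The twist on Laurent series -/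

section General

variable {R : Type*} [CommRing R]

/-- the sign `(-1)^n ∈ R`. -/
def sgn (n : ℤ) : R := ((n.negOnePow : ℤ) : R)

theorem sgn_add (m n : ℤ) : (sgn (m + n) : R) = sgn m * sgn n := by
  unfold sgn; rw [Int.negOnePow_add, Units.val_mul, Int.cast_mul]

@[simp] theorem sgn_zero : (sgn 0 : R) = 1 := by
  unfold sgn; rw [Int.negOnePow_zero, Units.val_one, Int.cast_one]

theorem sgn_even {n : ℤ} (h : Even n) : (sgn n : R) = 1 := by
  unfold sgn; rw [Int.negOnePow_even n h, Units.val_one, Int.cast_one]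

theorem sgn_odd {n : ℤ} (h : Odd n) : (sgn n : R) = -1 := by
  unfold sgn; rw [Int.negOnePow_odd n h, Units.val_neg, Units.val_one, Int.cast_neg, Int.cast_one]

theorem sgn_mul_self (n : ℤ) : (sgn n : R) * sgn n = 1 := by
  rw [← sgn_add, sgn_even (Even.add_self n)]

theorem sgn_neg (n : ℤ) : (sgn (-n) : R) = sgn n := by
  unfold sgn; rw [Int.negOnePow_neg]

theorem map_sgn {S : Type*} [CommRing S] (φ : R →+* S) (n : ℤ) : φ (sgn n) = sgn n := by
  unfold sgn; rw [map_intCast]

/-- general form of the coefficient formula for a product. -/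
theorem coeff_mul_of_subset {x y : LaurentSeries R} {s t : Set ℤ} (hs : s.IsPWO) (ht : t.IsPWO)
    (hxs : x.support ⊆ s) (hyt : y.support ⊆ t) (a : ℤ) :
    (x * y).coeff a = ∑ ij ∈ Finset.antidiagonal hs ht a, x.coeff ij.1 * y.coeff ij.2 := by
  rw [HahnSeries.coeff_mul]
  apply Finset.sum_subset
  · intro ij hij
    rw [Finset.mem_antidiagonal] at hij ⊢
    exact ⟨hxs hij.1, hyt hij.2.1, hij.2.2⟩
  · intro ij hij hn
    rw [Finset.mem_antidiagonal] at hij hn
    by_cases h1 : ij.1 ∈ x.support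
    · have h2 : ij.2 ∉ y.support := fun h2 => hn ⟨h1, h2, hij.2.2⟩
      rw [HahnSeries.mem_support, not_not] at h2
      rw [h2, mul_zero]
    · rw [HahnSeries.mem_support, not_not] at h1
      rw [h1, zero_mul]

/-- the twist `q ↦ -q` as a function. -/
def twFun (f : LaurentSeries R) : LaurentSeries R where
  coeff n := sgn n * f.coeff n
  isPWO_support' := f.isPWO_support.mono (fun n hn => by
    rw [Function.mem_support] at hn
    rw [HahnSeries.mem_support]
    intro h; apply hn; rw [h, mul_zero])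

@[simp] theorem twFun_coeff (f : LaurentSeries R) (n : ℤ) :
    (twFun f).coeff n = sgn n * f.coeff n := rfl

theorem support_twFun_subset (f : LaurentSeries R) : (twFun f).support ⊆ f.support := by
  intro n hn
  rw [HahnSeries.mem_support] at hn ⊢
  intro h; apply hn; rw [twFun_coeff, h, mul_zero]

theorem twFun_mul (x y : LaurentSeries R) : twFun (x * y) = twFun x * twFun y := by
  ext a
  rw [twFun_coeff, HahnSeries.coeff_mul,
    coeff_mul_of_subset x.isPWO_support y.isPWO_support (support_twFun_subset x)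
      (support_twFun_subset y), Finset.mul_sum]
  apply Finset.sum_congr rfl
  intro ij hij
  rw [Finset.mem_antidiagonal] at hij
  rw [twFun_coeff, twFun_coeff, ← hij.2.2, sgn_add]
  ring

/-- **the twist `q ↦ -q`** on Laurent series. -/
def tw : LaurentSeries R →+* LaurentSeries R where
  toFun := twFun
  map_one' := by
    ext n
    rw [twFun_coeff, HahnSeries.coeff_one]
    split_ifs with h
    · rw [h, sgn_zero, one_mul]
    · rw [mul_zero]
  map_mul' := twFun_mul
  map_zero' := by ext n; simp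
  map_add' x y := by ext n; simp [mul_add]

@[simp] theorem tw_coeff (f : LaurentSeries R) (n : ℤ) : (tw f).coeff n = sgn n * f.coeff n := rfl

@[simp] theorem tw_tw (f : LaurentSeries R) : tw (tw f) = f := by
  ext n
  rw [tw_coeff, tw_coeff, ← mul_assoc, sgn_mul_self, one_mul]

theorem tw_injective : Function.Injective (tw : LaurentSeries R → LaurentSeries R) :=
  Function.LeftInverse.injective tw_tw

theorem tw_single (n : ℤ) (r : R) :
    tw (HahnSeries.single n r) = HahnSeries.single n (sgn n * r) := by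
  ext m
  rw [tw_coeff]
  rcases eq_or_ne m n with rfl | h
  · rw [HahnSeries.coeff_single_same, HahnSeries.coeff_single_same]
  · rw [HahnSeries.coeff_single_of_ne h, HahnSeries.coeff_single_of_ne h, mul_zero]

theorem tw_C (r : R) : tw (HahnSeries.C r) = HahnSeries.C r := by
  rw [HahnSeries.C_apply, tw_single, sgn_zero, one_mul]

/-- `tw` commutes with coefficient maps. -/
theorem coeffMap_tw {S : Type*} [CommRing S] (φ : R →+* S) (f : LaurentSeries R) :
    coeffMap φ (tw f) = tw (coeffMap φ f) := by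
  ext n
  rw [coeffMap_coeff, tw_coeff, tw_coeff, coeffMap_coeff, map_mul, map_sgn]

/-- `tw` fixes series in `q^d`, `d` even. -/
theorem tw_qExpand_of_even {d : ℕ} [NeZero d] (hd : Even d) (f : LaurentSeries R) :
    tw (qExpand R d f) = qExpand R d f := by
  ext n
  rw [tw_coeff]
  by_cases h : (d : ℤ) ∣ n
  · have : Even n := by
      obtain ⟨k, rfl⟩ := h
      exact Even.mul_right (by exact_mod_cast hd) k
    rw [sgn_even this, one_mul]
  · rw [qExpand_coeff_of_not_dvd d f h, mul_zero]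

/-- `tw` commutes with `q ↦ q^d`, `d` odd. -/
theorem tw_qExpand_of_odd {d : ℕ} [NeZero d] (hd : Odd d) (f : LaurentSeries R) :
    tw (qExpand R d f) = qExpand R d (tw f) := by
  ext n
  rw [tw_coeff]
  by_cases h : (d : ℤ) ∣ n
  · obtain ⟨k, rfl⟩ := h
    rw [qExpand_coeff_mul, qExpand_coeff_mul, tw_coeff]
    congr 1
    have hd' : Odd (d : ℤ) := by exact_mod_cast hd
    rcases Int.even_or_odd k with hk | hk
    · rw [sgn_even hk, sgn_even (Even.mul_left hk _)]
    · rw [sgn_odd hk, sgn_odd (hd'.mul hk)]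
  · rw [qExpand_coeff_of_not_dvd d f h, qExpand_coeff_of_not_dvd d _ h, mul_zero]

/-- `tw` preserves the order. -/
theorem order_tw [IsDomain R] (f : LaurentSeries R) : (tw f).order = f.order := by
  by_cases hf : f = 0
  · rw [hf, map_zero]
  have htf : tw f ≠ 0 := fun h => hf (tw_injective (by rw [h, map_zero]))
  have hs : ∀ n : ℤ, (sgn n : R) ≠ 0 := fun n h => by
    have := sgn_mul_self (R := R) n
    rw [h, zero_mul] at this
    exact zero_ne_one this
  apply le_antisymm
  · apply HahnSeries.order_le_of_coeff_ne_zero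
    rw [tw_coeff]
    exact mul_ne_zero (hs _) (HahnSeries.coeff_order_eq_zero.not.mpr hf)
  · apply HahnSeries.order_le_of_coeff_ne_zero
    have := HahnSeries.coeff_order_eq_zero.not.mpr htf
    rw [tw_coeff] at this
    exact right_ne_zero_of_mul this

end General

/-! ### The algebra form -/

section Alg

variable (K : Type*) [Field K]

/-- `tw` as a `K`-algebra endomorphism of `K((q))`. -/
def twAlg : LaurentSeries K →ₐ[K] LaurentSeries K where
  __ := (tw : LaurentSeries K →+* LaurentSeries K)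
  commutes' c := by
    show tw (algebraMap K (LaurentSeries K) c) = algebraMap K (LaurentSeries K) c
    rw [algebraMap_laurentSeries_eq_single, tw_single, sgn_zero, one_mul]

@[simp] theorem twAlg_apply (f : LaurentSeries K) : twAlg K f = tw f := rfl

end Alg

/-! ### Degrees -/

section Degree

variable (κ : Type) [Field κ] [CharZero κ]

/-- `[F_4 : V_2(F_2)] = 2`. -/
theorem relfinrank_beta_two :
    relfinrank ((modularFunctionFieldFullC κ 2).map (qExpandAlgHomC κ 2))
      (modularFunctionFieldFullC κ 4) = 2 := by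
  have hψ2 := DegBaseChange25.relfinrank_fullC_eq_psi_of_charZero κ 2
  have hψ4 := DegBaseChange25.relfinrank_fullC_eq_psi_of_charZero κ 4
  have h2κ : ((2 : ℕ) : κ) ≠ 0 := Nat.cast_ne_zero.mpr (by norm_num)
  obtain ⟨⟨-, hleft⟩, ⟨-, hright⟩⟩ := PR.Main20.primeLevel 2 le_rfl (AN.ModPoly3.p0 2 Nat.prime_two)
    AN.FormalJ10.p1 (AN.P2Final9.p2 2) κ h2κ
  have hA : κ⟮jqModC κ⟯ ≤ κ⟮jqModC κ⟯ ⊔ κ⟮qExpand κ 2 (jqModC κ)⟯ := le_sup_left
  have hA₂ : κ⟮qExpand κ 2 (jqModC κ)⟯ ≤ κ⟮jqModC κ⟯ ⊔ κ⟮qExpand κ 2 (jqModC κ)⟯ := le_sup_right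
  have hj₂ : qExpand κ 2 (jqModC κ) ∈ modularFunctionFieldFullC κ 4 :=
    jqModCd_mem_full κ 4 (by norm_num : 2 ∣ 4)
  have hC : κ⟮jqModC κ⟯ ⊔ κ⟮qExpand κ 2 (jqModC κ)⟯ ≤ modularFunctionFieldFullC κ 4 :=
    sup_le (simple_le_fullC κ 4) (adjoin_simple_le_iff.mpr hj₂)
  have h1 := relfinrank_mul_relfinrank hA hC
  rw [hleft, hψ4, Fermat.Agent.X0.GNTable.gnt_psi_four] at h1
  have hx : relfinrank (κ⟮jqModC κ⟯ ⊔ κ⟮qExpand κ 2 (jqModC κ)⟯)
      (modularFunctionFieldFullC κ 4) = 2 := by omega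
  have h2 := relfinrank_mul_relfinrank hA₂ hC
  rw [hright, hx] at h2
  have hmapA : (κ⟮jqModC κ⟯).map (qExpandAlgHomC κ 2) = κ⟮qExpand κ 2 (jqModC κ)⟯ := by
    rw [adjoin_map, Set.image_singleton, qExpandAlgHomC_apply]
  have hle1 : κ⟮qExpand κ 2 (jqModC κ)⟯ ≤
      (modularFunctionFieldFullC κ 2).map (qExpandAlgHomC κ 2) := by
    rw [← hmapA]
    exact IntermediateField.map_mono _ (simple_le_fullC κ 2)
  have hle2 : (modularFunctionFieldFullC κ 2).map (qExpandAlgHomC κ 2) ≤
      modularFunctionFieldFullC κ 4 := full_degeneracyC_map_le κ 2 2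
  have h3 : relfinrank κ⟮qExpand κ 2 (jqModC κ)⟯
      ((modularFunctionFieldFullC κ 2).map (qExpandAlgHomC κ 2)) = 3 := by
    rw [← hmapA, relfinrank_map_map, hψ2, Fermat.Agent.X0.GNTable.gnt_psi_two]
  have h4 := relfinrank_mul_relfinrank hle1 hle2
  rw [h3, ← h2] at h4
  omega

end Degree

/-- a ring endomorphism fixing `B` pointwise keeps the elements of `F` inside `F`, when
`[F : B] = 2`. -/
theorem mem_of_relfinrank_two {K 𝓛 : Type*} [Field K] [Field 𝓛] [Algebra K 𝓛]
    {B F : IntermediateField K 𝓛} (h : B ≤ F) (h2 : relfinrank B F = 2) (σ : 𝓛 →+* 𝓛)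
    (hσ : ∀ b ∈ B, σ b = b) {x : 𝓛} (hx : x ∈ F) : σ x ∈ F := by
  by_cases hne : σ x = x
  · rw [hne]; exact hx
  rw [relfinrank_eq_finrank_of_le h] at h2
  have hfd : FiniteDimensional B (extendScalars h) :=
    FiniteDimensional.of_finrank_pos (by rw [h2]; norm_num)
  let v : Fin 3 → extendScalars h :=
    fun i => ⟨x ^ (i : ℕ), pow_mem ((mem_extendScalars h).mpr hx) _⟩
  have hnl : ¬ LinearIndependent B v := fun hl => by
    have := hl.fintype_card_le_finrank
    rw [h2, Fintype.card_fin] at this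
    omega
  rw [Fintype.not_linearIndependent_iff] at hnl
  obtain ⟨g, hg, i, hi⟩ := hnl
  have hrel : (g 0 : 𝓛) + g 1 * x + g 2 * x ^ 2 = 0 := by
    have h0 := congrArg (fun e : extendScalars h => (e : 𝓛)) hg
    simp only [Fin.sum_univ_three, v] at h0
    simpa [Algebra.smul_def] using h0
  have hrel' : (g 0 : 𝓛) + g 1 * σ x + g 2 * σ x ^ 2 = 0 := by
    have h0 := congrArg σ hrel
    rw [map_add, map_add, map_mul, map_mul, map_pow, hσ _ (g 0).2, hσ _ (g 1).2, hσ _ (g 2).2,
      map_zero] at h0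
    exact h0
  have h3 : (σ x - x) * ((g 1 : 𝓛) + g 2 * (σ x + x)) = 0 := by
    linear_combination hrel' - hrel
  have h4 : (g 1 : 𝓛) + g 2 * (σ x + x) = 0 := by
    rcases mul_eq_zero.mp h3 with h5 | h5
    · exact absurd (sub_eq_zero.mp h5) hne
    · exact h5
  by_cases hg2 : g 2 = 0
  · exfalso
    rw [hg2, ZeroMemClass.coe_zero, zero_mul, add_zero] at h4
    have hg1 : g 1 = 0 := Subtype.ext h4
    rw [hg2, hg1, ZeroMemClass.coe_zero, zero_mul, zero_mul, add_zero, add_zero] at hrel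
    have hg0 : g 0 = 0 := Subtype.ext hrel
    fin_cases i
    · exact hi hg0
    · exact hi hg1
    · exact hi hg2
  · have hg2' : (g 2 : 𝓛) ≠ 0 := fun h5 => hg2 (Subtype.ext h5)
    have h5 : σ x = -(g 1 : 𝓛) / g 2 - x := by
      field_simp
      linear_combination h4
    rw [h5]
    exact F.sub_mem (F.div_mem (F.neg_mem (h (g 1).2)) (h (g 2).2)) hx

/-! ### The twist on the function fields -/

/-- **`tw j ∈ ℚ̄·F_4`.** -/
theorem tw_jq_mem : tw (jqModC Qbar) ∈ Fbar 4 := by
  have hle : (modularFunctionFieldFullC Qbar 2).map (qExpandAlgHomC Qbar 2) ≤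
      modularFunctionFieldFullC Qbar 4 := full_degeneracyC_map_le Qbar 2 2
  rw [fbar_eq_fullC]
  refine mem_of_relfinrank_two hle (relfinrank_beta_two Qbar) tw ?_ (jqModC_mem_full Qbar 4)
  rintro b ⟨y, -, rfl⟩
  exact tw_qExpand_of_even (by norm_num) y

/-- **`tw` maps `ℚ̄·F_N` into itself for `4 ∣ N`.** -/
theorem tw_mem_Fbar {N : ℕ} [NeZero N] (h4 : 4 ∣ N) {x : LaurentSeries Qbar} (hx : x ∈ Fbar N) :
    tw x ∈ Fbar N := by
  have hle : Fbar N ≤ (Fbar N).comap (twAlg Qbar) := by
    conv_lhs => rw [fbar_eq_fullC, modularFunctionFieldFullC]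
    rw [adjoin_le_iff]
    rintro _ ⟨d, hne, hd, rfl⟩
    have := hne
    show tw (qExpand Qbar d (jqModC Qbar)) ∈ Fbar N
    rcases Nat.even_or_odd d with hev | hodd
    · rw [tw_qExpand_of_even hev, fbar_eq_fullC]
      exact jqModCd_mem_full Qbar N hd
    · rw [tw_qExpand_of_odd hodd]
      have h4d : 4 * d ∣ N := by
        have hcop : Nat.Coprime 4 d := by
          have h2 : Nat.Coprime 2 d := Nat.coprime_two_left.mpr hodd
          exact Nat.Coprime.pow_left 2 h2
        exact hcop.mul_dvd_of_dvd_of_dvd h4 hd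
      have : NeZero (4 * d) := ⟨Nat.mul_ne_zero (by norm_num) (NeZero.ne d)⟩
      have h1 : qExpand Qbar d (tw (jqModC Qbar)) ∈
          (modularFunctionFieldFullC Qbar 4).map (qExpandAlgHomC Qbar d) := by
        refine ⟨tw (jqModC Qbar), ?_, rfl⟩
        rw [← fbar_eq_fullC]; exact tw_jq_mem
      have h2 := full_degeneracyC_map_le Qbar 4 d h1
      rw [fbar_eq_fullC]
      exact full_degeneracyC_le Qbar h4d h2
  exact hle hx

/-! ### The automorphism `s₁` -/

section S1

variable (N : ℕ) [NeZero N] (h4 : 4 ∣ N)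

/-- the twist as an endomorphism of `ℚ̄·F_N`. -/
def s1Hom : Fbar N →ₐ[Qbar] Fbar N where
  toFun x := ⟨tw (x : LaurentSeries Qbar), tw_mem_Fbar h4 x.2⟩
  map_one' := Subtype.ext (map_one tw)
  map_mul' _ _ := Subtype.ext (map_mul tw _ _)
  map_zero' := Subtype.ext (map_zero tw)
  map_add' _ _ := Subtype.ext (map_add tw _ _)
  commutes' c := Subtype.ext ((twAlg Qbar).commutes c)

theorem coe_s1Hom (x : Fbar N) :
    ((s1Hom N h4 x : Fbar N) : LaurentSeries Qbar) = tw (x : LaurentSeries Qbar) := rfl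

/-- **the automorphism `s₁ : q ↦ -q`** of `ℚ̄·F_N`, `4 ∣ N`. -/
def s1 : Fbar N ≃ₐ[Qbar] Fbar N :=
  AlgEquiv.ofAlgHom (s1Hom N h4) (s1Hom N h4)
    (AlgHom.ext fun _ => Subtype.ext (tw_tw _)) (AlgHom.ext fun _ => Subtype.ext (tw_tw _))

@[simp] theorem coe_s1 (x : Fbar N) :
    ((s1 N h4 x : Fbar N) : LaurentSeries Qbar) = tw (x : LaurentSeries Qbar) := rfl

@[simp] theorem s1_s1 (x : Fbar N) : s1 N h4 (s1 N h4 x) = x := Subtype.ext (tw_tw _)

theorem s1_symm : (s1 N h4).symm = s1 N h4 := by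
  apply AlgEquiv.ext
  intro x
  apply (s1 N h4).injective
  rw [AlgEquiv.apply_symm_apply, s1_s1]

end S1

/-! ### The Hauptmodul: `s₁ t = -t + b` -/

section Hauptmodul

open Fermat.Agent.X0 Fermat.Agent.X0.FF Fermat.Agent.RED.BASE
open Fermat.Agent.RED.BASE.Interface12 Fermat.Agent.ES.N34.ModEqBar23 AlgebraicCurve

/-- **`tw t = -t + b`** for the Hauptmodul `t = q⁻¹ (η(q)/η(q⁴))⁸` of level `4`. -/
theorem exists_tw_tK : ∃ b : Kbar, tw (tK 4 8) = -(tK 4 8) + HahnSeries.C b := by
  obtain ⟨h, htop⟩ := (Main12.baseExports_four 4 dvd_rfl).genBase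
  obtain ⟨t, ht⟩ : ∃ t : FF 4, t = tF 4 h := ⟨_, rfl⟩
  have hct : (t : LaurentSeries Kbar) = tK 4 8 := by rw [ht]; rfl
  have hgen : IsGen Kbar t := by rw [ht]; exact TGen19.isGen_tF 4 8 4 h
  have hτ := valHom_const 4
  have ht0 : t ≠ 0 := hgen.ne_zero
  have hord : (valHom 4 t).order = -1 := by
    rw [valHom_apply, hct]; exact TGen19.order_tK 4 8
  have hnt : ∃ f, f ≠ 0 ∧ (valHom 4 f).order ≠ 0 := ⟨t, ht0, by rw [hord]; decide⟩
  obtain ⟨Pq, hPqdef⟩ : ∃ Pq : Place Kbar (FF 4), Pq = LaurentPlace.embPlace (valHom 4) hτ hnt :=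
    ⟨_, rfl⟩
  have hPq : ∀ f : FF 4, f ≠ 0 → Pq.ord f = (f : LaurentSeries Kbar).order := by
    intro f hf
    rw [hPqdef]
    exact embPlace_ord_eq (valHom 4) hτ hnt ht0 hord hf
  -- degrees
  have hfr : Module.finrank (Kbar⟮t⟯ : IntermediateField Kbar (FF 4)) (FF 4) = 1 := by
    rw [ht, htop]; exact IntermediateField.finrank_top
  -- the unique pole of a generator with a simple pole at `Pq`
  have hpole : ∀ x : FF 4, IsGen Kbar x → Module.finrank (Kbar⟮x⟯ : IntermediateField Kbar (FF 4))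
      (FF 4) = 1 → (x : LaurentSeries Kbar).order = -1 → ∀ v : Place Kbar (FF 4), v.ord x < 0 →
      v = Pq := by
    intro x hx hfx hox v hv
    have hx0 : x ≠ 0 := hx.ne_zero
    have h1 : Pq.ord x = -1 := by rw [hPq x hx0, hox]
    have := mem_of_ord_neg hx {Pq} (by
      intro w hw; rw [Finset.mem_singleton] at hw; rw [hw, h1]; decide) (by
      rw [Finset.sum_singleton, h1, hfx]; rfl) v hv
    exact Finset.mem_singleton.mp this
  -- the twisted generator
  obtain ⟨u, hu⟩ : ∃ u : FF 4, u = s1 4 dvd_rfl t := ⟨_, rfl⟩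
  have hcu : (u : LaurentSeries Kbar) = tw (tK 4 8) := by rw [hu, coe_s1, hct]
  have hou : (u : LaurentSeries Kbar).order = -1 := by
    rw [hcu, order_tw]; exact TGen19.order_tK 4 8
  have htu : Transcendental Kbar u := by
    intro halg
    apply hgen.transcendental
    have h1 := halg.algHom (s1 4 dvd_rfl).toAlgHom
    have h2 : (s1 4 dvd_rfl).toAlgHom u = t := by
      rw [hu]; exact s1_s1 4 dvd_rfl t
    rwa [h2] at h1
  have hgenu : IsGen Kbar u := hgen.of_transcendental htu
  have hfru : Module.finrank (Kbar⟮u⟯ : IntermediateField Kbar (FF 4)) (FF 4) = 1 := by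
    have h1 : (Kbar⟮u⟯ : IntermediateField Kbar (FF 4)) = ⊤ := by
      have h2 : (Kbar⟮t⟯ : IntermediateField Kbar (FF 4)).map (s1 4 dvd_rfl).toAlgHom = Kbar⟮u⟯ := by
        rw [IntermediateField.adjoin_map, Set.image_singleton, hu]; rfl
      rw [← h2, ht, htop, ← AlgHom.fieldRange_eq_map]
      rw [AlgHom.fieldRange_eq_top]
      exact (s1 4 dvd_rfl).surjective
    rw [h1]; exact IntermediateField.finrank_top
  -- `t + u` has no pole
  have hot : (t : LaurentSeries Kbar).order = -1 := by rw [hct]; exact TGen19.order_tK 4 8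
  have hw : ∀ v : Place Kbar (FF 4), 0 ≤ v.ord (t + u) := by
    intro v
    by_contra hneg
    rw [not_le] at hneg
    have hw0 : t + u ≠ 0 := by
      intro h0; rw [h0, Place.ord_zero] at hneg; exact lt_irrefl _ hneg
    have hmin := ord_add_ge v hw0
    have hv : v = Pq := by
      rcases min_lt_iff.mp (lt_of_le_of_lt hmin hneg) with h1 | h1
      · exact hpole t hgen hfr hot v h1
      · exact hpole u hgenu hfru hou v h1
    rw [hv, hPq _ hw0] at hneg
    have hcoe : ((t + u : FF 4) : LaurentSeries Kbar) = tK 4 8 + tw (tK 4 8) := by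
      show (t : LaurentSeries Kbar) + (u : LaurentSeries Kbar) = _
      rw [hct, hcu]
    rw [hcoe] at hneg
    have hne : tK 4 8 + tw (tK 4 8) ≠ 0 := by
      rw [← hcoe]; exact fun h0 => hw0 (Subtype.ext h0)
    apply HahnSeries.coeff_order_eq_zero.not.mpr hne
    obtain ⟨n, hn⟩ : ∃ n : ℤ, n = (tK 4 8 + tw (tK 4 8)).order := ⟨_, rfl⟩
    rw [← hn] at hneg ⊢
    rw [HahnSeries.coeff_add, tw_coeff]
    rcases lt_or_eq_of_le (show n ≤ -1 by omega) with hlt | heq
    · rw [show tK 4 8 = EtaQuot12.tq Kbar 4 8 from rfl, EtaQuot12.coeff_tq_of_lt Kbar 4 8 hlt,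
        mul_zero, add_zero]
    · rw [heq, sgn_odd ⟨-1, by norm_num⟩]; ring
  -- hence it is constant
  have halg : IsAlgebraic Kbar (t + u) := by
    by_contra htr
    have hg : IsGen Kbar (t + u) := hgen.of_transcendental htr
    have hs := sum_ord_poles hg
    have h0 : ∑ᶠ (v : Place Kbar (FF 4)) (_ : v.ord (t + u) < 0), -v.ord (t + u) = 0 := by
      classical
      apply finsum_eq_zero_of_forall_eq_zero
      intro v
      rw [finsum_eq_if, if_neg (not_lt.mpr (hw v))]
    rw [h0] at hs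
    have := hg.finite
    have hpos : 0 < Module.finrank (Kbar⟮t + u⟯ : IntermediateField Kbar (FF 4)) (FF 4) :=
      Module.finrank_pos
    have : (0 : ℤ) < (Module.finrank (Kbar⟮t + u⟯ : IntermediateField Kbar (FF 4)) (FF 4) : ℤ) := by
      exact_mod_cast hpos
    omega
  obtain ⟨c, hc⟩ := eq_algebraMap_of_isAlgebraic halg
  refine ⟨c, ?_⟩
  have h1 := congrArg (valHom 4) hc
  rw [map_add, valHom_apply, valHom_apply, hct, hcu, hτ] at h1
  rw [← h1]; ring

/-- the integer `b = 2 t₀` (`t₀` the constant coefficient of `t`; in fact `b = -16`). -/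
def twInt : ℤ := 2 * (EtaQuot12.tq ℤ 4 8).coeff 0

/-- **`tw t = -t + b` over `ℤ`.** -/
theorem tw_tq_int :
    tw (EtaQuot12.tq ℤ 4 8) = -(EtaQuot12.tq ℤ 4 8) + HahnSeries.C twInt := by
  obtain ⟨b, hb⟩ := exists_tw_tK
  have hK : tK 4 8 = coeffMap (Int.castRingHom Kbar) (EtaQuot12.tq ℤ 4 8) :=
    EtaQuot12.tq_eq_coeffMap_int Kbar 4 8
  -- the constant
  have hb0 : b = ((twInt : ℤ) : Kbar) := by
    have h0 := congrArg (fun f : LaurentSeries Kbar => f.coeff 0) hb
    simp only [tw_coeff, sgn_zero, one_mul, HahnSeries.coeff_add, HahnSeries.coeff_neg] at h0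
    rw [HahnSeries.C_apply, HahnSeries.coeff_single_same] at h0
    have h1 : (tK 4 8).coeff 0 = (((EtaQuot12.tq ℤ 4 8).coeff 0 : ℤ) : Kbar) := by
      rw [hK, coeffMap_coeff]; rfl
    rw [h1] at h0
    unfold twInt
    push_cast
    linear_combination (-1 : Kbar) * h0
  have hinj : Function.Injective (coeffMap (Int.castRingHom Kbar)) := by
    intro f g hfg
    ext n
    have := congrArg (fun x : LaurentSeries Kbar => x.coeff n) hfg
    simp only [coeffMap_coeff] at this
    exact Int.cast_injective this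
  apply hinj
  rw [coeffMap_tw, ← hK, hb, hb0, map_add, map_neg, ← hK]
  congr 1
  rw [HahnSeries.C_apply, HahnSeries.C_apply, coeffMap_single]
  rfl

/-- **`tw t = -t + b` over any commutative ring.** -/
theorem tw_tq (R : Type*) [CommRing R] :
    tw (EtaQuot12.tq R 4 8) = -(EtaQuot12.tq R 4 8) + HahnSeries.C ((twInt : ℤ) : R) := by
  rw [EtaQuot12.tq_eq_coeffMap_int R 4 8, ← coeffMap_tw, tw_tq_int, map_add, map_neg]
  congr 1
  rw [HahnSeries.C_apply, HahnSeries.C_apply, coeffMap_single]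
  rfl

/-- **`tw t = -t + b`** for the Hauptmodul `t = tK 4 8`. -/
theorem tw_tK : tw (tK 4 8) = -(tK 4 8) + HahnSeries.C ((twInt : ℤ) : Kbar) := tw_tq Kbar

/-- **`s₁ t = -t + b`** at every level `4 ∣ N`. -/
theorem s1_tF (N : ℕ) [NeZero N] (h4 : 4 ∣ N) (h : TMem 4 8 N) :
    s1 N h4 (tF N h) = -tF N h + algebraMap Kbar (FF N) ((twInt : ℤ) : Kbar) := by
  apply Subtype.ext
  rw [coe_s1]
  show tw (tK 4 8) = -(tK 4 8) + algebraMap Kbar (LaurentSeries Kbar) ((twInt : ℤ) : Kbar)
  rw [tw_tK, algebraMap_laurentSeries_eq_single]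
  rfl

end Hauptmodul

end Fermat.Agent.MP.FUNC.Twist4
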