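/-
PROGRAMME MP (row 38 via S44), chapter FUNC, LAYER 3 (helper8): **the Fricke involution `W` on the
two-component model of `X₀(M' p)`** — the Gauss half (H2) of helper1's `PtsMap1`.

`𝔓 := H.ptsData HL Hk` for ANY `H : TwoCompInst6.Hyp p M' A hA hpM h4` (for the concrete datum of
`MP/FINAL/MainDatum6` take `A = padicPlace p`, `H = hypMain hpM h4 hp2`).

* `swap : Fin 2 → Fin 2` (`0 ↦ 1`, `1 ↦ 0`), `swap_injective`, `swap_swap`;
* **`gaussHyp_W`** : `GaussHyp 𝔓 𝔓 (W p M') swap (fun _ => RingHom.id _)` — `W` maps the Gauss ring of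
  the component `swap v` onto that of `v` and `red_v ∘ W = red_{swap v}` (by the very definition
  `G2 = W⁻¹ G1`, `red2 = red1 ∘ W` of `SideTwo1` and `W² = 1`).
-/
import Mathlib
import Fermat.Agent.MP.FUNC.PtsMap1
import Fermat.Agent.ORD.IFACEN.TwoCompInst6

set_option autoImplicit false
set_option linter.unusedSectionVars false
set_option linter.unusedVariables false
set_option linter.style.longLine false
set_option synthInstance.maxHeartbeats 400000

open AlgebraicCurve ModularCurve

noncomputable section

namespace Fermat.Agent.MP.FUNC.AutW8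

open Fermat.Agent.X0.FF Fermat.Agent.RR.LSpace
open Fermat.Agent.RED.Interface4 Fermat.Agent.ES.RED.ChartIntegralA1
open Fermat.Agent.ORD.ANN.Side3
open Fermat.Agent.ORD.IFACEN.PtsAssembly3 Fermat.Agent.ORD.IFACEN.TwoCompAssembly3
  Fermat.Agent.ORD.IFACEN.TwoCompInst6
  Fermat.Agent.ORD.IFACEN.SideOne1 Fermat.Agent.ORD.IFACEN.SideTwo1
  Fermat.Agent.ORD.IFACEN.ChartOne1 Fermat.Agent.ORD.IFACEN.ChartTwo1
open Fermat.Agent.MP.FUNC.PtsMap1

/-- fast instance (the canonical search costs seconds). -/
local instance (priority := 100000) algKF8w (A : ValuationSubring Qbar) (M : ℕ) [NeZero M] :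
    Algebra (kA A) ↥(modularFunctionFieldFullC (kA A) M) := inferInstance

/-- the transposition of the two components. -/
def swap : Fin 2 → Fin 2 := ![1, 0]

@[simp] theorem swap_zero : swap 0 = 1 := rfl

@[simp] theorem swap_one : swap 1 = 0 := rfl

theorem swap_swap (v : Fin 2) : swap (swap v) = v := by
  fin_cases v <;> rfl

theorem swap_injective : Function.Injective swap :=
  Function.LeftInverse.injective swap_swap

theorem swap_ne (v : Fin 2) : swap v ≠ v := by
  fin_cases v <;> decide

variable {p M' : ℕ} [Fact p.Prime] [NeZero M'] {A : ValuationSubring Qbar}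
  {hA : A.LiesOverPrime p} {hpM : ¬ p ∣ M'} {h4 : 4 ∣ M'}

/-- **(H2) for the Fricke involution**: `W` maps the Gauss ring of the component `swap v` into the
Gauss ring of the component `v`, compatibly with the reductions (`φbar = id`). -/
theorem gaussHyp_W (H : Hyp p M' A hA hpM h4) (HL : LHyp Qbar ↥(Fbar (M' * p)))
    (Hk : LHyp (kA A) ↥(modularFunctionFieldFullC (kA A) M')) :
    GaussHyp (H.ptsData HL Hk) (H.ptsData HL Hk) (W p M') swap
      (fun _ => RingHom.id ↥(modularFunctionFieldFullC (kA A) M')) where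
  inj := swap_injective
  map := by
    intro v₂
    fin_cases v₂
    · -- target component `0` (Gauss ring `G1`), source component `1` (Gauss ring `G2`)
      intro g
      have hg : (g : ↥(Fbar (M' * p))) ∈ G2 p M' A hA hpM h4 := g.2
      exact ⟨(mem_G2_iff p M' A hA hpM h4 _).mp hg, rfl⟩
    · -- target component `1` (Gauss ring `G2`), source component `0` (Gauss ring `G1`)
      intro g
      have hg : (g : ↥(Fbar (M' * p))) ∈ G1 p M' A hA hpM h4 := g.2
      exact ⟨(W_mem_G2_iff p M' A hA hpM h4 _).mpr hg, red2_W p M' A hA hpM h4 ⟨_, hg⟩⟩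

end Fermat.Agent.MP.FUNC.AutW8
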