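/-
PROGRAMME MP (row 38 via S44), chapter FUNC, LAYER 3 (helper8): **`t(q^m)` and `t` for EVERY `m`
prime to the base level** (characteristic `0`, over `ℚbar`), and the **Fricke transform of the
Hauptmodul** `W_N t = c₀ / t(q^{N/n})`.

`(n, e) = (4, 8)` or `(9, 3)` (`hb : BaseHyp n e`), `t = tK n e`, `m` prime to `n`:

* `isIntegral_adjoin_trans` : integrality over `K[x]` is transitive;
* `qExpandAlg m` : `q ↦ q^m` as a `ℚbar`-algebra endomorphism of `ℚbar((q))`;
* **`isIntegral_qExpand_tK_of_coprime`** (I1): `t(q^m)` is integral over `ℚbar[t]`;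
* **`isIntegral_inv_qExpand_tK_of_coprime`** (I3): `t(q^m)⁻¹` is integral over `ℚbar[t⁻¹]`
  (induction on `m` from the prime case `ModEqBar23.isIntegral_qExpand_tK`,
  `isIntegral_inv_qExpand_tK`);
* **`coe_frickeBar_tF`** : for `N = n * m` (any `m`), `W_N t = c₀ · t(q^m)⁻¹` as Laurent series,
  `c₀ ≠ 0` (consumed by `ChartW8`: for `m` prime to `n`, `(W_N t)⁻¹` is integral over `K[t]` and
  `W_N t` over `K[t⁻¹]` at every finite level `K`).
-/
import Mathlib
import Fermat.Agent.ES.N34.ModEqBar23
import Fermat.Agent.ES.N34.FrickeFK8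

set_option autoImplicit false
set_option linter.unusedSectionVars false
set_option linter.unusedVariables false
set_option linter.style.longLine false
set_option linter.style.haveILetI false

open ModularCurve AlgebraicCurve IntermediateField

noncomputable section

namespace Fermat.Agent.MP.FUNC.OddInt8

open Fermat.Agent.X0 Fermat.Agent.X0.Analytic Fermat.Agent.X0.FF
open Fermat.Agent.RED.BASE.Interface12 Fermat.Agent.RED.BASE.Hauptmodul12
open Fermat.Agent.RED.BASE Fermat.Agent.RED.BASE.EtaQuot12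
open Fermat.Agent.ES.N34.ModEqBar23 Fermat.Agent.ES.N34.FrickeFK8
open Fermat.Agent.RED.LVL.FrickeExp17

/-! ### transitivity of integrality over `K[x]` -/

section Trans

variable {K L : Type*} [Field K] [CommRing L] [Algebra K L]

/-- **integrality over `K[x]` is transitive**: `y` integral over `K[x]`, `z` integral over `K[y]`
⟹ `z` integral over `K[x]`. -/
theorem isIntegral_adjoin_trans {x y z : L} (hy : IsIntegral (Algebra.adjoin K {x}) y)
    (hz : IsIntegral (Algebra.adjoin K {y}) z) : IsIntegral (Algebra.adjoin K {x}) z := by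
  set R := Algebra.adjoin K {x} with hR
  have hmem : ∀ r ∈ Algebra.adjoin K {y}, IsIntegral R r := by
    intro r hr
    induction hr using Algebra.adjoin_induction with
    | mem u hu =>
      rw [Set.mem_singleton_iff] at hu
      rw [hu]
      exact hy
    | algebraMap c =>
      exact isIntegral_algebraMap (R := R) (A := L)
        (x := ⟨algebraMap K L c, Subalgebra.algebraMap_mem _ c⟩)
    | add u v _ _ hu hv => exact hu.add hv
    | mul u v _ _ hu hv => exact hu.mul hv
  let C := integralClosure R L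
  let φ : Algebra.adjoin K {y} →+* C :=
    { toFun := fun b => ⟨(b : L), hmem b b.2⟩
      map_one' := rfl
      map_mul' := fun _ _ => rfl
      map_zero' := rfl
      map_add' := fun _ _ => rfl }
  obtain ⟨P, hP, hPz⟩ := hz
  have hC : IsIntegral C z := by
    refine ⟨P.map φ, hP.map φ, ?_⟩
    rw [Polynomial.eval₂_map]
    exact hPz
  have hmemC : z ∈ integralClosure C L := hC
  rw [integralClosure_idem] at hmemC
  obtain ⟨c, hc⟩ := hmemC
  rw [← hc]
  exact c.2

/-- a nonzero constant multiple of an integral element is integral. -/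
theorem isIntegral_const_mul {x z : L} (c : K) (hz : IsIntegral (Algebra.adjoin K {x}) z) :
    IsIntegral (Algebra.adjoin K {x}) (algebraMap K L c * z) := by
  have h2 : IsIntegral (Algebra.adjoin K {x}) (algebraMap K L c) :=
    isIntegral_algebraMap (R := Algebra.adjoin K {x}) (A := L)
      (x := ⟨algebraMap K L c, Subalgebra.algebraMap_mem _ c⟩)
  exact h2.mul hz

end Trans

/-! ### `q ↦ q^m` -/

/-- `q ↦ q^m` as a `ℚbar`-algebra endomorphism of `ℚbar((q))`. -/
def qExpandAlg (m : ℕ) [NeZero m] : LaurentSeries Kbar →ₐ[Kbar] LaurentSeries Kbar :=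
  { qExpand Kbar m with
    commutes' := fun c => by
      show qExpand Kbar m (algebraMap Kbar (LaurentSeries Kbar) c) =
        algebraMap Kbar (LaurentSeries Kbar) c
      rw [algebraMap_laurentSeries_eq_single]
      exact qExpand_C m c }

@[simp] theorem qExpandAlg_apply (m : ℕ) [NeZero m] (f : LaurentSeries Kbar) :
    qExpandAlg m f = qExpand Kbar m f := rfl

/-! ### the induction -/

section Induction

variable {n e : ℕ} [NeZero n]

/-- **(I1) for every `m` prime to `n`**: `t(q^m)` is integral over `ℚbar[t]`. -/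
theorem isIntegral_qExpand_tK_aux (hb : BaseHyp n e) :
    ∀ (m : ℕ) (hm0 : m ≠ 0), Nat.Coprime m n →
      IsIntegral (Algebra.adjoin Kbar {tK n e}) (@qExpand Kbar _ m ⟨hm0⟩ (tK n e)) := by
  intro m
  induction m using Nat.strong_induction_on with
  | _ m ih =>
    intro hm0 hcop
    haveI : NeZero m := ⟨hm0⟩
    by_cases hm1 : m = 1
    · subst hm1
      rw [qExpand_one_apply]
      exact isIntegral_algebraMap (R := Algebra.adjoin Kbar {tK n e}) (A := LaurentSeries Kbar)
        (x := ⟨tK n e, Algebra.self_mem_adjoin_singleton Kbar _⟩)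
    · have hℓ : (m.minFac).Prime := Nat.minFac_prime hm1
      obtain ⟨m', hm'⟩ := Nat.minFac_dvd m
      set ℓ := m.minFac with hℓdef
      have hm'0 : m' ≠ 0 := by
        rintro rfl
        rw [mul_zero] at hm'
        exact hm0 hm'
      haveI : NeZero m' := ⟨hm'0⟩
      haveI : NeZero ℓ := ⟨hℓ.ne_zero⟩
      have hlt : m' < m := by
        rw [hm']
        have := hℓ.two_le
        nlinarith [Nat.pos_of_ne_zero hm'0]
      have hcop' : Nat.Coprime m' n :=
        Nat.Coprime.coprime_dvd_left ⟨ℓ, by rw [hm']; ring⟩ hcop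
      have hℓn : ¬ ℓ ∣ n := by
        intro hdvd
        have h1 : ℓ ∣ Nat.gcd m n := Nat.dvd_gcd (Nat.minFac_dvd m) hdvd
        rw [hcop] at h1
        exact hℓ.one_lt.ne' (Nat.dvd_one.mp h1)
      have h1 := isIntegral_qExpand_tK (n := n) (e := e) ℓ hb hℓ hℓn
      have h2 := isIntegral_adjoin_map (qExpandAlg m') h1
      rw [qExpandAlg_apply, qExpandAlg_apply, qExpand_qExpand] at h2
      have h3 := ih m' hlt hm'0 hcop'
      have h4 := isIntegral_adjoin_trans h3 h2
      have e1 : @qExpand Kbar _ (m' * ℓ) _ (tK n e) = @qExpand Kbar _ m ⟨hm0⟩ (tK n e) :=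
        qExpand_congr (by rw [hm']; ring) _
      rw [← e1]
      exact h4

/-- **(I3) for every `m` prime to `n`**: `t(q^m)⁻¹` is integral over `ℚbar[t⁻¹]`. -/
theorem isIntegral_inv_qExpand_tK_aux (hb : BaseHyp n e) :
    ∀ (m : ℕ) (hm0 : m ≠ 0), Nat.Coprime m n →
      IsIntegral (Algebra.adjoin Kbar {(tK n e)⁻¹}) (@qExpand Kbar _ m ⟨hm0⟩ (tK n e))⁻¹ := by
  intro m
  induction m using Nat.strong_induction_on with
  | _ m ih =>
    intro hm0 hcop
    haveI : NeZero m := ⟨hm0⟩
    by_cases hm1 : m = 1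
    · subst hm1
      rw [qExpand_one_apply]
      exact isIntegral_algebraMap (R := Algebra.adjoin Kbar {(tK n e)⁻¹})
        (A := LaurentSeries Kbar)
        (x := ⟨(tK n e)⁻¹, Algebra.self_mem_adjoin_singleton Kbar _⟩)
    · have hℓ : (m.minFac).Prime := Nat.minFac_prime hm1
      obtain ⟨m', hm'⟩ := Nat.minFac_dvd m
      set ℓ := m.minFac with hℓdef
      have hm'0 : m' ≠ 0 := by
        rintro rfl
        rw [mul_zero] at hm'
        exact hm0 hm'
      haveI : NeZero m' := ⟨hm'0⟩
      haveI : NeZero ℓ := ⟨hℓ.ne_zero⟩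
      have hlt : m' < m := by
        rw [hm']
        have := hℓ.two_le
        nlinarith [Nat.pos_of_ne_zero hm'0]
      have hcop' : Nat.Coprime m' n :=
        Nat.Coprime.coprime_dvd_left ⟨ℓ, by rw [hm']; ring⟩ hcop
      have hℓn : ¬ ℓ ∣ n := by
        intro hdvd
        have h1 : ℓ ∣ Nat.gcd m n := Nat.dvd_gcd (Nat.minFac_dvd m) hdvd
        rw [hcop] at h1
        exact hℓ.one_lt.ne' (Nat.dvd_one.mp h1)
      have h1 := isIntegral_inv_qExpand_tK (n := n) (e := e) ℓ hb hℓ hℓn
      have h2 := isIntegral_adjoin_map (qExpandAlg m') h1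
      rw [map_inv₀, map_inv₀, qExpandAlg_apply, qExpandAlg_apply, qExpand_qExpand] at h2
      have h3 := ih m' hlt hm'0 hcop'
      have h4 := isIntegral_adjoin_trans h3 h2
      have e1 : @qExpand Kbar _ (m' * ℓ) _ (tK n e) = @qExpand Kbar _ m ⟨hm0⟩ (tK n e) :=
        qExpand_congr (by rw [hm']; ring) _
      rw [← e1]
      exact h4

/-- **(I1) for every `m` prime to `n`.** -/
theorem isIntegral_qExpand_tK_of_coprime (hb : BaseHyp n e) (m : ℕ) [NeZero m]
    (hm : Nat.Coprime m n) :
    IsIntegral (Algebra.adjoin Kbar {tK n e}) (qExpand Kbar m (tK n e)) :=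
  isIntegral_qExpand_tK_aux hb m (NeZero.ne m) hm

/-- **(I3) for every `m` prime to `n`.** -/
theorem isIntegral_inv_qExpand_tK_of_coprime (hb : BaseHyp n e) (m : ℕ) [NeZero m]
    (hm : Nat.Coprime m n) :
    IsIntegral (Algebra.adjoin Kbar {(tK n e)⁻¹}) (qExpand Kbar m (tK n e))⁻¹ :=
  isIntegral_inv_qExpand_tK_aux hb m (NeZero.ne m) hm

end Induction

/-! ### the Fricke transform of the Hauptmodul -/

section Fricke

variable {n e : ℕ} [NeZero n]

/-- **`W_N t = c₀ / t(q^m)`** for `N = n m` (as Laurent series). -/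
theorem coe_frickeBar_tF (hb : BaseHyp n e) (N m : ℕ) [NeZero N] [NeZero m] (hN : N = n * m)
    (ht : TMem n e N) : ∃ c₀ : Kbar, c₀ ≠ 0 ∧
      ((frickeBar N (tF N ht) : FF N) : LaurentSeries Kbar) =
        HahnSeries.C c₀ * (qExpand Kbar m (tK n e))⁻¹ := by
  subst hN
  obtain ⟨c₀, hc₀, hT⟩ := T_S_tF hb
  refine ⟨c₀, hc₀, ?_⟩
  rw [coe_frickeBar]
  have h1 : tF (n * m) ht = heckeAlphaBar Kbar n m (tF n (tMem hb)) := (aF_eq_tF m (tMem hb)).symm
  rw [h1]
  show (cuspData (n * m)).T ModularGroup.S (heckeAlphaBar Kbar n m (tF n (tMem hb))) = _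
  rw [T_S_alpha, hT, map_mul, qExpand_C, map_inv₀]

end Fricke

end Fermat.Agent.MP.FUNC.OddInt8
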