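/-
PROGRAMME MP (row 38 via S44), chapter FUNC, LAYER 3 (helper8): **(H1) for the Fricke involution `W`
on the two-chart model of `X₀(M' p)`** (`4 ∣ M'`, `8 ∤ M'`, `p` odd, `p ∤ M'`).

`t = tB p M' h4` the Hauptmodul of level `4`; `W t = c₀ / t(q^m)` with `m = M' p / 4` ODD
(`OddInt8.coe_frickeBar_tF`), so `(W t)⁻¹` is integral over `ℚbar[t]` and `W t` over `ℚbar[t⁻¹]`
(`OddInt8`); both lie in `O1 ⊓ O2` at every finite level (`t^{±1} ∈ B0, B1 ⊆ O1 ⊓ O2`, `O2 = W⁻¹ O1`),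
hence in the charts by `π`-saturation (`SatIntegral18.mem_of_isIntegral_field`, the pattern of
helper1's `ChartBeta1`):

  **`W_t_inv_mem_chart0`** : `(W t)⁻¹ ∈ chart0`,   **`W_t_mem_chart1`** : `W t ∈ chart1`.

(For `8 ∣ M'` the function `W t` has poles at the cusps where `t = −16`, and `W t ∉ chart1`.)
-/
import Mathlib
import Fermat.Agent.ORD.IFACEN.BadFamily8
import Fermat.Agent.ORD.IFACEN.SideTwo1
import Fermat.Agent.ORD.IFACEN.ChartOne1
import Fermat.Agent.ES.N34.ItemsAd6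
import Fermat.Agent.MP.FUNC.OddInt8

set_option autoImplicit false
set_option linter.unusedSectionVars false
set_option linter.unusedVariables false
set_option linter.style.longLine false
set_option synthInstance.maxHeartbeats 400000
set_option maxHeartbeats 1000000

open HahnSeries ModularCurve IntermediateField

noncomputable section

namespace Fermat.Agent.MP.FUNC.ChartW8

open Fermat.Agent.RED.Interface4 Fermat.Agent.RED.DESC.PlaceExtend27
  Fermat.Agent.RED.PUR.GaussGen8 Fermat.Agent.RED.PUR.GaussBridge10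
  Fermat.Agent.RED.PUR.ChartGeneric22
  Fermat.Agent.RED.DESC.NumberFieldDVR27
  Fermat.Agent.RED.BASE.Interface12 Fermat.Agent.RED.BASE.EtaQuot12
  Fermat.Agent.RED.BASE.Hauptmodul12
  Fermat.Agent.ES.N34.ModelDefs9 Fermat.Agent.ES.N34.ModelInput13 Fermat.Agent.ES.N34.NumData13
  Fermat.Agent.ES.N34.NodalCore13 Fermat.Agent.ES.N34.FrickeFK8
  Fermat.Agent.ES.N34.ModEq23 Fermat.Agent.ES.N34.SatIntegral18
  Fermat.Agent.ORD.IFACEN.BadFamily8
  Fermat.Agent.ORD.IFACEN.SideOne1 Fermat.Agent.ORD.IFACEN.SideTwo1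
  Fermat.Agent.ORD.IFACEN.ChartOne1
  Fermat.Agent.MP.FUNC.OddInt8

/-- shortcut instance (typeclass search takes seconds to find it). -/
local instance (priority := high) algAKFK8w (A : ValuationSubring Qbar) (M : ℕ)
    (K : IntermediateField ℚ Qbar) : Algebra ↥(AK A K) ↥(FK M K) := inferInstance

variable (p M' : ℕ) [Fact p.Prime] [NeZero M'] (A : ValuationSubring Qbar)

/-! ### one finite level -/

section Level

variable {p M' A} {K : IntermediateField ℚ Qbar} [FiniteDimensional ℚ K]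
  (ht : tq ↥K 4 8 ∈ FK M' K)

/-- `z_K = W (t_K)` at the level `M' p`. -/
def zK : ↥(FK (M' * p) K) := wN K M' p (tN p ht)

theorem zK_inv : (zK (p := p) ht)⁻¹ = wN K M' p (tN p ht)⁻¹ := by
  rw [zK, map_inv₀]

/-- the coefficient extension of the expansion of `z_K` is the expansion of `W t`. -/
theorem coeffMap_coe_zK (h4 : 4 ∣ M') :
    coeffMap (algebraMap K Qbar) ((zK (p := p) ht : ↥(FK (M' * p) K)) : LaurentSeries K) =
      ((frickeBar (M' * p) (tB p M' h4) : ↥(Fbar (M' * p))) : LaurentSeries Qbar) := by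
  rw [← coe_baseChangeHom, zK]
  show ((baseChangeHom (M' * p) K (frickeFK (M' * p) K (tN p ht)) : ↥(Fbar (M' * p))) :
    LaurentSeries Qbar) = _
  rw [baseChangeHom_frickeFK, Fermat.Agent.ORD.IFACEN.BadLevelOne8.baseChangeHom_tN p M' h4 K ht]
  rfl

/-- **`W t = c₀ / t(q^m)`**, `M' p = 4 m`. -/
theorem exists_coe_zK (h4 : 4 ∣ M') (m : ℕ) [NeZero m] (hN : M' * p = 4 * m) :
    ∃ c₀ : Qbar, c₀ ≠ 0 ∧
      coeffMap (algebraMap K Qbar) ((zK (p := p) ht : ↥(FK (M' * p) K)) : LaurentSeries K) =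
        HahnSeries.C c₀ * (qExpand Qbar m (tq Qbar 4 8))⁻¹ := by
  obtain ⟨c₀, hc₀, h⟩ := coe_frickeBar_tF baseHyp_four (M' * p) m hN (tMem_bad p M' h4)
  refine ⟨c₀, hc₀, ?_⟩
  rw [coeffMap_coe_zK ht h4]
  exact h

theorem C_eq_algebraMap' (c : Qbar) :
    (HahnSeries.C c : LaurentSeries Qbar) = algebraMap Qbar (LaurentSeries Qbar) c :=
  Fermat.Agent.ES.N34.ModEqBar23.C_eq_algebraMap c

/-- **`(W t_K)⁻¹` is integral over `K[t_K]`.** -/
theorem isIntegral_zK_inv (h4 : 4 ∣ M') (m : ℕ) [NeZero m] (hN : M' * p = 4 * m)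
    (hm : Nat.Coprime m 4) :
    IsIntegral (Algebra.adjoin K {tN p ht}) (zK (p := p) ht)⁻¹ := by
  obtain ⟨c₀, hc₀, hcoe⟩ := exists_coe_zK (p := p) ht h4 m hN
  refine isIntegral_of_coe_eq K _ (coe_tN p ht) (IntermediateField.coe_inv _ _) ?_
  apply descend
  rw [map_inv₀, coeffMap_tq, hcoe, mul_inv, inv_inv, ← map_inv₀, C_eq_algebraMap']
  exact isIntegral_const_mul _ (isIntegral_qExpand_tK_of_coprime baseHyp_four m hm)

/-- **`W t_K` is integral over `K[t_K⁻¹]`.** -/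
theorem isIntegral_zK (h4 : 4 ∣ M') (m : ℕ) [NeZero m] (hN : M' * p = 4 * m)
    (hm : Nat.Coprime m 4) :
    IsIntegral (Algebra.adjoin K {(tN p ht)⁻¹}) (zK (p := p) ht) := by
  obtain ⟨c₀, hc₀, hcoe⟩ := exists_coe_zK (p := p) ht h4 m hN
  refine isIntegral_of_coe_eq K _ (t' := (tq (↥K) 4 8)⁻¹) ?_ rfl ?_
  · rw [IntermediateField.coe_inv, coe_tN]
  apply descend
  rw [map_inv₀, coeffMap_tq, hcoe, C_eq_algebraMap']
  exact isIntegral_const_mul _ (isIntegral_inv_qExpand_tK_of_coprime baseHyp_four m hm)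

variable {π : ↥(AK A K)} (hπ : IsUnif (AK A K) π) (hE : FK (M' * p) K ≤ fracField (AK A K))

/-- **`(W t_K)⁻¹ ∈ B0`, `W t_K ∈ B1` at the level `K`.** -/
theorem zK_mem_charts (h4 : 4 ∣ M') (m : ℕ) [NeZero m] (hN : M' * p = 4 * m)
    (hm : Nat.Coprime m 4)
    (D : NodalDataAt (AK A K) (FK (M' * p) K) π (tN p ht) (B0 A p ht) (B1 A p ht)
      (O1 M' p hπ hE) (O2 M' p hπ hE)) :
    (zK (p := p) ht)⁻¹ ∈ B0 A p ht ∧ zK (p := p) ht ∈ B1 A p ht := by
  have := Fermat.Agent.RED.NumInst4.isScalarTower_OE (AK A K) (FK (M' * p) K)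
  have D' : NodalNumData ↥(AK A K) ↥K ↥(FK (M' * p) K) π (tN p ht) (B0 A p ht)
      (B1 A p ht) (O1 M' p hπ hE) (O2 M' p hπ hE) := D
  have hπ1 : algebraMap ↥(AK A K) ↥(FK (M' * p) K) π ∈ O1 M' p hπ hE :=
    D'.model.le_O1_0 _ ((B0 A p ht).algebraMap_mem π)
  have hπ2 : algebraMap ↥(AK A K) ↥(FK (M' * p) K) π ∈ O2 M' p hπ hE :=
    D'.model.le_O2_0 _ ((B0 A p ht).algebraMap_mem π)
  have hB0 : ∀ x : ↥(FK (M' * p) K),
      IsIntegral (Algebra.adjoin ↥(AK A K) {tN p ht}) x → x ∈ B0 A p ht := by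
    intro x hx
    unfold B0
    exact mem_chart_iff.2 hx
  have hB1 : ∀ x : ↥(FK (M' * p) K),
      IsIntegral (Algebra.adjoin ↥(AK A K) {(tN p ht)⁻¹}) x → x ∈ B1 A p ht := by
    intro x hx
    unfold B1
    exact mem_chart_iff.2 hx
  have ht0 : tN p ht ∈ B0 A p ht := by
    unfold B0
    exact self_mem_chart _
  have ht1 : (tN p ht)⁻¹ ∈ B1 A p ht := by
    unfold B1
    exact self_mem_chart _
  -- memberships in the two Gauss valuation rings
  have hz1 : zK (p := p) ht ∈ O1 M' p hπ hE :=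
    (mem_O2_iff_wN_mem_O1 M' p hπ hE _).mp (D'.model.le_O2_0 _ ht0)
  have hz2 : zK (p := p) ht ∈ O2 M' p hπ hE :=
    (wN_mem_O2_iff M' p hπ hE _).mpr (D'.model.le_O1_0 _ ht0)
  have hzi1 : (zK (p := p) ht)⁻¹ ∈ O1 M' p hπ hE := by
    rw [zK_inv]
    exact (mem_O2_iff_wN_mem_O1 M' p hπ hE _).mp (D'.model.le_O2_1 _ ht1)
  have hzi2 : (zK (p := p) ht)⁻¹ ∈ O2 M' p hπ hE := by
    rw [zK_inv]
    exact (wN_mem_O2_iff M' p hπ hE _).mpr (D'.model.le_O1_1 _ ht1)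
  exact ⟨mem_of_isIntegral_field (R := ↥(AK A K)) (K := ↥K) (F := ↥(FK (M' * p) K)) π D'.dvrR
      (tN p ht) (B0 A p ht) hB0 _ _ hπ1 hπ2 D'.model.sat0 (isIntegral_zK_inv ht h4 m hN hm)
      hzi1 hzi2,
    mem_of_isIntegral_field (R := ↥(AK A K)) (K := ↥K) (F := ↥(FK (M' * p) K)) π D'.dvrR
      (tN p ht)⁻¹ (B1 A p ht) hB1 _ _ hπ1 hπ2 D'.model.sat1 (isIntegral_zK ht h4 m hN hm)
      hz1 hz2⟩

end Level

/-! ### over `ℚbar` -/

variable {p M' A}

/-- `M' p / 4` is odd when `8 ∤ M'` and `p` is odd. -/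
theorem coprime_quot (h4 : 4 ∣ M') (h8 : ¬ 8 ∣ M') (hp2 : p ≠ 2) :
    Nat.Coprime (M' / 4 * p) 4 := by
  have hp : p.Prime := Fact.out
  have hpodd : Nat.Coprime p 2 := by
    rw [Nat.coprime_primes hp Nat.prime_two]
    exact hp2
  obtain ⟨a, rfl⟩ := h4
  have ha : 4 * a / 4 = a := Nat.mul_div_cancel_left a (by norm_num)
  rw [ha]
  have haodd : Nat.Coprime a 2 := by
    rw [Nat.coprime_comm, Nat.Prime.coprime_iff_not_dvd Nat.prime_two]
    rintro ⟨b, rfl⟩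
    exact h8 ⟨b, by ring⟩
  have h2 : Nat.Coprime (a * p) 2 := Nat.Coprime.mul_left haodd hpodd
  have : (4 : ℕ) = 2 ^ 2 := by norm_num
  rw [this]
  exact Nat.Coprime.pow_right 2 h2

variable (hA : A.LiesOverPrime p) (h4 : 4 ∣ M') (h8 : ¬ 8 ∣ M') (hp2 : p ≠ 2)
  (MI : ModelInput 4 8 p M' A)

include hA h8 hp2 MI in
/-- **(H1) for `W`** : `(W t)⁻¹` lies in the chart `t ≠ ∞` and `W t` in the chart `t ≠ 0`. -/
theorem W_t_mem_charts :
    (W p M' (tB p M' h4))⁻¹ ∈ chart0 p M' A h4 ∧ W p M' (tB p M' h4) ∈ chart1 p M' A h4 := by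
  have hp : p.Prime := Fact.out
  have hm0 : M' / 4 * p ≠ 0 := by
    apply Nat.mul_ne_zero _ hp.ne_zero
    obtain ⟨a, rfl⟩ := h4
    rw [Nat.mul_div_cancel_left a (by norm_num)]
    rintro rfl
    exact NeZero.ne (4 * 0) rfl
  have : NeZero (M' / 4 * p) := ⟨hm0⟩
  have hN : M' * p = 4 * (M' / 4 * p) := by
    rw [← mul_assoc, Nat.mul_div_cancel' h4]
  have hm := coprime_quot (p := p) h4 h8 hp2
  obtain ⟨K₀, hK₀, H⟩ := MI
  have := hK₀
  obtain ⟨i, hi⟩ := exists_lvl_ge K₀ K₀ le_rfl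
  have hfd : FiniteDimensional ℚ i.K := i.fd
  have hnor : Normal ℚ i.K := i.nor
  obtain ⟨ht, hE, HD⟩ := H i.K hfd hi
  obtain ⟨π, hπ⟩ := exists_unif (p := p) (A := A) hA i.K
  obtain ⟨h0, h1⟩ := zK_mem_charts (p := p) ht hπ hE h4 (M' / 4 * p) hN hm (HD π hπ)
  have e : baseChangeHom (M' * p) i.K (zK (p := p) ht) = W p M' (tB p M' h4) := by
    rw [zK]
    show baseChangeHom (M' * p) i.K (frickeFK (M' * p) i.K (tN p ht)) = _
    rw [← W_baseChange, Fermat.Agent.ORD.IFACEN.BadLevelOne8.baseChangeHom_tN p M' h4 i.K ht]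
    rfl
  refine ⟨?_, ?_⟩
  · rw [← e, ← map_inv₀]
    exact Fermat.Agent.ORD.IFACEN.BadLevelOne8.baseChangeHom_mem_chart0 p M' A h4 i.K ht h0
  · rw [← e]
    exact Fermat.Agent.ORD.IFACEN.BadLevelOne8.baseChangeHom_mem_chart1 p M' A h4 i.K ht h1

end Fermat.Agent.MP.FUNC.ChartW8
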