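/-
Programme MP (row 38 via S44), chapter FUNC (helper6): **transport of the map `τ` along automorphisms of
the datum** — the abstract part of statement (W).

* `sl_map` : slopes are transported by a map `σ : F → F'` which carries the Gauss ring of a side `S'` into
  that of a side `S` compatibly with the reductions (`red_S ∘ σ = θ ∘ red_{S'}`) when the place `Q` pulls
  back to `Q'` along `θ`;
* `kumPull` : the pull-back of a Kummer pair `(D, f)` of `y` along `φ` is the Kummer pair `(φ^* D, φ f)` of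
  `φ^* y`;
* `Flip 𝔻 σ e e'` / `Keep 𝔻 σ e e'` : under `σ` the SOURCE branch of `e` corresponds to the TARGET / SOURCE
  branch of `e'`; **`tau_pull_flip`** : `τ(σ^* y)_e = − τ(y)_{e'}` (by (N1)), **`tau_pull_keep`** :
  `τ(σ^* y)_e = τ(y)_{e'}`;
* `TauTwist 𝔻 p T ε` : `∀ y ∈ J[p], ∃ s, ∀ e, τ(T y)_e = ε τ(y)_{s e}`; `TauTwist.comp`,
  `tauTwist_of_flip`, `tauTwist_of_keep`, `TauTwist.neg_one_cube` (three flips and three keeps, as for
  `𝒲 = s₁ W s₁ W s₁ W`).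
-/
import Mathlib
import Fermat.Agent.MP.TAU.TauDefs3
import Fermat.Agent.ES.HECKE.LevelPullback12

set_option autoImplicit false
set_option linter.unusedSectionVars false
set_option linter.style.longLine false

namespace Fermat.Agent.MP.FUNC.TauAut6

open AlgebraicCurve Fermat.Agent.X0.FF
open Fermat.Agent.ORD.ANN.Side3 Fermat.Agent.ORD.ANN.Node3
open Fermat.Agent.ORD.SEMIRED.SemiRedDatum9
open Fermat.Agent.MP.TAU.TauDefs3
open Fermat.Agent.ES.HECKE.LevelPullback12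

noncomputable section

/-! ### slopes -/

section Slope

variable {L k F F' Ft Ft' : Type*} [Field L] [Field k] [Field F] [Algebra L F] [Field F']
  [Algebra L F'] [Field Ft] [Algebra k Ft] [Field Ft'] [Algebra k Ft']
variable {B : Base L k}

/-- **transport of slopes.** -/
theorem sl_map (S' : Side B F Ft') (S : Side B F' Ft) (σ : F →ₐ[L] F') (θ : Ft' →+* Ft)
    (hmap : ∀ g : S'.G, ∃ h : σ (g : F) ∈ S.G, S.red ⟨σ (g : F), h⟩ = θ (S'.red g))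
    (Q : Place k Ft) (Q' : Place k Ft') (hQ : ∀ h : Ft', h ≠ 0 → Q.ord (θ h) = Q'.ord h) (f : F) :
    sl S Q (σ f) = sl S' Q' f := by
  by_cases hf : f = 0
  · rw [hf, map_zero, sl_zero, sl_zero]
  obtain ⟨c, hc⟩ := S'.exists_isNorm hf
  obtain ⟨hmem, hred⟩ := hc
  obtain ⟨h1, h2⟩ := hmap ⟨_, hmem⟩
  have e1 : σ (algebraMap L F c * f) = algebraMap L F' c * σ f := by
    rw [map_mul, AlgHom.commutes]
  have hmem' : algebraMap L F' c * σ f ∈ S.G := e1 ▸ h1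
  have hred' : S.red ⟨_, hmem'⟩ = θ (S'.red ⟨_, hmem⟩) := by
    rw [← h2]
    congr 1
    exact Subtype.ext e1.symm
  have hc' : S.IsNorm c (σ f) := ⟨hmem', by rw [hred']; exact (map_ne_zero θ).mpr hred⟩
  have hcn : S'.IsNorm c f := ⟨hmem, hred⟩
  rw [sl_eq Q hc', sl_eq Q' hcn, hc'.nred_eq, hcn.nred_eq, hred']
  exact hQ _ hred

end Slope

/-! ### Kummer pairs -/

section Kummer

variable {L F F' : Type*} [Field L] [Field F] [Algebra L F] [Field F'] [Algebra L F']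
  [HasPrincipalDivisors L F']

/-- **the pull-back of a Kummer pair.** -/
def kumPull {p : ℕ} {y : Pic0 L F} (φ : F →ₐ[L] F') (hφ : φ.toRingHom.IsIntegral)
    (hFI : FundamentalIdentityAlong L φ hφ) (K : Kum p y) :
    Kum p (pic0PullbackAlong φ hφ hFI y) where
  D := ⟨Divisor.pullbackAlong φ hφ (K.D : Divisor L F),
    Divisor.pullbackAlong_mem_degZero φ hφ hFI K.D.2⟩
  f := φ K.f
  f_ne := (map_ne_zero φ).mpr K.f_ne
  div_eq P := by
    show (p : ℤ) * Divisor.pullbackAlong φ hφ (K.D : Divisor L F) P = _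
    rw [Divisor.pullbackAlong_apply, Place.ord_restrictAlong φ hφ, ← K.div_eq]
    ring
  mk_eq := by
    have h := (pic0PullbackAlong_mk φ hφ hFI K.D).symm
    rw [K.mk_eq] at h
    exact h

@[simp] theorem kumPull_f {p : ℕ} {y : Pic0 L F} (φ : F →ₐ[L] F') (hφ : φ.toRingHom.IsIntegral)
    (hFI : FundamentalIdentityAlong L φ hφ) (K : Kum p y) : (kumPull φ hφ hFI K).f = φ K.f := rfl

end Kummer

/-! ### `τ` and automorphisms -/

section Tau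

variable {L F k Ft : Type*} [Field L] [Field F] [Algebra L F] [Field k] [Field Ft] [Algebra k Ft]
variable {ι E : Type*} (𝔻 : SemiRedDatum L F k Ft ι E)

/-- under `σ` the source branch of `e` corresponds to the TARGET branch of `e'`. -/
def Flip (σ : F →ₐ[L] F) (e e' : E) : Prop :=
  ∃ θ : Ft →+* Ft,
    (∀ g : 𝔻.G (𝔻.tgt e'), ∃ h : σ (g : F) ∈ 𝔻.G (𝔻.src e),
      𝔻.red (𝔻.src e) ⟨σ (g : F), h⟩ = θ (𝔻.red (𝔻.tgt e') g)) ∧
    ∀ h : Ft, h ≠ 0 → (𝔻.Qs e).ord (θ h) = (𝔻.Qt e').ord h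

/-- under `σ` the source branch of `e` corresponds to the SOURCE branch of `e'`. -/
def Keep (σ : F →ₐ[L] F) (e e' : E) : Prop :=
  ∃ θ : Ft →+* Ft,
    (∀ g : 𝔻.G (𝔻.src e'), ∃ h : σ (g : F) ∈ 𝔻.G (𝔻.src e),
      𝔻.red (𝔻.src e) ⟨σ (g : F), h⟩ = θ (𝔻.red (𝔻.src e') g)) ∧
    ∀ h : Ft, h ≠ 0 → (𝔻.Qs e).ord (θ h) = (𝔻.Qs e').ord h

variable {𝔻}

theorem slS_map_flip {σ : F →ₐ[L] F} {e e' : E} (h : Flip 𝔻 σ e e') (f : F) :
    slS 𝔻 e (σ f) = slT 𝔻 e' f := by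
  obtain ⟨θ, h1, h2⟩ := h
  exact sl_map (𝔻.side (𝔻.tgt e')) (𝔻.side (𝔻.src e)) σ θ h1 (𝔻.Qs e) (𝔻.Qt e') h2 f

theorem slS_map_keep {σ : F →ₐ[L] F} {e e' : E} (h : Keep 𝔻 σ e e') (f : F) :
    slS 𝔻 e (σ f) = slS 𝔻 e' f := by
  obtain ⟨θ, h1, h2⟩ := h
  exact sl_map (𝔻.side (𝔻.src e')) (𝔻.side (𝔻.src e)) σ θ h1 (𝔻.Qs e) (𝔻.Qs e') h2 f

/-- (N1) modulo `p` for a Kummer function. -/
theorem slT_kum_eq_neg {p : ℕ} {y : Pic0 L F} (K : Kum p y) (e : E) :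
    ((slT 𝔻 e K.f : ℤ) : ZMod p) = -((slS 𝔻 e K.f : ℤ) : ZMod p) := by
  have h1 := slS_add_slT 𝔻 e K.f_ne
  obtain ⟨m, hm⟩ := dvd_sum_supp 𝔻 K e
  have h2 : slT 𝔻 e K.f = (p : ℤ) * m - slS 𝔻 e K.f := by rw [← hm]; omega
  rw [h2]
  push_cast
  rw [ZMod.natCast_self, zero_mul, zero_sub]

variable [HasPrincipalDivisors L F]

/-- **`τ(σ^* y)_e = − τ(y)_{e'}`** when `σ` exchanges the branches. -/
theorem tau_pull_flip {p : ℕ} {y : Pic0 L F} (hy : p • y = 0) {σ : F →ₐ[L] F}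
    (hσ : σ.toRingHom.IsIntegral) (hFI : FundamentalIdentityAlong L σ hσ) {e e' : E}
    (h : Flip 𝔻 σ e e') :
    tau 𝔻 p (pic0PullbackAlong σ hσ hFI y) e = - tau 𝔻 p y e' := by
  obtain ⟨K⟩ := exists_kum hy
  rw [tau_eq 𝔻 (kumPull σ hσ hFI K), tau_eq 𝔻 K, kumPull_f, slS_map_flip h, slT_kum_eq_neg]

/-- **`τ(σ^* y)_e = τ(y)_{e'}`** when `σ` keeps the orientation. -/
theorem tau_pull_keep {p : ℕ} {y : Pic0 L F} (hy : p • y = 0) {σ : F →ₐ[L] F}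
    (hσ : σ.toRingHom.IsIntegral) (hFI : FundamentalIdentityAlong L σ hσ) {e e' : E}
    (h : Keep 𝔻 σ e e') :
    tau 𝔻 p (pic0PullbackAlong σ hσ hFI y) e = tau 𝔻 p y e' := by
  obtain ⟨K⟩ := exists_kum hy
  rw [tau_eq 𝔻 (kumPull σ hσ hFI K), tau_eq 𝔻 K, kumPull_f, slS_map_keep h]

variable (𝔻)

/-- `τ(T y)_e = ε τ(y)_{s e}` on `J[p]`, for some map `s` of the nodes. -/
def TauTwist (p : ℕ) (T : Pic0 L F →+ Pic0 L F) (ε : ℤ) : Prop :=
  ∀ y : Pic0 L F, p • y = 0 → ∃ s : E → E, ∀ e, tau 𝔻 p (T y) e = (ε : ZMod p) * tau 𝔻 p y (s e)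

variable {𝔻}

theorem TauTwist.comp {p : ℕ} {T₁ T₂ : Pic0 L F →+ Pic0 L F} {ε₁ ε₂ : ℤ}
    (h₁ : TauTwist 𝔻 p T₁ ε₁) (h₂ : TauTwist 𝔻 p T₂ ε₂) : TauTwist 𝔻 p (T₁.comp T₂) (ε₁ * ε₂) := by
  intro y hy
  have hy₂ : p • T₂ y = 0 := by rw [← map_nsmul, hy, map_zero]
  obtain ⟨s₁, hs₁⟩ := h₁ (T₂ y) hy₂
  obtain ⟨s₂, hs₂⟩ := h₂ y hy
  refine ⟨s₂ ∘ s₁, fun e => ?_⟩
  rw [AddMonoidHom.comp_apply, hs₁, hs₂]
  push_cast
  simp only [Function.comp_apply]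
  ring

theorem tauTwist_of_flip {p : ℕ} {σ : F →ₐ[L] F} (hσ : σ.toRingHom.IsIntegral)
    (hFI : FundamentalIdentityAlong L σ hσ) (s : E → E) (h : ∀ e, Flip 𝔻 σ e (s e)) :
    TauTwist 𝔻 p (pic0PullbackAlong σ hσ hFI) (-1) := by
  intro y hy
  refine ⟨s, fun e => ?_⟩
  rw [tau_pull_flip hy hσ hFI (h e)]
  push_cast
  ring

theorem tauTwist_of_keep {p : ℕ} {σ : F →ₐ[L] F} (hσ : σ.toRingHom.IsIntegral)
    (hFI : FundamentalIdentityAlong L σ hσ) (s : E → E) (h : ∀ e, Keep 𝔻 σ e (s e)) :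
    TauTwist 𝔻 p (pic0PullbackAlong σ hσ hFI) 1 := by
  intro y hy
  refine ⟨s, fun e => ?_⟩
  rw [tau_pull_keep hy hσ hFI (h e)]
  push_cast
  ring

/-- the shape of `𝒲 = s₁ W s₁ W s₁ W` : three keeps and three flips give the sign `−1`. -/
theorem TauTwist.cube {p : ℕ} {A W : Pic0 L F →+ Pic0 L F} (hA : TauTwist 𝔻 p A 1)
    (hW : TauTwist 𝔻 p W (-1)) :
    TauTwist 𝔻 p (A.comp (W.comp (A.comp (W.comp (A.comp W))))) (-1) := by
  have h := hA.comp (hW.comp (hA.comp (hW.comp (hA.comp hW))))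
  have e : (1 : ℤ) * (-1 * (1 * (-1 * (1 * -1)))) = -1 := by norm_num
  rwa [e] at h

/-- `TauTwist … (-1)` in the shape of `S44Main6.WOut`. -/
theorem TauTwist.neg_one {p : ℕ} {T : Pic0 L F →+ Pic0 L F} (h : TauTwist 𝔻 p T (-1)) :
    ∀ y : Pic0 L F, (p : ℤ) • y = 0 →
      ∃ s : E → E, ∀ e, tau 𝔻 p (T y) e = - tau 𝔻 p y (s e) := by
  intro y hy
  rw [natCast_zsmul] at hy
  obtain ⟨s, hs⟩ := h y hy
  refine ⟨s, fun e => ?_⟩
  rw [hs e]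
  push_cast
  ring

end Tau

end

end Fermat.Agent.MP.FUNC.TauAut6
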