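/-
Programme MP (row 38 via S44), chapter FUNC (helper6): **automorphisms of a two-chart model act on the
branches of the nodes** — the bridge from helper1's `PtsMap1` (`ChartHyp` (H1) + `GaussHyp` (H2)) to the
hypotheses `TauAut6.Flip` / `TauAut6.Keep` of the transport of `τ`.

* `ord_map_eq_of_map_mem` : a `k`-automorphism `θ` of `Ft` with `θ (O_{Q₁}) ⊆ O_{Q₂}` satisfies
  `ord_{Q₂} (θ h) = ord_{Q₁} h` (discrete valuation rings are maximal);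
* `node_cases` : under (H1)+(H2) for `σ : F → F`, a node `n₂` has an image node `n₁`, and the component
  `cmap (src n₂)` is `src n₁` or `tgt n₁`;
* **`keep_of_src`, `flip_of_tgt`** : in the first case `TauAut6.Keep (datum 𝔓) σ n₂ n₁`, in the second
  `TauAut6.Flip (datum 𝔓) σ n₂ n₁` (when `σbar (src n₂)` is a `k`-automorphism of `Ft`);
* **`tauTwist_keep`, `tauTwist_flip`** : `TauAut6.TauTwist (datum 𝔓) p (σ^*) (±1)` when `cmap` preserves /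
  exchanges sources and targets.
-/
import Mathlib
import Fermat.Agent.MP.FUNC.PtsMap1
import Fermat.Agent.MP.FUNC.TauAut6
import Fermat.Agent.ES.HECKE.FundIdentity19

set_option autoImplicit false
set_option linter.unusedSectionVars false
set_option linter.unusedVariables false
set_option linter.style.longLine false

namespace Fermat.Agent.MP.FUNC.NodeAut6

open AlgebraicCurve Fermat.Agent.X0.FF
open Fermat.Agent.ORD.ANN.Side3 Fermat.Agent.ORD.ANN.Node3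
open Fermat.Agent.ORD.IFACEN.DiscSys8 Fermat.Agent.ORD.IFACEN.DiscPlaces8
  Fermat.Agent.ORD.IFACEN.LocAt8 Fermat.Agent.ORD.IFACEN.Centre8
  Fermat.Agent.ORD.IFACEN.SmoothAtlas8 Fermat.Agent.ORD.IFACEN.AtlasSplit6
  Fermat.Agent.ORD.IFACEN.AtlasPts6 Fermat.Agent.ORD.IFACEN.AssembleN9
  Fermat.Agent.ORD.IFACEN.PtsDict3 Fermat.Agent.ORD.IFACEN.PtsAssembly3
open Fermat.Agent.ORD.NODE.NodeSys4
open Fermat.Agent.ORD.SEMIRED.SemiRedDatum9
open Fermat.Agent.MP.FUNC.PtsMap1 Fermat.Agent.MP.FUNC.TauAut6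
open Fermat.Agent.MP.TAU.TauDefs3
open Fermat.Agent.ES.HECKE.LevelPullback12

noncomputable section

/-! ### places and automorphisms of the residue function field -/

section Place

variable {k Ft : Type*} [Field k] [Field Ft] [Algebra k Ft]

/-- a `k`-automorphism mapping `O_{Q₁}` into `O_{Q₂}` maps `Q₁` to `Q₂`. -/
theorem smul_eq_of_map_mem (Q₁ Q₂ : Place k Ft) (θ : Ft ≃ₐ[k] Ft)
    (hle : ∀ f ∈ Q₁.toValuationSubring, θ f ∈ Q₂.toValuationSubring) : θ • Q₁ = Q₂ := by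
  apply Place.ext
  refine (Fermat.Agent.ES.HECKE.FundIdentity19.valuationSubring_eq_of_le (θ • Q₁)
    Q₂.toValuationSubring ?_ Q₂.ne_top').symm
  intro g hg
  rw [Place.smul_toValuationSubring] at hg
  obtain ⟨f, hf, rfl⟩ := hg
  exact hle f hf

theorem ord_map_eq_of_map_mem (Q₁ Q₂ : Place k Ft) (θ : Ft ≃ₐ[k] Ft)
    (hle : ∀ f ∈ Q₁.toValuationSubring, θ f ∈ Q₂.toValuationSubring) (h : Ft) :
    Q₂.ord (θ h) = Q₁.ord h := by
  rw [← smul_eq_of_map_mem Q₁ Q₂ θ hle]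
  exact Place.ord_smul θ Q₁ h

end Place

/-! ### nodes -/

section Nodes

universe uL uk uF uFt uι uE uP

variable {L : Type uL} {k : Type uk} [Field L] [Field k] {B : Base L k}
variable {F : Type uF} {Ft : Type uFt}
  [Field F] [Algebra L F] [Field Ft] [Algebra k Ft] [Algebra B.A F] [IsScalarTower B.A L F]
variable {ι : Type uι} {E : Type uE}
variable {𝔓 : PtsData.{uL, uk, uF, uFt, uι, uE, uP} B F Ft ι E}
  {σ : F →ₐ[L] F} {cmap : ι → ι} {σbar : ι → Ft →+* Ft}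
  (H : ChartHyp 𝔓 𝔓 σ) (G : GaussHyp 𝔓 𝔓 σ cmap σbar)

include G in
/-- **a node has an image node, lying on the component `cmap (src n₂)`.** -/
theorem node_cases (n₂ : E) :
    ∃ n₁ : E, 𝔓.e.symm (Sum.inr n₁) = rho0 H (𝔓.e.symm (Sum.inr n₂)) ∧
      (𝔓.src n₁ = cmap (𝔓.src n₂) ∨ 𝔓.tgt n₁ = cmap (𝔓.src n₂)) := by
  obtain ⟨n₁, hn₁⟩ := exists_node H G n₂
  refine ⟨n₁, hn₁, ?_⟩
  have N := 𝔓.nsys' n₂
  have hs := onPts_of_map G (rho0 H (𝔓.e.symm (Sum.inr n₂)))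
    (fun c hc => rho0_mem H _ hc) (rho0_chi H _) (𝔓.src n₂) N.side.le_G N.side.chi_of_red
  rcases 𝔓.cover _ _ hs with ⟨y, hy, -⟩ | ⟨n, hn, hv⟩
  · exfalso
    have := 𝔓.e.symm.injective (hy.trans hn₁.symm)
    exact absurd this (by simp)
  · have hnn : n = n₁ := Sum.inr.inj (𝔓.e.symm.injective (hn.trans hn₁.symm))
    subst hnn
    exact hv

variable {θ : Ft ≃ₐ[k] Ft}

include G in
/-- the source branch of `n₂` lies over the branch of `n₁` on the component `cmap (src n₂)`: source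
case. -/
theorem keep_of_src {n₂ n₁ : E} (hn : 𝔓.e.symm (Sum.inr n₁) = rho0 H (𝔓.e.symm (Sum.inr n₂)))
    (hv : 𝔓.src n₁ = cmap (𝔓.src n₂)) (hθ : ∀ f, σbar (𝔓.src n₂) f = θ f) :
    Keep (datum 𝔓) σ n₂ n₁ := by
  refine ⟨σbar (𝔓.src n₂), fun g => G.map' (𝔓.src n₂) hv g, fun h _ => ?_⟩
  rw [hθ]
  refine ord_map_eq_of_map_mem (𝔓.Qs n₁) (𝔓.Qs n₂) θ ?_ h
  intro f hf
  have N₁ := 𝔓.nsys' n₁
  have N₂ := 𝔓.nsys' n₂
  obtain ⟨c, hc⟩ := (N₁.side.mem_Q f).mp hf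
  have hc2 : σ (c : F) ∈ ringPts (𝔓.e.symm (Sum.inr n₂)) :=
    rho0_mem H _ (by rw [← hn]; exact c.2)
  obtain ⟨hm, hr⟩ := G.map' (𝔓.src n₂) hv ⟨(c : F), N₁.side.le_G c c.2⟩
  rw [← hθ, ← hc, ← hr]
  exact (N₂.side.mem_Q _).mpr ⟨⟨σ (c : F), hc2⟩, rfl⟩

include G in
/-- target case. -/
theorem flip_of_tgt {n₂ n₁ : E} (hn : 𝔓.e.symm (Sum.inr n₁) = rho0 H (𝔓.e.symm (Sum.inr n₂)))
    (hv : 𝔓.tgt n₁ = cmap (𝔓.src n₂)) (hθ : ∀ f, σbar (𝔓.src n₂) f = θ f) :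
    Flip (datum 𝔓) σ n₂ n₁ := by
  refine ⟨σbar (𝔓.src n₂), fun g => G.map' (𝔓.src n₂) hv g, fun h _ => ?_⟩
  rw [hθ]
  refine ord_map_eq_of_map_mem (𝔓.Qt n₁) (𝔓.Qs n₂) θ ?_ h
  intro f hf
  have N₁ := 𝔓.nsys' n₁
  have N₂ := 𝔓.nsys' n₂
  obtain ⟨c, hc⟩ := (N₁.side'.mem_Q f).mp hf
  have hc2 : σ (c : F) ∈ ringPts (𝔓.e.symm (Sum.inr n₂)) :=
    rho0_mem H _ (by rw [← hn]; exact c.2)
  obtain ⟨hm, hr⟩ := G.map' (𝔓.src n₂) hv ⟨(c : F), N₁.side'.le_G c c.2⟩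
  rw [← hθ, ← hc, ← hr]
  exact (N₂.side.mem_Q _).mpr ⟨⟨σ (c : F), hc2⟩, rfl⟩

variable [HasPrincipalDivisors L F]

include H G in
/-- **`τ(σ^* y)_e = τ(y)_{s e}`** when `cmap` maps sources to sources (e.g. `cmap = id`). -/
theorem tauTwist_keep (p : ℕ) (hσ : σ.toRingHom.IsIntegral)
    (hFI : FundamentalIdentityAlong L σ hσ)
    (hsrc : ∀ n₂ n₁ : E, 𝔓.tgt n₁ ≠ cmap (𝔓.src n₂))
    (θ : ι → Ft ≃ₐ[k] Ft) (hθ : ∀ v f, σbar v f = θ v f) :
    TauTwist (datum 𝔓) p (pic0PullbackAlong σ hσ hFI) 1 := by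
  choose s hs using fun n₂ => node_cases H G n₂
  refine tauTwist_of_keep hσ hFI s fun e => ?_
  rcases (hs e).2 with h | h
  · exact keep_of_src H G (hs e).1 h (hθ _)
  · exact absurd h (hsrc _ _)

include H G in
/-- **`τ(σ^* y)_e = − τ(y)_{s e}`** when `cmap` maps sources to targets (e.g. `cmap = swap`). -/
theorem tauTwist_flip (p : ℕ) (hσ : σ.toRingHom.IsIntegral)
    (hFI : FundamentalIdentityAlong L σ hσ)
    (htgt : ∀ n₂ n₁ : E, 𝔓.src n₁ ≠ cmap (𝔓.src n₂))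
    (θ : ι → Ft ≃ₐ[k] Ft) (hθ : ∀ v f, σbar v f = θ v f) :
    TauTwist (datum 𝔓) p (pic0PullbackAlong σ hσ hFI) (-1) := by
  choose s hs using fun n₂ => node_cases H G n₂
  refine tauTwist_of_flip hσ hFI s fun e => ?_
  rcases (hs e).2 with h | h
  · exact absurd h (htgt _ _)
  · exact flip_of_tgt H G (hs e).1 h (hθ _)

end Nodes

end

end Fermat.Agent.MP.FUNC.NodeAut6
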