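/-
PROGRAMME MP (row 38 via S44), chapter FUNC, LAYER 3 (helper8): **the Fricke involution `W` is an
automorphism of the two-component model of `X₀(M' p)`** (`4 ∣ M'`, `8 ∤ M'`, `p` odd, `p ∤ M'`).

`𝔓 := H.ptsData HL Hk` for ANY `H : TwoCompInst6.Hyp p M' A hA hpM h4` and `MI : ModelInput 4 8 p M' A`
(concretely: `A = padicPlace p`, `H = MainDatum6.hypMain hpM h4 hp2`,
`MI = FinalOrd6.modelInput hpM h4 hp2`).

* **`chartHyp_W`** : `ChartHyp 𝔓 𝔓 (W p M')` ((H1): `(W t)⁻¹ ∈ chart0`, `W t ∈ chart1`, `ChartW8`);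
  with `AutW8.gaussHyp_W` (H2) this is the full input of helper1's `PtsMap1` and helper6's `NodeAut6`;
* **`pic0Pull_W_mem_kerRed`, `pic0Push_W_mem_kerRed`** : `W^*`, `W_*` preserve `kerRed (datum 𝔓)`;
* **`tauTwist_W`** : statement (W): `τ(W^* y)_e = − τ(y)_{s e}` for all `y ∈ J[p]`
  (`TauAut6.TauTwist (datum 𝔓) pp (W^*) (-1)`).
-/
import Mathlib
import Fermat.Agent.MP.FUNC.AutW8
import Fermat.Agent.MP.FUNC.ChartW8
import Fermat.Agent.MP.FUNC.NodeAut6

set_option autoImplicit false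
set_option linter.unusedSectionVars false
set_option linter.unusedVariables false
set_option linter.style.longLine false
set_option synthInstance.maxHeartbeats 400000

open AlgebraicCurve ModularCurve

noncomputable section

namespace Fermat.Agent.MP.FUNC.AutWMain8

open Fermat.Agent.X0.FF Fermat.Agent.RR.LSpace
open Fermat.Agent.RED.Interface4 Fermat.Agent.ES.RED.ChartIntegralA1
open Fermat.Agent.RED.PUR.ChartGeneric22
open Fermat.Agent.ORD.ANN.Side3
open Fermat.Agent.ORD.IFACEN.LocAt8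
open Fermat.Agent.ORD.IFACEN.PtsAssembly3 Fermat.Agent.ORD.IFACEN.TwoCompAssembly3
  Fermat.Agent.ORD.IFACEN.TwoCompInst6
  Fermat.Agent.ORD.IFACEN.SideOne1 Fermat.Agent.ORD.IFACEN.SideTwo1
  Fermat.Agent.ORD.IFACEN.ChartOne1 Fermat.Agent.ORD.IFACEN.ChartTwo1
open Fermat.Agent.ES.N34.ModelInput13
open Fermat.Agent.ES.N35.PushO12 Fermat.Agent.ES.HECKE.LevelPullback12
open Fermat.Agent.ORD.KERN.KerN9
open Fermat.Agent.MP.FUNC.PtsMap1 Fermat.Agent.MP.FUNC.AutW8 Fermat.Agent.MP.FUNC.ChartW8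
  Fermat.Agent.MP.FUNC.TauAut6 Fermat.Agent.MP.FUNC.NodeAut6

/-- fast instance (the canonical search costs seconds). -/
local instance (priority := 100000) algKF8m (A : ValuationSubring Qbar) (M : ℕ) [NeZero M] :
    Algebra (kA A) ↥(modularFunctionFieldFullC (kA A) M) := inferInstance

variable {p M' : ℕ} [Fact p.Prime] [NeZero M'] {A : ValuationSubring Qbar}
  {hA : A.LiesOverPrime p} {hpM : ¬ p ∣ M'} {h4 : 4 ∣ M'}

variable (H : Hyp p M' A hA hpM h4) (HL : LHyp Qbar ↥(Fbar (M' * p)))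
  (Hk : LHyp (kA A) ↥(modularFunctionFieldFullC (kA A) M'))
  (h8 : ¬ 8 ∣ M') (hp2 : p ≠ 2) (MI : ModelInput 4 8 p M' A)

include h8 hp2 MI in
/-- **(H1) for the Fricke involution.** -/
theorem chartHyp_W : ChartHyp (H.ptsData HL Hk) (H.ptsData HL Hk) (W p M') where
  hint0 := fun z hz => chart_intcl (R := ↥A) (tB p M' h4) z hz
  hint1 := fun z hz => chart_intcl (R := ↥A) (tB p M' h4)⁻¹ z hz
  H1 := by
    obtain ⟨h0, h1⟩ := W_t_mem_charts (p := p) (M' := M') (A := A) hA h4 h8 hp2 MI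
    rintro (x₀ | y)
    · exact Or.inr (le_locC _ _ h0)
    · exact Or.inl (le_locC _ _ h1)

variable {H HL Hk}

include h8 hp2 MI in
/-- **`W^*` preserves the kernel of reduction.** -/
theorem pic0Pull_W_mem_kerRed [HasPrincipalDivisors Qbar ↥(Fbar (M' * p))]
    (hφ : (W p M').toRingHom.IsIntegral)
    (d₁ : Fin 2 × Place (kA A) ↥(modularFunctionFieldFullC (kA A) M'))
    (hFI : FundamentalIdentityAlong Qbar (W p M') hφ) {x : Pic0 Qbar ↥(Fbar (M' * p))}
    (hx : x ∈ kerRed (datum (H.ptsData HL Hk))) :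
    pic0PullbackAlong (W p M') hφ hFI x ∈ kerRed (datum (H.ptsData HL Hk)) :=
  pic0Pull_mem_kerRed_of_hyp (chartHyp_W H HL Hk h8 hp2 MI) (gaussHyp_W H HL Hk) hφ d₁ hFI hx

include h8 hp2 MI in
/-- **`W_*` preserves the kernel of reduction.** -/
theorem pic0Push_W_mem_kerRed (hφ : (W p M').toRingHom.IsIntegral)
    (d₁ : Fin 2 × Place (kA A) ↥(modularFunctionFieldFullC (kA A) M'))
    (hf : ∀ w : Place Qbar ↥(Fbar (M' * p)), w.inertiaDegAlong (W p M') hφ = 1)
    (hfin : FiniteAlong Qbar (W p M')) (hN : NormFormulaAlong Qbar (W p M') hfin)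
    {x : Pic0 Qbar ↥(Fbar (M' * p))} (hx : x ∈ kerRed (datum (H.ptsData HL Hk))) :
    pic0PushAlong (W p M') hφ hfin hN x ∈ kerRed (datum (H.ptsData HL Hk)) :=
  pic0Push_mem_kerRed_of_hyp (chartHyp_W H HL Hk h8 hp2 MI) (gaussHyp_W H HL Hk) hφ d₁ hf hfin hN hx

include h8 hp2 MI in
/-- **statement (W)** : `τ(W^* y)_e = − τ(y)_{s e}` for every `y ∈ J[pp]`. -/
theorem tauTwist_W [HasPrincipalDivisors Qbar ↥(Fbar (M' * p))] (pp : ℕ)
    (hφ : (W p M').toRingHom.IsIntegral) (hFI : FundamentalIdentityAlong Qbar (W p M') hφ) :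
    TauTwist (datum (H.ptsData HL Hk)) pp (pic0PullbackAlong (W p M') hφ hFI) (-1) :=
  tauTwist_flip (chartHyp_W H HL Hk h8 hp2 MI) (gaussHyp_W H HL Hk) pp hφ hFI
    (fun n₂ n₁ => by
      show (0 : Fin 2) ≠ swap 0
      decide)
    (fun _ => AlgEquiv.refl) (fun _ _ => rfl)

end Fermat.Agent.MP.FUNC.AutWMain8
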