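/-
PROGRAMME MP (row 38 via S44), chapter FUNC, LAYER 3 (helper6): **(H1) for the twist `s₁ : q ↦ −q`
on the two-chart model of `X₀(M' p)`** (`4 ∣ M'`, `p ∤ M'`; no condition at `8`).

`t = tB p M' h4` the Hauptmodul of level `4`; `s₁ t = −t + b` with `b = twInt ∈ ℤ` (`Twist4.s1_tF`):
on the chart `t ≠ ∞` the function `s₁ t` is regular, and at a closed point `y` of the chart `t ≠ 0` with
`t⁻¹(y) = 0` one has `(s₁ t)⁻¹ = t⁻¹ / (b t⁻¹ − 1)` with `(b t⁻¹ − 1)(y) = −1 ≠ 0`.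

* `affine_mem_ringPts` : the abstract statement (any two-chart atlas, any `b ∈ A`);
* `s1Hom_tB`, `s1Hom_tB'` : `s₁ t = −t + b`;
* **`chartHyp_s1`** : `ChartHyp 𝔓 𝔓 (s1Hom (M' p) h4N)` for `𝔓 = H.ptsData HL Hk`
  (`H : TwoCompInst6.Hyp p M' A hA hpM h4` arbitrary).
-/
import Mathlib
import Fermat.Agent.MP.FUNC.Twist4
import Fermat.Agent.MP.FUNC.PtsMap1
import Fermat.Agent.ORD.IFACEN.TwoCompInst6

set_option autoImplicit false
set_option linter.unusedSectionVars false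
set_option linter.unusedVariables false
set_option linter.style.longLine false
set_option synthInstance.maxHeartbeats 400000

open AlgebraicCurve ModularCurve

noncomputable section

namespace Fermat.Agent.MP.FUNC.ChartS6

open Fermat.Agent.X0.FF Fermat.Agent.RR.LSpace
open Fermat.Agent.RED.Interface4 Fermat.Agent.ES.RED.ChartIntegralA1
open Fermat.Agent.RED.PUR.ChartGeneric22
open Fermat.Agent.ORD.ANN.Side3
open Fermat.Agent.ORD.IFACEN.LocAt8 Fermat.Agent.ORD.IFACEN.Centre8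
  Fermat.Agent.ORD.IFACEN.AtlasPts6
open Fermat.Agent.ORD.IFACEN.PtsAssembly3 Fermat.Agent.ORD.IFACEN.TwoCompAssembly3
  Fermat.Agent.ORD.IFACEN.TwoCompInst6
  Fermat.Agent.ORD.IFACEN.SideOne1 Fermat.Agent.ORD.IFACEN.SideTwo1
  Fermat.Agent.ORD.IFACEN.ChartOne1 Fermat.Agent.ORD.IFACEN.ChartTwo1
open Fermat.Agent.MP.FUNC.PtsMap1 Fermat.Agent.MP.FUNC.Twist4

/-! ### the abstract statement -/

section Abstract

variable {L F k : Type*} [Field L] [Field F] [Algebra L F] [Field k]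
variable {A : ValuationSubring L} [Algebra A F] [IsScalarTower A L F]
variable {res : A →+* k} {B0 B1 : Subalgebra A F} {tinv : B1} {t : F}

/-- **an affine change of the coordinate `t ↦ −t + b` is a morphism to `ℙ¹` on the two-chart model.** -/
theorem affine_mem_ringPts (ht1 : (tinv : F) = t⁻¹) (ht0 : t ∈ B0) (htne : t ≠ 0) (b : A)
    (x : Pts res B0 B1 tinv) :
    -t + algebraMap A F b ∈ ringPts x ∨ (-t + algebraMap A F b)⁻¹ ∈ ringPts x := by
  rcases x with x₀ | y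
  · left
    show -t + algebraMap A F b ∈ locC B0 x₀.χ
    exact le_locC _ _ (B0.add_mem (B0.neg_mem ht0) (B0.algebraMap_mem _))
  · right
    show (-t + algebraMap A F b)⁻¹ ∈ locC B1 y.1.χ
    -- `d = b t⁻¹ − 1`
    obtain ⟨d, hd⟩ : ∃ d : B1, d = algebraMap A B1 b * tinv - 1 := ⟨_, rfl⟩
    have hχd : y.1.χ d = -1 := by
      rw [hd, map_sub, map_mul, map_one, y.2, mul_zero, zero_sub]
    have hne : chiC B1 y.1.χ (ofBA B1 y.1.χ d) ≠ 0 := by
      rw [chiC_ofBA, hχd]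
      exact neg_ne_zero.mpr one_ne_zero
    have hinv := inv_mem_locC B1 y.1.χ (ofBA B1 y.1.χ d) hne
    rw [coe_ofBA] at hinv
    have hcoe : (d : F) = algebraMap A F b * t⁻¹ - 1 := by
      rw [hd, ← ht1]
      rfl
    have hd0 : (d : F) ≠ 0 := by
      intro h0
      have hz : d = 0 := Subtype.ext h0
      rw [hz, map_zero] at hχd
      exact one_ne_zero (neg_eq_zero.mp hχd.symm)
    have e : (-t + algebraMap A F b)⁻¹ = (tinv : F) * (d : F)⁻¹ := by
      rw [ht1, ← mul_inv]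
      congr 1
      rw [hcoe]
      field_simp
      ring
    rw [e]
    exact (locC B1 y.1.χ).mul_mem (le_locC _ _ tinv.2) hinv

end Abstract

/-- fast instance (the canonical search costs seconds). -/
local instance (priority := 100000) algKF6s (A : ValuationSubring Qbar) (M : ℕ) [NeZero M] :
    Algebra (kA A) ↥(modularFunctionFieldFullC (kA A) M) := inferInstance

variable {p M' : ℕ} [Fact p.Prime] [NeZero M'] {A : ValuationSubring Qbar}
  {hA : A.LiesOverPrime p} {hpM : ¬ p ∣ M'} {h4 : 4 ∣ M'}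

/-- **`s₁ t = −t + b`** at the level `M' p`. -/
theorem s1Hom_tB (h4N : 4 ∣ M' * p) :
    s1Hom (M' * p) h4N (tB p M' h4) =
      -tB p M' h4 + algebraMap Qbar ↥(Fbar (M' * p)) ((twInt : ℤ) : Qbar) :=
  s1_tF (M' * p) h4N (tMem_bad p M' h4)

/-- the integer `b` as an element of `A`. -/
def bA (A : ValuationSubring Qbar) : ↥A := ((twInt : ℤ) : ↥A)

theorem coe_bA : ((bA A : ↥A) : Qbar) = ((twInt : ℤ) : Qbar) := by
  unfold bA
  push_cast
  rfl

theorem s1Hom_tB' (h4N : 4 ∣ M' * p) :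
    s1Hom (M' * p) h4N (tB p M' h4) =
      -tB p M' h4 + algebraMap ↥A ↥(Fbar (M' * p)) (bA A) := by
  rw [s1Hom_tB, algebraMap_A_eq, coe_bA]

variable (H : Hyp p M' A hA hpM h4) (HL : LHyp Qbar ↥(Fbar (M' * p)))
  (Hk : LHyp (kA A) ↥(modularFunctionFieldFullC (kA A) M'))

/-- **(H1) for the twist `s₁`.** -/
theorem chartHyp_s1 (h4N : 4 ∣ M' * p) :
    ChartHyp (H.ptsData HL Hk) (H.ptsData HL Hk) (s1Hom (M' * p) h4N) where
  hint0 := fun z hz => chart_intcl (R := ↥A) (tB p M' h4) z hz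
  hint1 := fun z hz => chart_intcl (R := ↥A) (tB p M' h4)⁻¹ z hz
  H1 := by
    intro x₂
    show s1Hom (M' * p) h4N (tB p M' h4) ∈ ringPts x₂ ∨
      (s1Hom (M' * p) h4N (tB p M' h4))⁻¹ ∈ ringPts x₂
    rw [s1Hom_tB' (A := A)]
    exact affine_mem_ringPts (H.ptsData HL Hk).ht1 (H.ptsData HL Hk).ht0 (H.ptsData HL Hk).htne
      (bA A) x₂

end Fermat.Agent.MP.FUNC.ChartS6
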