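/-
PROGRAMME MP (row 38 via S44), chapter FUNC, TOP (helper6): **the inputs `AutOut8` and `WOut` of
`S44Eight6.s44_of_four8` on the concrete datum `MainDatum6.datum hpM h4 hp2`**, from helper8's
`AutWMain8` (the Fricke involution, levels `4 ∥ M`) and ONE named input on the twist `s₁`:

  `S1Gauss hpM h4 hp2` : (H2) for `s₁` — `∃ θ : Fin 2 → F̃ ≃ₐ[k] F̃`,
      `GaussHyp 𝔓 𝔓 (s1Hom (M p) _) id (fun v => θ v)`   (`𝔓` = the two-chart model of the datum).

* `frickeJ_mem_kerRed`, `tauTwist_wOp` : `W^*` preserves `kerRed datum`; `τ(W^* y)_e = − τ(y)_{s e}`;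
* `s1Op_mem_kerRed`, `tauTwist_s1Op` : the same for `s₁` (sign `+1`) from `S1Gauss` and `ChartS6.chartHyp_s1`;
* **`autOut8_of_s1`** : `AutOut8 p hp2` from `S1Ker` at every level;
* **`wOut_of_s1`** : `WOut hpM h4 hp2 (cWOp (M p) _)` from `S1Tau`;
* **`autOut8_of_gauss`, `wOut_of_gauss`** : both from `S1Gauss`.
-/
import Mathlib
import Fermat.Agent.MP.FUNC.AutWMain8
import Fermat.Agent.MP.FUNC.ChartS6
import Fermat.Agent.MP.FINAL.S44Eight6

set_option autoImplicit false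
set_option linter.unusedSectionVars false
set_option linter.unusedVariables false
set_option linter.style.longLine false
set_option linter.style.haveILetI false
set_option synthInstance.maxHeartbeats 400000
set_option maxHeartbeats 1000000

open AlgebraicCurve ModularCurve

noncomputable section

namespace Fermat.Agent.MP.FUNC.AutMain6

open Fermat.Agent.X0 Fermat.Agent.X0.FF Fermat.Agent.RR.LSpace Fermat.Agent.RED.TOP
open Fermat.Agent.RED.Interface4 Fermat.Agent.ES.RED.ChartIntegralA1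
open Fermat.Agent.FF.BASE.Place2
open Fermat.Agent.TW.FLAT.FlatModule6
open Fermat.Agent.ORD.ANN.Side3
open Fermat.Agent.ORD.KERN.KerDefs9 Fermat.Agent.ORD.KERN.KerN9
open Fermat.Agent.ORD.IFACEN.PtsAssembly3 Fermat.Agent.ORD.IFACEN.TwoCompAssembly3
  Fermat.Agent.ORD.IFACEN.TwoCompInst6
  Fermat.Agent.ORD.IFACEN.SideOne1 Fermat.Agent.ORD.IFACEN.SideTwo1
open Fermat.Agent.ES.N35.PushO12 Fermat.Agent.ES.HECKE.LevelPullback12
open Fermat.Agent.MP.FUNC.PtsMap1 Fermat.Agent.MP.FUNC.AutW8 Fermat.Agent.MP.FUNC.AutWMain8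
  Fermat.Agent.MP.FUNC.TauAut6 Fermat.Agent.MP.FUNC.NodeAut6 Fermat.Agent.MP.FUNC.ChartS6
  Fermat.Agent.MP.FUNC.Twist4
open Fermat.Agent.MP.FINAL.MainDatum6 Fermat.Agent.MP.FINAL.S44Main6
  Fermat.Agent.MP.FINAL.S44Eight6
open Fermat.Agent.MP.HECKE.LvlMap6 Fermat.Agent.MP.HECKE.CorrId6 Fermat.Agent.MP.HECKE.Aut5
open Fermat.Agent.MP.TAU.TauDefs3
open Fermat.Agent.MP.FINAL

/-- fast instance (the canonical search costs seconds). -/
local instance (priority := 100000) algKF6am (A : ValuationSubring Qb) (M : ℕ) [NeZero M] :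
    Algebra (kA A) ↥(modularFunctionFieldFullC (kA A) M) := inferInstance

variable {p M : ℕ} [Fact p.Prime] [NeZero M] (hpM : ¬ p ∣ M) (h4 : 4 ∣ M) (hp2 : p ≠ 2)

/-- the two-chart model underlying `MainDatum6.datum hpM h4 hp2`. -/
abbrev model : PtsData (base (padicPlace p)) ↥(Fbar (M * p))
    ↥(modularFunctionFieldFullC (kA (padicPlace p)) M) (Fin 2) (Nodes hpM h4 hp2) :=
  (hypMain hpM h4 hp2).ptsData (lHyp_bad (M * p))
    (lHyp_good p M (padicPlace p) (liesOverPrime (ℓ := p)) hpM h4)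

theorem datum_model : PtsMap1.datum (model hpM h4 hp2) = MainDatum6.datum hpM h4 hp2 := rfl

include hpM h4 in
/-- a point of the special fibre (junk value of `PtsMap1.rho`). -/
theorem exists_d : Nonempty (Fin 2 × Place (kA (padicPlace p))
    ↥(modularFunctionFieldFullC (kA (padicPlace p)) M)) := by
  obtain ⟨Q⟩ := (lHyp_good p M (padicPlace p) (liesOverPrime (ℓ := p)) hpM h4).nonempty
  exact ⟨(0, Q)⟩

/-! ### the Fricke involution (levels `4 ∥ M`) -/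

section Fricke

variable (h8 : ¬ 8 ∣ M)

include h8 in
/-- **`W^*` preserves the kernel of reduction of the concrete datum.** -/
theorem frickeJ_mem_kerRed {x : JZero (M * p)} (hx : x ∈ kerRed (MainDatum6.datum hpM h4 hp2)) :
    frickeJ (M * p) x ∈ kerRed (MainDatum6.datum hpM h4 hp2) := by
  haveI := FbarFacts20.hasPrincipalDivisors_bar (M * p)
  obtain ⟨d₁⟩ := exists_d hpM h4
  have key : ∀ (σ : ↥(Fbar (M * p)) →ₐ[Qb] ↥(Fbar (M * p))) (e : σ = W p M)
      (hφ : σ.toRingHom.IsIntegral) (hFI : FundamentalIdentityAlong Qb σ hφ),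
      pic0PullbackAlong σ hφ hFI x ∈ kerRed (MainDatum6.datum hpM h4 hp2) := by
    rintro σ rfl hφ hFI
    exact pic0Pull_W_mem_kerRed h8 hp2 (Fermat.Agent.ORD.FINAL.FinalOrd6.modelInput hpM h4 hp2)
      hφ d₁ hFI hx
  exact key _ (W_eq p M).symm _ _

include h8 in
/-- **statement (W) for `W`** : `τ(W^* y)_e = − τ(y)_{s e}`. -/
theorem tauTwist_wOp : TauTwist (MainDatum6.datum hpM h4 hp2) p (wOp (M * p)) (-1) := by
  haveI := FbarFacts20.hasPrincipalDivisors_bar (M * p)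
  have key : ∀ (σ : ↥(Fbar (M * p)) →ₐ[Qb] ↥(Fbar (M * p))) (e : σ = W p M)
      (hφ : σ.toRingHom.IsIntegral) (hFI : FundamentalIdentityAlong Qb σ hφ),
      TauTwist (MainDatum6.datum hpM h4 hp2) p (pic0PullbackAlong σ hφ hFI) (-1) := by
    rintro σ rfl hφ hFI
    exact tauTwist_W (H := hypMain hpM h4 hp2) h8 hp2
      (Fermat.Agent.ORD.FINAL.FinalOrd6.modelInput hpM h4 hp2) p hφ hFI
  exact key _ (W_eq p M).symm _ _

end Fricke

/-! ### the twist `s₁` -/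

section Twist

/-- **(H2) for `s₁`** : the named input. -/
def S1Gauss : Prop :=
  ∃ θ : Fin 2 → (↥(modularFunctionFieldFullC (kA (padicPlace p)) M) ≃ₐ[kA (padicPlace p)]
      ↥(modularFunctionFieldFullC (kA (padicPlace p)) M)),
    GaussHyp (model hpM h4 hp2) (model hpM h4 hp2) (s1Hom (M * p) (Dvd.dvd.mul_right h4 p)) id
      (fun v => ((θ v : ↥(modularFunctionFieldFullC (kA (padicPlace p)) M) ≃ₐ[kA (padicPlace p)]
        ↥(modularFunctionFieldFullC (kA (padicPlace p)) M)) :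
        ↥(modularFunctionFieldFullC (kA (padicPlace p)) M) →+*
          ↥(modularFunctionFieldFullC (kA (padicPlace p)) M)))

/-- `s₁^*` preserves the kernel of reduction. -/
def S1Ker : Prop :=
  ∀ x ∈ kerRed (MainDatum6.datum hpM h4 hp2),
    s1Op (M * p) (Dvd.dvd.mul_right h4 p) x ∈ kerRed (MainDatum6.datum hpM h4 hp2)

/-- `τ(s₁^* y)_e = τ(y)_{s e}`. -/
def S1Tau : Prop :=
  TauTwist (MainDatum6.datum hpM h4 hp2) p (s1Op (M * p) (Dvd.dvd.mul_right h4 p)) 1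

variable {hpM h4 hp2}

theorem s1Ker_of_gauss (hG : S1Gauss hpM h4 hp2) : S1Ker hpM h4 hp2 := by
  haveI := FbarFacts20.hasPrincipalDivisors_bar (M * p)
  obtain ⟨θ, G⟩ := hG
  obtain ⟨d₁⟩ := exists_d hpM h4
  intro x hx
  exact pic0Pull_mem_kerRed_of_hyp
    (chartHyp_s1 (hypMain hpM h4 hp2) _ _ (Dvd.dvd.mul_right h4 p)) G _ d₁ _ hx

theorem s1Tau_of_gauss (hG : S1Gauss hpM h4 hp2) : S1Tau hpM h4 hp2 := by
  haveI := FbarFacts20.hasPrincipalDivisors_bar (M * p)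
  obtain ⟨θ, G⟩ := hG
  exact tauTwist_keep (chartHyp_s1 (hypMain hpM h4 hp2) _ _ (Dvd.dvd.mul_right h4 p)) G p _ _
    (fun n₂ n₁ => by
      show (1 : Fin 2) ≠ id 0
      decide)
    θ (fun _ _ => rfl)

end Twist

/-! ### the two inputs of `S44Eight6.s44_of_four8` -/

/-- **`AutOut8`** from the stability of `kerRed` under `s₁^*` at every level. -/
theorem autOut8_of_s1
    (hS : ∀ (M : ℕ) [NeZero M] (h4 : 4 ∣ M) (_ : ¬ 8 ∣ M) (hpM : ¬ p ∣ M), S1Ker hpM h4 hp2) :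
    AutOut8 p hp2 := by
  intro M _ h4 h8 hpM
  exact ⟨hS M h4 h8 hpM, fun x hx => frickeJ_mem_kerRed hpM h4 hp2 h8 hx⟩

/-- **`WOut` for `𝒲 = s₁ W s₁ W s₁ W`** from `τ(s₁^* y)_e = τ(y)_{s e}`. -/
theorem wOut_of_s1 (h8 : ¬ 8 ∣ M) (hS : S1Tau hpM h4 hp2) :
    WOut hpM h4 hp2 (cWOp (M * p) (Dvd.dvd.mul_right h4 p)) :=
  TauTwist.neg_one (TauTwist.cube hS (tauTwist_wOp hpM h4 hp2 h8))

/-- **`AutOut8` from (H2) for `s₁`.** -/
theorem autOut8_of_gauss
    (hG : ∀ (M : ℕ) [NeZero M] (h4 : 4 ∣ M) (_ : ¬ 8 ∣ M) (hpM : ¬ p ∣ M), S1Gauss hpM h4 hp2) :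
    AutOut8 p hp2 :=
  autOut8_of_s1 hp2 fun M _ h4 h8 hpM => s1Ker_of_gauss (hG M h4 h8 hpM)

/-- **`WOut` from (H2) for `s₁`.** -/
theorem wOut_of_gauss (h8 : ¬ 8 ∣ M) (hG : S1Gauss hpM h4 hp2) :
    WOut hpM h4 hp2 (cWOp (M * p) (Dvd.dvd.mul_right h4 p)) :=
  wOut_of_s1 hpM h4 hp2 h8 (s1Tau_of_gauss hG)

end Fermat.Agent.MP.FUNC.AutMain6
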