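/-
PROGRAMME MP (row 38 via S44), chapter FUNC (helper1): **(H1) for the second degeneracy map `β_ℓ`
(`q ↦ q^ℓ`, `ℓ` an odd prime, `ℓ ≠ p`) on the two-chart model of `X₀(M₁ ℓ p)`.**

`t = tq · 4 8` the Hauptmodul of level `4`, `M₂ = M₁ * ℓ`, `4 ∣ M₁`, `p ∤ M₂`.  For every
`Y : Fbar (M₂ * p)` with `q`-expansion `t(q^ℓ)` :

  **`beta_t_mem_chart0`** : `Y ∈ chart A (tB p M₂ h4)`,   **`beta_t_inv_mem_chart1`** : `Y⁻¹ ∈ chart A (tB p M₂ h4)⁻¹`.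

Proof (the pattern of `ES/N34/ItemsAd6.modEqItems_at`, with the exponent `ℓ` instead of `p`): at a large
finite level `K` of the N34 model `ModelInput 4 8 p M₂ A`, `y_K := α_p (β_ℓ t)` is integral over `K[t]`
(`ModEq23.isIntegral_qExpand_tq`), lies in both Gauss valuation rings (`W_{M₂ p} y_K = β_p α_ℓ (W_{M₁} t)`
by `FrickeV11`, and `W_{M₁}` is a Gauss isometry at the good level `M₁`: `IsoM25.isoM`), hence in the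
chart by `π`-saturation (`SatIntegral18.mem_of_isIntegral_field`); then
`BadLevelOne8.baseChangeHom_mem_chart0/1`.
-/
import Mathlib
import Fermat.Agent.ORD.IFACEN.BadFamily8
import Fermat.Agent.ES.N34.ItemsAd6

set_option autoImplicit false
set_option linter.unusedSectionVars false
set_option linter.unusedVariables false
set_option linter.style.longLine false
set_option synthInstance.maxHeartbeats 400000
set_option maxHeartbeats 1000000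

open HahnSeries ModularCurve IntermediateField

noncomputable section

namespace Fermat.Agent.MP.FUNC.ChartBeta1

open Fermat.Agent.RED.Interface4 Fermat.Agent.RED.DESC.PlaceExtend27
  Fermat.Agent.RED.PUR.GaussGen8 Fermat.Agent.RED.PUR.GaussBridge10
  Fermat.Agent.RED.PUR.ChartGeneric22
  Fermat.Agent.RED.DESC.NumberFieldDVR27
  Fermat.Agent.RED.BASE.Interface12 Fermat.Agent.RED.BASE.EtaQuot12
  Fermat.Agent.RED.BASE.Hauptmodul12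
  Fermat.Agent.ES.N34.ModelDefs9 Fermat.Agent.ES.N34.ModelInput13 Fermat.Agent.ES.N34.NumData13
  Fermat.Agent.ES.N34.NodalCore13 Fermat.Agent.ES.N34.FrickeFK8 Fermat.Agent.ES.N34.FrickeV11
  Fermat.Agent.ES.N34.YMem11 Fermat.Agent.ES.N34.ModEq23 Fermat.Agent.ES.N34.SatIntegral18
  Fermat.Agent.ORD.IFACEN.BadLevelOne8 Fermat.Agent.ORD.IFACEN.BadFamily8

/-- shortcut instance (typeclass search takes seconds to find it). -/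
local instance (priority := high) algAKFK1 (A : ValuationSubring Qbar) (M : ℕ)
    (K : IntermediateField ℚ Qbar) : Algebra ↥(AK A K) ↥(FK M K) := inferInstance

variable (p M₁ ℓ : ℕ) [Fact p.Prime] [NeZero M₁] [NeZero ℓ] (A : ValuationSubring Qbar)

instance neZero_mul1 : NeZero (M₁ * ℓ) := ⟨Nat.mul_ne_zero (NeZero.ne M₁) (NeZero.ne ℓ)⟩

/-! ### one finite level -/

section Level

variable {p M₁ ℓ A} {K : IntermediateField ℚ Qbar} [FiniteDimensional ℚ K]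
  (ht₁ : tq ↥K 4 8 ∈ FK M₁ K) (ht₂ : tq ↥K 4 8 ∈ FK (M₁ * ℓ) K)

/-- `y_K = α_p (β_ℓ t)`, with `q`-expansion `t(q^ℓ)`, at the level `M₁ ℓ p`. -/
def yK : ↥(FK (M₁ * ℓ * p) K) := alpha K (M₁ * ℓ) p (beta K M₁ ℓ (tM ht₁))

theorem coe_yK : ((yK (p := p) (ℓ := ℓ) ht₁ : ↥(FK (M₁ * ℓ * p) K)) : LaurentSeries K) =
    qExpand (↥K) ℓ (tq (↥K) 4 8) := by
  rw [yK, coe_alpha, coe_beta, coe_tM]

theorem coe_yK_inv : (((yK (p := p) (ℓ := ℓ) ht₁)⁻¹ : ↥(FK (M₁ * ℓ * p) K)) : LaurentSeries K) =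
    (qExpand (↥K) ℓ (tq (↥K) 4 8))⁻¹ := by
  rw [IntermediateField.coe_inv, coe_yK]

/-- `W_{M₂ p} y_K = β_p (α_ℓ (W_{M₁} t))`. -/
theorem coe_wN_yK :
    ((wN K (M₁ * ℓ) p (yK (p := p) (ℓ := ℓ) ht₁) : ↥(FK (M₁ * ℓ * p) K)) : LaurentSeries K) =
      qExpand (↥K) p ((frickeFK M₁ K (tM ht₁) : ↥(FK M₁ K)) : LaurentSeries K) := by
  rw [yK, wN_alpha, coe_beta]
  congr 1
  show ((frickeFK (M₁ * ℓ) K (heckeBetaBar (↥K) M₁ ℓ (tM ht₁)) : ↥(FK (M₁ * ℓ) K)) :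
    LaurentSeries K) = _
  rw [frickeFK_beta, coe_heckeAlphaBar]

variable (hA : A.LiesOverPrime p) (hpM₁ : ¬ p ∣ M₁) (hℓ : ℓ.Prime) (hℓ4 : ¬ ℓ ∣ 4)
  {π : ↥(AK A K)} (hπ : IsUnif (AK A K) π) (hE : FK (M₁ * ℓ * p) K ≤ fracField (AK A K))

include hA hpM₁ in
/-- the level-`M₁` isometry. -/
theorem hiso₁ (x : ↥(FK M₁ K)) (hx : (x : LaurentSeries K) ∈ gaussRing (AK A K)) :
    ((frickeFK M₁ K x : ↥(FK M₁ K)) : LaurentSeries K) ∈ gaussRing (AK A K) := by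
  have hp : p.Prime := Fact.out
  have : IsDiscreteValuationRing ↥(AK A K) := isDiscreteValuationRing_AK A K hp.ne_zero hA
  have : CharP (Res (AK A K)) p := charP_residueField_AK A K hp hA
  obtain ⟨ϖ, hϖ⟩ := IsDiscreteValuationRing.exists_irreducible ↥(AK A K)
  exact (Fermat.Agent.ES.N34.IsoM25.isoM A K M₁ p hϖ hpM₁ x).1 hx

theorem yK_mem_O1 : yK (p := p) (ℓ := ℓ) ht₁ ∈ O1 (M₁ * ℓ) p hπ hE := by
  rw [mem_O1_iff, coe_yK]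
  exact qExpand_tq_mem (AK A K) 4 8 ℓ

theorem yK_inv_mem_O1 : (yK (p := p) (ℓ := ℓ) ht₁)⁻¹ ∈ O1 (M₁ * ℓ) p hπ hE := by
  rw [mem_O1_iff, coe_yK_inv]
  exact qExpand_tq_inv_mem (AK A K) 4 8 ℓ

include hA hpM₁ in
theorem yK_mem_O2 : yK (p := p) (ℓ := ℓ) ht₁ ∈ O2 (M₁ * ℓ) p hπ hE := by
  rw [mem_O2_iff_wN_mem_O1, mem_O1_iff, coe_wN_yK]
  exact qExpand_mem (AK A K) p (fricke_tM_mem ht₁ (hiso₁ hA hpM₁))

include hA hpM₁ in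
theorem yK_inv_mem_O2 : (yK (p := p) (ℓ := ℓ) ht₁)⁻¹ ∈ O2 (M₁ * ℓ) p hπ hE := by
  rw [mem_O2_iff_wN_mem_O1, map_inv₀, mem_O1_iff, IntermediateField.coe_inv, coe_wN_yK,
    ← map_inv₀]
  exact qExpand_mem (AK A K) p (fricke_tM_inv_mem ht₁ (hiso₁ hA hpM₁))

include hℓ hℓ4 in
theorem isIntegral_yK :
    IsIntegral (Algebra.adjoin K {tN p ht₂}) (yK (p := p) (ℓ := ℓ) ht₁) :=
  isIntegral_of_coe_eq K _ (coe_tN p ht₂) (coe_yK ht₁)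
    (isIntegral_qExpand_tq K ℓ baseHyp_four hℓ hℓ4)

include hℓ hℓ4 in
theorem isIntegral_yK_inv :
    IsIntegral (Algebra.adjoin K {(tN p ht₂)⁻¹}) (yK (p := p) (ℓ := ℓ) ht₁)⁻¹ := by
  refine isIntegral_of_coe_eq K _ ?_ (coe_yK_inv ht₁)
    (isIntegral_inv_qExpand_tq K ℓ baseHyp_four hℓ hℓ4)
  rw [IntermediateField.coe_inv, coe_tN]

include hA hpM₁ hℓ hℓ4 in
/-- **`y_K ∈ B0`, `y_K⁻¹ ∈ B1` at the level `K`.** -/
theorem yK_mem_charts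
    (D : NodalDataAt (AK A K) (FK (M₁ * ℓ * p) K) π (tN p ht₂) (B0 A p ht₂) (B1 A p ht₂)
      (O1 (M₁ * ℓ) p hπ hE) (O2 (M₁ * ℓ) p hπ hE)) :
    yK (p := p) (ℓ := ℓ) ht₁ ∈ B0 A p ht₂ ∧ (yK (p := p) (ℓ := ℓ) ht₁)⁻¹ ∈ B1 A p ht₂ := by
  have := Fermat.Agent.RED.NumInst4.isScalarTower_OE (AK A K) (FK (M₁ * ℓ * p) K)
  have D' : NodalNumData ↥(AK A K) ↥K ↥(FK (M₁ * ℓ * p) K) π (tN p ht₂) (B0 A p ht₂)
      (B1 A p ht₂) (O1 (M₁ * ℓ) p hπ hE) (O2 (M₁ * ℓ) p hπ hE) := D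
  have hπ1 : algebraMap ↥(AK A K) ↥(FK (M₁ * ℓ * p) K) π ∈ O1 (M₁ * ℓ) p hπ hE :=
    D'.model.le_O1_0 _ ((B0 A p ht₂).algebraMap_mem π)
  have hπ2 : algebraMap ↥(AK A K) ↥(FK (M₁ * ℓ * p) K) π ∈ O2 (M₁ * ℓ) p hπ hE :=
    D'.model.le_O2_0 _ ((B0 A p ht₂).algebraMap_mem π)
  have hB0 : ∀ x : ↥(FK (M₁ * ℓ * p) K),
      IsIntegral (Algebra.adjoin ↥(AK A K) {tN p ht₂}) x → x ∈ B0 A p ht₂ := by
    intro x hx
    unfold B0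
    exact mem_chart_iff.2 hx
  have hB1 : ∀ x : ↥(FK (M₁ * ℓ * p) K),
      IsIntegral (Algebra.adjoin ↥(AK A K) {(tN p ht₂)⁻¹}) x → x ∈ B1 A p ht₂ := by
    intro x hx
    unfold B1
    exact mem_chart_iff.2 hx
  exact ⟨mem_of_isIntegral_field (R := ↥(AK A K)) (K := ↥K) (F := ↥(FK (M₁ * ℓ * p) K)) π D'.dvrR
      (tN p ht₂) (B0 A p ht₂) hB0 _ _ hπ1 hπ2 D'.model.sat0 (isIntegral_yK ht₁ ht₂ hℓ hℓ4)
      (yK_mem_O1 ht₁ hπ hE) (yK_mem_O2 ht₁ hA hpM₁ hπ hE),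
    mem_of_isIntegral_field (R := ↥(AK A K)) (K := ↥K) (F := ↥(FK (M₁ * ℓ * p) K)) π D'.dvrR
      (tN p ht₂)⁻¹ (B1 A p ht₂) hB1 _ _ hπ1 hπ2 D'.model.sat1 (isIntegral_yK_inv ht₁ ht₂ hℓ hℓ4)
      (yK_inv_mem_O1 ht₁ hπ hE) (yK_inv_mem_O2 ht₁ hA hpM₁ hπ hE)⟩

end Level

/-! ### over `ℚbar` -/

variable (hA : A.LiesOverPrime p) (hpM₁ : ¬ p ∣ M₁) (h4₁ : 4 ∣ M₁) (hℓ : ℓ.Prime) (hℓ4 : ¬ ℓ ∣ 4)
  (MI : ModelInput 4 8 p (M₁ * ℓ) A)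

include hA hpM₁ h4₁ hℓ hℓ4 MI in
/-- **(H1) for `β_ℓ`** : an element with `q`-expansion `t(q^ℓ)` lies in the chart `t ≠ ∞`, and its
inverse in the chart `t ≠ 0`. -/
theorem beta_t_mem_charts (h4₂ : 4 ∣ M₁ * ℓ) (Y : ↥(Fbar (M₁ * ℓ * p)))
    (hY : (Y : LaurentSeries Qbar) = qExpand Qbar ℓ (tq Qbar 4 8)) :
    Y ∈ chart ↥A (tB p (M₁ * ℓ) h4₂) ∧ Y⁻¹ ∈ chart ↥A (tB p (M₁ * ℓ) h4₂)⁻¹ := by
  have hmem₁ : TMem 4 8 M₁ := (Fermat.Agent.RED.BASE.MainCusp12.base_four M₁ h4₁).1.mem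
  obtain ⟨K₁, hK₁, hT⟩ := Fermat.Agent.RED.BASE.TBridge15.exists_tq_mem 4 8 M₁ hmem₁
  obtain ⟨K₀, hK₀, H⟩ := MI
  have := hK₀
  have := hK₁
  obtain ⟨i, hi⟩ := exists_lvl_ge (K₀ ⊔ K₁) (K₀ ⊔ K₁) le_rfl
  have hfd : FiniteDimensional ℚ i.K := i.fd
  have hnor : Normal ℚ i.K := i.nor
  have ht₁ : tq ↥i.K 4 8 ∈ FK M₁ i.K := hT i.K (le_sup_right.trans hi)
  obtain ⟨ht₂, hE, HD⟩ := H i.K hfd (le_sup_left.trans hi)
  obtain ⟨π, hπ⟩ := exists_unif (p := p) (A := A) hA i.K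
  obtain ⟨h0, h1⟩ := yK_mem_charts (p := p) (ℓ := ℓ) ht₁ ht₂ hA hpM₁ hℓ hℓ4 hπ hE (HD π hπ)
  have e : baseChangeHom (M₁ * ℓ * p) i.K (yK (p := p) (ℓ := ℓ) ht₁) = Y := by
    apply Subtype.ext
    rw [coe_baseChangeHom, coe_yK, hY, ModularCurve.coeffMap_qExpand, coeffMap_tq]
  refine ⟨?_, ?_⟩
  · rw [← e]
    exact baseChangeHom_mem_chart0 p (M₁ * ℓ) A h4₂ i.K ht₂ h0
  · rw [← e, ← map_inv₀]
    exact baseChangeHom_mem_chart1 p (M₁ * ℓ) A h4₂ i.K ht₂ h1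

end Fermat.Agent.MP.FUNC.ChartBeta1
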