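/-
PROGRAMME MP (row 38 via S44), chapter FUNC (helper9): **the degeneracy maps between two BAD levels and the
Gauss valuation rings of the component through `∞`** (the bad → bad twin of `MP/TAU/DegRed9`).

`A ≤ ℚbar` over `p`; levels `M₁ p`, `M₂ p` with `p ∤ M₁ M₂`, `4 ∣ M₁`, `4 ∣ M₂`; `φ ψ : Fbar (M₁ p) →ₐ
Fbar (M₂ p)` ARBITRARY with `IsAlpha φ` (`q`-expansions preserved), `IsBeta ℓ ψ` (`q ↦ q^ℓ`).

* `inclBar k h : F̃_{M₁} →+* F̃_{M₂}` (`M₁ ∣ M₂`), `qBar k h : F̃_{M₁} →+* F̃_{M₂}`, `f(q) ↦ f(q^ℓ)`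
  (`M₁ ℓ = M₂`), on the special fibre function fields `F̃_M = modularFunctionFieldFullC k M`;
* **`alpha_mem_G1`, `red1_alpha : red1₂ (φ g) = inclBar (red1₁ g)`**;
* **`beta_mem_G1`, `red1_beta : red1₂ (ψ g) = qBar (red1₁ g)`**.
-/
import Mathlib
import Fermat.Agent.ORD.IFACEN.ChartOne1
import Fermat.Agent.ES.RED.GaussRing15
import Fermat.Agent.ES.RED.ResidueUnion1
import Fermat.Agent.MP.FUNC.FrickeDeg1

set_option autoImplicit false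
set_option linter.unusedSectionVars false
set_option linter.style.longLine false
set_option synthInstance.maxHeartbeats 400000

open HahnSeries ModularCurve Polynomial AlgebraicCurve

noncomputable section

namespace Fermat.Agent.MP.FUNC.GaussLvl9

open Fermat.Agent.RED.Interface4 Fermat.Agent.ES.RED.ChartIntegralA1
  Fermat.Agent.ES.RED.GaussRing15 Fermat.Agent.FF.IFACE.GaussVal1
  Fermat.Agent.ORD.IFACEN.GaussBad1 Fermat.Agent.ORD.IFACEN.SideOne1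
  Fermat.Agent.MP.FUNC.FrickeDeg1

/-! ### the two maps between the special fibre function fields -/

section Bar

variable (k : Type*) [Field k] {M₁ M₂ : ℕ} [NeZero M₁] [NeZero M₂]

/-- the inclusion `F̃_{M₁} ⊆ F̃_{M₂}` for `M₁ ∣ M₂`. -/
def inclBar (h : M₁ ∣ M₂) :
    ↥(modularFunctionFieldFullC k M₁) →+* ↥(modularFunctionFieldFullC k M₂) where
  toFun f := ⟨(f : LaurentSeries k), full_degeneracyC_le k h f.2⟩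
  map_one' := rfl
  map_mul' _ _ := rfl
  map_zero' := rfl
  map_add' _ _ := rfl

@[simp] theorem coe_inclBar (h : M₁ ∣ M₂) (f : ↥(modularFunctionFieldFullC k M₁)) :
    ((inclBar k h f : ↥(modularFunctionFieldFullC k M₂)) : LaurentSeries k) =
      (f : LaurentSeries k) := by
  show ((⟨(f : LaurentSeries k), full_degeneracyC_le k h f.2⟩ :
    ↥(modularFunctionFieldFullC k M₂)) : LaurentSeries k) = _
  rfl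

theorem qExpand_mem {ℓ : ℕ} [NeZero ℓ] (h : M₁ * ℓ = M₂) (f : ↥(modularFunctionFieldFullC k M₁)) :
    qExpand k ℓ (f : LaurentSeries k) ∈ modularFunctionFieldFullC k M₂ := by
  subst h
  exact full_degeneracyC_map_le k M₁ ℓ ⟨f, f.2, rfl⟩

/-- `f(q) ↦ f(q^ℓ)`, `F̃_{M₁} → F̃_{M₂}` for `M₁ ℓ = M₂`. -/
def qBar {ℓ : ℕ} [NeZero ℓ] (h : M₁ * ℓ = M₂) :
    ↥(modularFunctionFieldFullC k M₁) →+* ↥(modularFunctionFieldFullC k M₂) where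
  toFun f := ⟨qExpand k ℓ (f : LaurentSeries k), qExpand_mem k h f⟩
  map_one' := Subtype.ext (map_one (qExpand k ℓ))
  map_mul' _ _ := Subtype.ext (map_mul (qExpand k ℓ) _ _)
  map_zero' := Subtype.ext (map_zero (qExpand k ℓ))
  map_add' _ _ := Subtype.ext (map_add (qExpand k ℓ) _ _)

@[simp] theorem coe_qBar {ℓ : ℕ} [NeZero ℓ] (h : M₁ * ℓ = M₂)
    (f : ↥(modularFunctionFieldFullC k M₁)) :
    ((qBar k h f : ↥(modularFunctionFieldFullC k M₂)) : LaurentSeries k) =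
      qExpand k ℓ (f : LaurentSeries k) := by
  show ((⟨qExpand k ℓ (f : LaurentSeries k), qExpand_mem k h f⟩ :
    ↥(modularFunctionFieldFullC k M₂)) : LaurentSeries k) = _
  rfl

end Bar

/-! ### the Gauss rings through `∞` -/

variable (p M₁ M₂ : ℕ) [Fact p.Prime] [NeZero M₁] [NeZero M₂] (A : ValuationSubring Qbar)
  (hA : A.LiesOverPrime p) (hpM₁ : ¬ p ∣ M₁) (hpM₂ : ¬ p ∣ M₂) (h4₁ : 4 ∣ M₁) (h4₂ : 4 ∣ M₂)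
  {φ ψ : ↥(Fbar (M₁ * p)) →ₐ[Qbar] ↥(Fbar (M₂ * p))}

section Alpha

variable (hφ : IsAlpha φ)

include hφ in
theorem alpha_mem_intF (a : ↥(intF A (M₁ * p))) :
    φ (a : ↥(Fbar (M₁ * p))) ∈ intF A (M₂ * p) := by
  obtain ⟨Y, hY⟩ := (mem_intF_iff A (M₁ * p)).mp a.2
  exact (mem_intF_iff A (M₂ * p)).mpr ⟨Y, hY.trans (hφ _).symm⟩

theorem redB_alpha (hdvd : M₁ ∣ M₂) (a : ↥(intF A (M₁ * p))) :
    redB p M₂ A hA hpM₂ h4₂ ⟨φ (a : ↥(Fbar (M₁ * p))), alpha_mem_intF p M₁ M₂ A hφ a⟩ =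
      inclBar (kA A) hdvd (redB p M₁ A hA hpM₁ h4₁ a) := by
  obtain ⟨Y, hY⟩ := (mem_intF_iff A (M₁ * p)).mp a.2
  apply Subtype.ext
  rw [coe_redB_eq_of p M₂ hA hpM₂ h4₂ (Y := Y) (hY.trans (hφ _).symm), coe_inclBar,
    coe_redB_eq_of p M₁ hA hpM₁ h4₁ (Y := Y) hY]

include hφ in
/-- **(G1)**: `φ` maps `G1` of the level `M₁ p` into `G1` of the level `M₂ p`. -/
theorem alpha_mem_G1 (hdvd : M₁ ∣ M₂) (g : ↥(G1 p M₁ A hA hpM₁ h4₁)) :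
    φ (g : ↥(Fbar (M₁ * p))) ∈ G1 p M₂ A hA hpM₂ h4₂ := by
  obtain ⟨a, b, hb, hab, -⟩ := exists_num_den (redB p M₁ A hA hpM₁ h4₁) g
  refine ⟨⟨_, alpha_mem_intF p M₁ M₂ A hφ a⟩, ⟨_, alpha_mem_intF p M₁ M₂ A hφ b⟩, ?_, ?_⟩
  · rw [redB_alpha p M₁ M₂ A hA hpM₁ hpM₂ h4₁ h4₂ hφ hdvd, Ne, map_eq_zero]; exact hb
  · show φ (g : ↥(Fbar (M₁ * p))) * φ (b : ↥(Fbar (M₁ * p))) = φ (a : ↥(Fbar (M₁ * p)))
    rw [← map_mul, hab]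

/-- **(G1)**: `red1 (φ g) = red1 g` (through the inclusion `F̃_{M₁} ⊆ F̃_{M₂}`). -/
theorem red1_alpha (hdvd : M₁ ∣ M₂) (g : ↥(G1 p M₁ A hA hpM₁ h4₁)) :
    red1 p M₂ A hA hpM₂ h4₂ ⟨φ (g : ↥(Fbar (M₁ * p))),
        alpha_mem_G1 p M₁ M₂ A hA hpM₁ hpM₂ h4₁ h4₂ hφ hdvd g⟩ =
      inclBar (kA A) hdvd (red1 p M₁ A hA hpM₁ h4₁ g) := by
  obtain ⟨a, b, hb, hab, hred⟩ := exists_num_den (redB p M₁ A hA hpM₁ h4₁) g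
  have hb'' : inclBar (kA A) hdvd (redB p M₁ A hA hpM₁ h4₁ b) ≠ 0 := by
    rw [Ne, map_eq_zero]; exact hb
  have hb' : redB p M₂ A hA hpM₂ h4₂ ⟨_, alpha_mem_intF p M₁ M₂ A hφ b⟩ ≠ 0 := by
    rw [redB_alpha p M₁ M₂ A hA hpM₁ hpM₂ h4₁ h4₂ hφ hdvd]; exact hb''
  have hrel : ((⟨φ (g : ↥(Fbar (M₁ * p))),
      alpha_mem_G1 p M₁ M₂ A hA hpM₁ hpM₂ h4₁ h4₂ hφ hdvd g⟩ :
      ↥(G1 p M₂ A hA hpM₂ h4₂)) : ↥(Fbar (M₂ * p))) *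
      ((⟨_, alpha_mem_intF p M₁ M₂ A hφ b⟩ : intF A (M₂ * p)) : ↥(Fbar (M₂ * p))) =
      ((⟨_, alpha_mem_intF p M₁ M₂ A hφ a⟩ : intF A (M₂ * p)) : ↥(Fbar (M₂ * p))) := by
    show φ (g : ↥(Fbar (M₁ * p))) * φ (b : ↥(Fbar (M₁ * p))) = φ (a : ↥(Fbar (M₁ * p)))
    rw [← map_mul, hab]
  have h1 := red1_mul_red p M₂ A hA hpM₂ h4₂ _ hb' hrel
  rw [redB_alpha p M₁ M₂ A hA hpM₁ hpM₂ h4₁ h4₂ hφ hdvd,
    redB_alpha p M₁ M₂ A hA hpM₁ hpM₂ h4₁ h4₂ hφ hdvd] at h1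
  apply mul_right_cancel₀ hb''
  rw [h1, ← map_mul]
  exact congrArg _ hred.symm

end Alpha

section Beta

variable {ℓ : ℕ} [NeZero ℓ] (hψ : IsBeta ℓ ψ)

include hψ in
theorem beta_mem_intF (a : ↥(intF A (M₁ * p))) :
    ψ (a : ↥(Fbar (M₁ * p))) ∈ intF A (M₂ * p) := by
  obtain ⟨Y, hY⟩ := (mem_intF_iff A (M₁ * p)).mp a.2
  refine (mem_intF_iff A (M₂ * p)).mpr ⟨qExpand ↥A ℓ Y, ?_⟩
  rw [Fermat.Agent.ES.RED.ResidueUnion1.coeffMap_qExpand', hY]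
  exact (hψ _).symm

theorem redB_beta (hM : M₁ * ℓ = M₂) (a : ↥(intF A (M₁ * p))) :
    redB p M₂ A hA hpM₂ h4₂ ⟨ψ (a : ↥(Fbar (M₁ * p))), beta_mem_intF p M₁ M₂ A hψ a⟩ =
      qBar (kA A) hM (redB p M₁ A hA hpM₁ h4₁ a) := by
  obtain ⟨Y, hY⟩ := (mem_intF_iff A (M₁ * p)).mp a.2
  apply Subtype.ext
  have h1 : coeffMap A.subtype (qExpand ↥A ℓ Y) =
      ((ψ (a : ↥(Fbar (M₁ * p))) : ↥(Fbar (M₂ * p))) : LaurentSeries Qbar) := by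
    rw [Fermat.Agent.ES.RED.ResidueUnion1.coeffMap_qExpand', hY]
    exact (hψ _).symm
  rw [coe_redB_eq_of p M₂ hA hpM₂ h4₂ (Y := qExpand ↥A ℓ Y) h1, coe_qBar,
    coe_redB_eq_of p M₁ hA hpM₁ h4₁ (Y := Y) hY,
    Fermat.Agent.ES.RED.ResidueUnion1.coeffMap_qExpand']

include hψ in
/-- **(G2)**: `ψ` maps `G1` of the level `M₁ p` into `G1` of the level `M₂ p`. -/
theorem beta_mem_G1 (hM : M₁ * ℓ = M₂) (g : ↥(G1 p M₁ A hA hpM₁ h4₁)) :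
    ψ (g : ↥(Fbar (M₁ * p))) ∈ G1 p M₂ A hA hpM₂ h4₂ := by
  obtain ⟨a, b, hb, hab, -⟩ := exists_num_den (redB p M₁ A hA hpM₁ h4₁) g
  refine ⟨⟨_, beta_mem_intF p M₁ M₂ A hψ a⟩, ⟨_, beta_mem_intF p M₁ M₂ A hψ b⟩, ?_, ?_⟩
  · rw [redB_beta p M₁ M₂ A hA hpM₁ hpM₂ h4₁ h4₂ hψ hM, Ne, map_eq_zero]; exact hb
  · show ψ (g : ↥(Fbar (M₁ * p))) * ψ (b : ↥(Fbar (M₁ * p))) = ψ (a : ↥(Fbar (M₁ * p)))
    rw [← map_mul, hab]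

/-- **(G2)**: `red1 (ψ g) = (red1 g)(q^ℓ)`. -/
theorem red1_beta (hM : M₁ * ℓ = M₂) (g : ↥(G1 p M₁ A hA hpM₁ h4₁)) :
    red1 p M₂ A hA hpM₂ h4₂ ⟨ψ (g : ↥(Fbar (M₁ * p))),
        beta_mem_G1 p M₁ M₂ A hA hpM₁ hpM₂ h4₁ h4₂ hψ hM g⟩ =
      qBar (kA A) hM (red1 p M₁ A hA hpM₁ h4₁ g) := by
  obtain ⟨a, b, hb, hab, hred⟩ := exists_num_den (redB p M₁ A hA hpM₁ h4₁) g
  have hb'' : qBar (kA A) hM (redB p M₁ A hA hpM₁ h4₁ b) ≠ 0 := by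
    rw [Ne, map_eq_zero]; exact hb
  have hb' : redB p M₂ A hA hpM₂ h4₂ ⟨_, beta_mem_intF p M₁ M₂ A hψ b⟩ ≠ 0 := by
    rw [redB_beta p M₁ M₂ A hA hpM₁ hpM₂ h4₁ h4₂ hψ hM]; exact hb''
  have hrel : ((⟨ψ (g : ↥(Fbar (M₁ * p))),
      beta_mem_G1 p M₁ M₂ A hA hpM₁ hpM₂ h4₁ h4₂ hψ hM g⟩ :
      ↥(G1 p M₂ A hA hpM₂ h4₂)) : ↥(Fbar (M₂ * p))) *
      ((⟨_, beta_mem_intF p M₁ M₂ A hψ b⟩ : intF A (M₂ * p)) : ↥(Fbar (M₂ * p))) =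
      ((⟨_, beta_mem_intF p M₁ M₂ A hψ a⟩ : intF A (M₂ * p)) : ↥(Fbar (M₂ * p))) := by
    show ψ (g : ↥(Fbar (M₁ * p))) * ψ (b : ↥(Fbar (M₁ * p))) = ψ (a : ↥(Fbar (M₁ * p)))
    rw [← map_mul, hab]
  have h1 := red1_mul_red p M₂ A hA hpM₂ h4₂ _ hb' hrel
  rw [redB_beta p M₁ M₂ A hA hpM₁ hpM₂ h4₁ h4₂ hψ hM,
    redB_beta p M₁ M₂ A hA hpM₁ hpM₂ h4₁ h4₂ hψ hM] at h1
  apply mul_right_cancel₀ hb''
  rw [h1, ← map_mul]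
  exact congrArg _ hred.symm

end Beta

end Fermat.Agent.MP.FUNC.GaussLvl9
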