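/-
PROGRAMME MP (row 38 via S44), chapter FUNC (helper9): **the degeneracy maps between two BAD levels and the
component through the cusp `0`** (Gauss ring `side2.G = W⁻¹ G1`; the bad → bad twin of `MP/TAU/DegRedTwo9`).

`φ ψ : Fbar (M₁ p) →ₐ Fbar (M₂ p)` with `IsAlpha φ`, `IsBeta ℓ ψ`, `M₁ ℓ = M₂`.  From
`W₂ ∘ φ = ψ ∘ W₁`, `W₂ ∘ ψ = φ ∘ W₁` (`MP/FUNC/FrickeDeg1`) and `GaussLvl9`:

* `alpha_mem_side2`, **`red2_alpha : red2₂ (φ g) = qBar (red2₁ g)`**;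
* `beta_mem_side2`, **`red2_beta : red2₂ (ψ g) = inclBar (red2₁ g)`**.
-/
import Mathlib
import Fermat.Agent.MP.FUNC.GaussLvl9
import Fermat.Agent.ORD.IFACEN.GlueTwoN9

set_option autoImplicit false
set_option linter.unusedSectionVars false
set_option linter.style.longLine false
set_option synthInstance.maxHeartbeats 400000

open HahnSeries ModularCurve Polynomial AlgebraicCurve

noncomputable section

namespace Fermat.Agent.MP.FUNC.GaussLvlTwo9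

open Fermat.Agent.RED.Interface4 Fermat.Agent.ES.RED.ChartIntegralA1
  Fermat.Agent.ORD.IFACEN.GaussBad1 Fermat.Agent.ORD.IFACEN.SideOne1
  Fermat.Agent.ORD.IFACEN.SideTwo1 Fermat.Agent.ORD.IFACEN.GlueTwoN9
  Fermat.Agent.ES.N34.FrickeFK8 Fermat.Agent.MP.FUNC.FrickeDeg1 Fermat.Agent.MP.FUNC.GaussLvl9

variable (p M₁ M₂ : ℕ) [Fact p.Prime] [NeZero M₁] [NeZero M₂] (A : ValuationSubring Qbar)
  (hA : A.LiesOverPrime p) (hpM₁ : ¬ p ∣ M₁) (hpM₂ : ¬ p ∣ M₂) (h4₁ : 4 ∣ M₁) (h4₂ : 4 ∣ M₂)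
  {φ ψ : ↥(Fbar (M₁ * p)) →ₐ[Qbar] ↥(Fbar (M₂ * p))} {ℓ : ℕ} [NeZero ℓ]
  (hφ : IsAlpha φ) (hψ : IsBeta ℓ ψ) (hM : M₁ * ℓ = M₂)

theorem red1_congr {x y : ↥(Fbar (M₂ * p))} (h : x = y) (hx : x ∈ G1 p M₂ A hA hpM₂ h4₂)
    (hy : y ∈ G1 p M₂ A hA hpM₂ h4₂) :
    red1 p M₂ A hA hpM₂ h4₂ ⟨x, hx⟩ = red1 p M₂ A hA hpM₂ h4₂ ⟨y, hy⟩ := by
  subst h; rfl

include hM in
theorem level_eq : M₁ * p * ℓ = M₂ * p := by rw [← hM]; ring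

include hφ hψ hM in
/-- `φ` maps the Gauss ring of the second component into the Gauss ring of the second component. -/
theorem alpha_mem_side2 (g : ↥(side2 p M₁ A hA hpM₁ h4₁).G) :
    φ (g : ↥(Fbar (M₁ * p))) ∈ (side2 p M₂ A hA hpM₂ h4₂).G := by
  rw [mem_side2_iff, fricke_alpha (level_eq p M₁ M₂ hM) hφ hψ]
  exact beta_mem_G1 p M₁ M₂ A hA hpM₁ hpM₂ h4₁ h4₂ hψ hM
    ⟨_, (mem_side2_iff p M₁ A hA hpM₁ h4₁ _).mp g.2⟩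

/-- **`red2 (φ g) = (red2 g)(q^ℓ)`.** -/
theorem red2_alpha (g : ↥(side2 p M₁ A hA hpM₁ h4₁).G) :
    (side2 p M₂ A hA hpM₂ h4₂).red ⟨φ (g : ↥(Fbar (M₁ * p))),
        alpha_mem_side2 p M₁ M₂ A hA hpM₁ hpM₂ h4₁ h4₂ hφ hψ hM g⟩ =
      qBar (kA A) hM ((side2 p M₁ A hA hpM₁ h4₁).red g) := by
  rw [side2_red_eq, side2_red_eq p M₁ A hA hpM₁ h4₁ (g : ↥(Fbar (M₁ * p))) g.2,
    ← red1_beta p M₁ M₂ A hA hpM₁ hpM₂ h4₁ h4₂ hψ hM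
      ⟨_, (mem_side2_iff p M₁ A hA hpM₁ h4₁ _).mp g.2⟩]
  exact red1_congr p M₂ A hA hpM₂ h4₂ (fricke_alpha (level_eq p M₁ M₂ hM) hφ hψ _) _ _

include hφ hψ hM in
/-- `ψ` maps the Gauss ring of the second component into the Gauss ring of the second component. -/
theorem beta_mem_side2 (g : ↥(side2 p M₁ A hA hpM₁ h4₁).G) :
    ψ (g : ↥(Fbar (M₁ * p))) ∈ (side2 p M₂ A hA hpM₂ h4₂).G := by
  rw [mem_side2_iff, fricke_beta (level_eq p M₁ M₂ hM) hφ hψ]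
  exact alpha_mem_G1 p M₁ M₂ A hA hpM₁ hpM₂ h4₁ h4₂ hφ (Dvd.intro _ hM)
    ⟨_, (mem_side2_iff p M₁ A hA hpM₁ h4₁ _).mp g.2⟩

/-- **`red2 (ψ g) = red2 g`** (through the inclusion `F̃_{M₁} ⊆ F̃_{M₂}`). -/
theorem red2_beta (g : ↥(side2 p M₁ A hA hpM₁ h4₁).G) :
    (side2 p M₂ A hA hpM₂ h4₂).red ⟨ψ (g : ↥(Fbar (M₁ * p))),
        beta_mem_side2 p M₁ M₂ A hA hpM₁ hpM₂ h4₁ h4₂ hφ hψ hM g⟩ =
      inclBar (kA A) (Dvd.intro _ hM) ((side2 p M₁ A hA hpM₁ h4₁).red g) := by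
  rw [side2_red_eq, side2_red_eq p M₁ A hA hpM₁ h4₁ (g : ↥(Fbar (M₁ * p))) g.2,
    ← red1_alpha p M₁ M₂ A hA hpM₁ hpM₂ h4₁ h4₂ hφ (Dvd.intro _ hM)
      ⟨_, (mem_side2_iff p M₁ A hA hpM₁ h4₁ _).mp g.2⟩]
  exact red1_congr p M₂ A hA hpM₂ h4₂ (fricke_beta (level_eq p M₁ M₂ hM) hφ hψ _) _ _

end Fermat.Agent.MP.FUNC.GaussLvlTwo9
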