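/-
PROGRAMME MP (row 38 via S44), chapter FUNC (helper9): **(H2) = `PtsMap1.GaussHyp` for the degeneracy maps
between the two-chart models of two BAD levels** `M₁ p → M₂ p` (`M₁ ℓ = M₂`, `4 ∣ M₁`, `p ∤ M₂`, `p` odd),
along `padicPlace p`.

`𝔓 M := Inst9.𝔓 hpM h4 hp2` (`MainDatum6.datum hpM h4 hp2 = 𝔓.toAssemblyData.toSemiRedDatum`, rfl);
`φ ψ : Fbar (M₁ p) →ₐ Fbar (M₂ p)` ARBITRARY with `IsAlpha φ`, `IsBeta ℓ ψ`.

* `barAlpha hM = ![inclBar, qBar]`, `barBeta hM = ![qBar, inclBar]` (`F̃_{M₁} →+* F̃_{M₂}`);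
* **`gaussHyp_alpha : GaussHyp 𝔓₁ 𝔓₂ φ id (barAlpha hM)`**;
* **`gaussHyp_beta : GaussHyp 𝔓₁ 𝔓₂ ψ id (barBeta hM)`**.
-/
import Mathlib
import Fermat.Agent.MP.FUNC.GaussLvlTwo9
import Fermat.Agent.MP.FUNC.PtsMap1
import Fermat.Agent.MP.TAU.Inst9

set_option autoImplicit false
set_option linter.unusedSectionVars false
set_option linter.unusedVariables false
set_option linter.style.longLine false
set_option synthInstance.maxHeartbeats 400000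
set_option maxHeartbeats 1000000

open AlgebraicCurve ModularCurve IntermediateField

noncomputable section

namespace Fermat.Agent.MP.FUNC.GaussDeg9

open Fermat.Agent.RED.Interface4 Fermat.Agent.ES.RED.ChartIntegralA1
open Fermat.Agent.FF.BASE.Place2
open Fermat.Agent.ORD.IFACEN.SideOne1 Fermat.Agent.ORD.IFACEN.SideTwo1
open Fermat.Agent.MP.FUNC.FrickeDeg1 Fermat.Agent.MP.FUNC.PtsMap1
open Fermat.Agent.MP.FUNC.GaussLvl9 Fermat.Agent.MP.FUNC.GaussLvlTwo9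
open Fermat.Agent.MP.TAU.Inst9

local instance (priority := 100000) algKF9g (A : ValuationSubring Qbar) (M : ℕ) [NeZero M] :
    Algebra (kA A) ↥(modularFunctionFieldFullC (kA A) M) := inferInstance

variable {p M₁ M₂ : ℕ} [Fact p.Prime] [NeZero M₁] [NeZero M₂]
  (hpM₁ : ¬ p ∣ M₁) (hpM₂ : ¬ p ∣ M₂) (h4₁ : 4 ∣ M₁) (h4₂ : 4 ∣ M₂) (hp2 : p ≠ 2)
  {φ ψ : ↥(Fbar (M₁ * p)) →ₐ[Qbar] ↥(Fbar (M₂ * p))} {ℓ : ℕ} [NeZero ℓ]
  (hφ : IsAlpha φ) (hψ : IsBeta ℓ ψ) (hM : M₁ * ℓ = M₂)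

/-- the reductions of `α` on the two components. -/
def barAlpha : Fin 2 → ↥(modularFunctionFieldFullC (kA (padicPlace p)) M₁) →+*
    ↥(modularFunctionFieldFullC (kA (padicPlace p)) M₂) :=
  ![inclBar (kA (padicPlace p)) (Dvd.intro _ hM), qBar (kA (padicPlace p)) hM]

/-- the reductions of `β_ℓ` on the two components. -/
def barBeta : Fin 2 → ↥(modularFunctionFieldFullC (kA (padicPlace p)) M₁) →+*
    ↥(modularFunctionFieldFullC (kA (padicPlace p)) M₂) :=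
  ![qBar (kA (padicPlace p)) hM, inclBar (kA (padicPlace p)) (Dvd.intro _ hM)]

include hφ hψ in
/-- **(H2) for `α`.** -/
theorem gaussHyp_alpha :
    GaussHyp (𝔓 hpM₁ h4₁ hp2) (𝔓 hpM₂ h4₂ hp2) φ id (barAlpha (p := p) hM) where
  inj := Function.injective_id
  map := by
    intro v₂ g
    fin_cases v₂
    · exact ⟨alpha_mem_G1 p M₁ M₂ (padicPlace p) (liesOverPrime (ℓ := p)) hpM₁ hpM₂ h4₁ h4₂ hφ
        (Dvd.intro _ hM) g,
        red1_alpha p M₁ M₂ (padicPlace p) (liesOverPrime (ℓ := p)) hpM₁ hpM₂ h4₁ h4₂ hφ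
        (Dvd.intro _ hM) g⟩
    · exact ⟨alpha_mem_side2 p M₁ M₂ (padicPlace p) (liesOverPrime (ℓ := p)) hpM₁ hpM₂ h4₁ h4₂
        hφ hψ hM g,
        red2_alpha p M₁ M₂ (padicPlace p) (liesOverPrime (ℓ := p)) hpM₁ hpM₂ h4₁ h4₂ hφ hψ hM g⟩

include hφ hψ in
/-- **(H2) for `β_ℓ`.** -/
theorem gaussHyp_beta :
    GaussHyp (𝔓 hpM₁ h4₁ hp2) (𝔓 hpM₂ h4₂ hp2) ψ id (barBeta (p := p) hM) where
  inj := Function.injective_id
  map := by
    intro v₂ g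
    fin_cases v₂
    · exact ⟨beta_mem_G1 p M₁ M₂ (padicPlace p) (liesOverPrime (ℓ := p)) hpM₁ hpM₂ h4₁ h4₂ hψ hM g,
        red1_beta p M₁ M₂ (padicPlace p) (liesOverPrime (ℓ := p)) hpM₁ hpM₂ h4₁ h4₂ hψ hM g⟩
    · exact ⟨beta_mem_side2 p M₁ M₂ (padicPlace p) (liesOverPrime (ℓ := p)) hpM₁ hpM₂ h4₁ h4₂
        hφ hψ hM g,
        red2_beta p M₁ M₂ (padicPlace p) (liesOverPrime (ℓ := p)) hpM₁ hpM₂ h4₁ h4₂ hφ hψ hM g⟩

end Fermat.Agent.MP.FUNC.GaussDeg9
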