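/-
PROGRAMME MP (row 38 via S44), chapter FUNC, LAYER 3 (helper9): **the degeneracy maps `α`, `β_r` between the
bad levels `M₁ p → M₁ r p` respect the kernels of reduction** (= `S44Glue6.DegOut`, hence `S44Eight6.DegOut8`).

`4 ∣ M₁`, `p ∤ M₂ = M₁ r`, `p` odd, `r` a prime not dividing `M₁ p`; `φ ψ : Fbar (M₁ p) →ₐ Fbar (M₂ p)`
ARBITRARY with `IsAlpha φ`, `IsBeta r ψ`; `𝔻 M = MainDatum6.datum hpM h4 hp2`.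

* `chartHyp_alpha` : (H1) for `φ` (`φ t = t`);
* `chartHyp_beta` : (H1) for `ψ` (helper1's `ChartBeta1.beta_t_mem_charts`);
* with (H2) = `GaussDeg9.gaussHyp_alpha/beta` and helper1's `PtsMap1`:
  **`pull_alpha_mem`, `pull_beta_mem`, `push_alpha_mem`, `push_beta_mem`** and **`degOut`**.
-/
import Mathlib
import Fermat.Agent.MP.FUNC.GaussDeg9
import Fermat.Agent.MP.FUNC.ChartBeta1
import Fermat.Agent.MP.HECKE.LvlMap6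
import Fermat.Agent.ORD.FINAL.FinalOrd6

set_option autoImplicit false
set_option linter.unusedSectionVars false
set_option linter.unusedVariables false
set_option linter.style.longLine false
set_option synthInstance.maxHeartbeats 400000
set_option maxHeartbeats 1000000

open AlgebraicCurve ModularCurve IntermediateField

noncomputable section

namespace Fermat.Agent.MP.FUNC.DegOut9

open Fermat.Agent.X0 Fermat.Agent.RED.TOP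
open Fermat.Agent.RED.Interface4 Fermat.Agent.ES.RED.ChartIntegralA1
open Fermat.Agent.FF.BASE.Place2
open Fermat.Agent.ORD.KERN.KerN9
open Fermat.Agent.ORD.IFACEN.ChartOne1
open Fermat.Agent.ES.HECKE
open Fermat.Agent.MP.FINAL.MainDatum6
open Fermat.Agent.MP.HECKE.LvlMap6
open Fermat.Agent.MP.FUNC.FrickeDeg1 Fermat.Agent.MP.FUNC.PtsMap1
open Fermat.Agent.MP.FUNC.GaussDeg9
open Fermat.Agent.MP.TAU.Inst9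

local instance (priority := 100000) algKF9d (A : ValuationSubring Qbar) (M : ℕ) [NeZero M] :
    Algebra (kA A) ↥(modularFunctionFieldFullC (kA A) M) := inferInstance

variable {p M₁ M₂ : ℕ} [Fact p.Prime] [NeZero M₁] [NeZero M₂]
  (hpM₁ : ¬ p ∣ M₁) (hpM₂ : ¬ p ∣ M₂) (h4₁ : 4 ∣ M₁) (h4₂ : 4 ∣ M₂) (hp2 : p ≠ 2)
  {φ ψ : ↥(Fbar (M₁ * p)) →ₐ[Qbar] ↥(Fbar (M₂ * p))}

theorem 𝔓_t {M₀ : ℕ} [NeZero M₀] (hpM : ¬ p ∣ M₀) (h4 : 4 ∣ M₀) :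
    (𝔓 hpM h4 hp2).t = tB p M₀ h4 := rfl

include hpM₁ in
/-- `φ t = t`. -/
theorem alpha_tB (hφ : IsAlpha φ) : φ (tB p M₁ h4₁) = tB p M₂ h4₂ :=
  Subtype.ext ((hφ _).trans ((coe_tB p M₁ h4₁).trans (coe_tB p M₂ h4₂).symm))

/-- **(H1) for `α`.** -/
theorem chartHyp_alpha (hφ : IsAlpha φ) :
    ChartHyp (𝔓 hpM₁ h4₁ hp2) (𝔓 hpM₂ h4₂ hp2) φ := by
  refine ChartHyp.of_mem (chart0_intcl h4₂) (chart1_intcl h4₂) ?_ ?_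
  · rw [𝔓_t, alpha_tB hpM₁ h4₁ h4₂ hφ]
    exact (𝔓 hpM₂ h4₂ hp2).ht0
  · rw [𝔓_t, alpha_tB hpM₁ h4₁ h4₂ hφ, ← 𝔓_t hp2 hpM₂ h4₂, ← (𝔓 hpM₂ h4₂ hp2).ht1]
    exact (𝔓 hpM₂ h4₂ hp2).tinv.2

/-- **(H1) for `β_ℓ`** (helper1's `ChartBeta1`). -/
theorem chartHyp_beta {ℓ : ℕ} [NeZero ℓ] (hψ : IsBeta ℓ ψ) (hM : M₁ * ℓ = M₂) (hℓ : ℓ.Prime)
    (hℓ4 : ¬ ℓ ∣ 4) :
    ChartHyp (𝔓 hpM₁ h4₁ hp2) (𝔓 hpM₂ h4₂ hp2) ψ := by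
  subst hM
  obtain ⟨h0, h1⟩ := Fermat.Agent.MP.FUNC.ChartBeta1.beta_t_mem_charts p M₁ ℓ (padicPlace p)
    (liesOverPrime (ℓ := p)) hpM₁ h4₁ hℓ hℓ4
    (Fermat.Agent.ORD.FINAL.FinalOrd6.modelInput hpM₂ h4₂ hp2) h4₂ (ψ (tB p M₁ h4₁))
    ((hψ _).trans (by rw [coe_tB]))
  exact ChartHyp.of_mem (chart0_intcl h4₂) (chart1_intcl h4₂) h0 h1

variable {ℓ : ℕ} [NeZero ℓ] (hφ : IsAlpha φ) (hψ : IsBeta ℓ ψ) (hM : M₁ * ℓ = M₂)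
  (hℓ : ℓ.Prime) (hℓ4 : ¬ ℓ ∣ 4)

include hpM₁ h4₁ hp2 in
/-- a junk value of `Fin 2 × Place k F̃`. -/
theorem exists_junk :
    Nonempty (Fin 2 × Place (kA (padicPlace p)) ↥(modularFunctionFieldFullC (kA (padicPlace p)) M₁)) := by
  obtain ⟨e0⟩ := Fermat.Agent.ORD.IFACEN.GlueTwoN9.nonempty_edges (assembly hpM₁ h4₁ hp2)
  exact ⟨(0, (datum hpM₁ h4₁ hp2).Qs e0)⟩

include hφ hψ hM in
/-- **`α^*` respects the kernels of reduction.** -/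
theorem pull_alpha_mem (fφ : FiniteAlong Qbar φ) (y : JZero (M₁ * p))
    (hy : y ∈ kerRed (datum hpM₁ h4₁ hp2)) : pullL φ fφ y ∈ kerRed (datum hpM₂ h4₂ hp2) := by
  obtain ⟨d₁⟩ := exists_junk hpM₁ h4₁ hp2
  have := FbarFacts20.hasPrincipalDivisors_bar (M₂ * p)
  exact pic0Pull_mem_kerRed_of_hyp (chartHyp_alpha hpM₁ hpM₂ h4₁ h4₂ hp2 hφ)
    (gaussHyp_alpha hpM₁ hpM₂ h4₁ h4₂ hp2 hφ hψ hM) (finInt φ fφ) d₁ (finFI φ fφ) hy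

include hφ hψ hM hℓ hℓ4 in
/-- **`β_ℓ^*` respects the kernels of reduction.** -/
theorem pull_beta_mem (fψ : FiniteAlong Qbar ψ) (y : JZero (M₁ * p))
    (hy : y ∈ kerRed (datum hpM₁ h4₁ hp2)) : pullL ψ fψ y ∈ kerRed (datum hpM₂ h4₂ hp2) := by
  obtain ⟨d₁⟩ := exists_junk hpM₁ h4₁ hp2
  have := FbarFacts20.hasPrincipalDivisors_bar (M₂ * p)
  exact pic0Pull_mem_kerRed_of_hyp (chartHyp_beta hpM₁ hpM₂ h4₁ h4₂ hp2 hψ hM hℓ hℓ4)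
    (gaussHyp_beta hpM₁ hpM₂ h4₁ h4₂ hp2 hφ hψ hM) (finInt ψ fψ) d₁ (finFI ψ fψ) hy

include hφ hψ hM in
/-- **`α_*` respects the kernels of reduction.** -/
theorem push_alpha_mem (fφ : FiniteAlong Qbar φ) (x : JZero (M₂ * p))
    (hx : x ∈ kerRed (datum hpM₂ h4₂ hp2)) : pushL φ fφ x ∈ kerRed (datum hpM₁ h4₁ hp2) := by
  obtain ⟨d₁⟩ := exists_junk hpM₁ h4₁ hp2
  have := FbarFacts20.hasPrincipalDivisors_bar (M₂ * p)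
  exact pic0Push_mem_kerRed_of_hyp (chartHyp_alpha hpM₁ hpM₂ h4₁ h4₂ hp2 hφ)
    (gaussHyp_alpha hpM₁ hpM₂ h4₁ h4₂ hp2 hφ hψ hM) (finInt φ fφ) d₁
    (fun w => FundId12.inertiaDegAlong_eq_one φ (finInt φ fφ) fφ (FbarFacts20.isGen_j (M₁ * p)) w)
    fφ (finNF φ fφ) hx

include hφ hψ hM hℓ hℓ4 in
/-- **`β_{ℓ*}` respects the kernels of reduction.** -/
theorem push_beta_mem (fψ : FiniteAlong Qbar ψ) (x : JZero (M₂ * p))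
    (hx : x ∈ kerRed (datum hpM₂ h4₂ hp2)) : pushL ψ fψ x ∈ kerRed (datum hpM₁ h4₁ hp2) := by
  obtain ⟨d₁⟩ := exists_junk hpM₁ h4₁ hp2
  have := FbarFacts20.hasPrincipalDivisors_bar (M₂ * p)
  exact pic0Push_mem_kerRed_of_hyp (chartHyp_beta hpM₁ hpM₂ h4₁ h4₂ hp2 hψ hM hℓ hℓ4)
    (gaussHyp_beta hpM₁ hpM₂ h4₁ h4₂ hp2 hφ hψ hM) (finInt ψ fψ) d₁
    (fun w => FundId12.inertiaDegAlong_eq_one ψ (finInt ψ fψ) fψ (FbarFacts20.isGen_j (M₁ * p)) w)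
    fψ (finNF ψ fψ) hx

/-- **(FUNC, degeneracy maps)**: literally `S44Glue6.DegOut p hp2`. -/
theorem degOut (p : ℕ) [Fact p.Prime] (hp2 : p ≠ 2) :
    ∀ (M₁ M₂ r : ℕ) [NeZero M₁] [NeZero M₂] [NeZero r] (h4₁ : 4 ∣ M₁) (hpM₁ : ¬ p ∣ M₁)
      (h4₂ : 4 ∣ M₂) (hpM₂ : ¬ p ∣ M₂), r.Prime → ¬ r ∣ M₁ * p → M₁ * r = M₂ →
      ∀ (φ ψ : FF (M₁ * p) →ₐ[Kbar] FF (M₂ * p)), IsAlpha φ → IsBeta r ψ →
      ∀ (fφ : FiniteAlong Kbar φ) (fψ : FiniteAlong Kbar ψ),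
        (∀ y ∈ kerRed (datum hpM₁ h4₁ hp2), pullL φ fφ y ∈ kerRed (datum hpM₂ h4₂ hp2)) ∧
        (∀ y ∈ kerRed (datum hpM₁ h4₁ hp2), pullL ψ fψ y ∈ kerRed (datum hpM₂ h4₂ hp2)) ∧
        (∀ x ∈ kerRed (datum hpM₂ h4₂ hp2), pushL φ fφ x ∈ kerRed (datum hpM₁ h4₁ hp2)) ∧
        (∀ x ∈ kerRed (datum hpM₂ h4₂ hp2), pushL ψ fψ x ∈ kerRed (datum hpM₁ h4₁ hp2)) := by
  intro M₁ M₂ r _ _ _ h4₁ hpM₁ h4₂ hpM₂ hr hrM hM φ ψ hφ hψ fφ fψ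
  have hr4 : ¬ r ∣ 4 := fun h => hrM ((h.trans h4₁).mul_right p)
  exact ⟨pull_alpha_mem hpM₁ hpM₂ h4₁ h4₂ hp2 hφ hψ hM fφ,
    pull_beta_mem hpM₁ hpM₂ h4₁ h4₂ hp2 hφ hψ hM hr hr4 fψ,
    push_alpha_mem hpM₁ hpM₂ h4₁ h4₂ hp2 hφ hψ hM fφ,
    push_beta_mem hpM₁ hpM₂ h4₁ h4₂ hp2 hφ hψ hM hr hr4 fψ⟩

end Fermat.Agent.MP.FUNC.DegOut9
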