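/-
PROGRAMME MP (row 38 via S44), chapter FUNC, LAYER 3 (helper8): **an involution of a two-component
chart which preserves one component preserves the other one.**

Vocabulary of `ORD/IFACEN/LevelFamily8` : `BA ⊂ F` a chart over `A`, two components `on`
(`Gon`, `redon`) and `off` (`Goff`, `redoff`), a point-independent family of finite levels
`H : LevelFamily …` seen from `on`.

* `exists_eq_pi_mul` : **reducedness of the special fibre, global form**: `b ∈ BA` with
  `redon b = 0 = redoff b` is `ϖ d` with `d ∈ BA`, `ϖ ∈ 𝔪_A`;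
* `exists_frac` : `Gon` is the localisation of `BA` at the generic point of `on` (every `g ∈ Gon` is
  `a / b`, `a b ∈ BA`, `redon b ≠ 0`) as soon as some `c ∈ BA` vanishes on `off` and not on `on`;
* **`map_mem_on`** : a ring endomorphism `σ` of `F` with `σ ∘ σ = id`, `σ BA ⊆ BA`, fixing the
  constants of `A` and preserving `ker redoff ∩ BA`, maps `Gon` into itself.
-/
import Mathlib
import Fermat.Agent.ORD.IFACEN.LevelFamily8

set_option autoImplicit false
set_option linter.unusedSectionVars false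
set_option linter.unusedVariables false
set_option linter.style.longLine false

namespace Fermat.Agent.MP.FUNC.TwoCompAut8

open Fermat.Agent.ORD.IFACEN.LocAt8 Fermat.Agent.ORD.IFACEN.LevelFamily8

variable {L F k Ft : Type*} [Field L] [Field F] [Algebra L F] [Field k] [Field Ft] [Algebra k Ft]
variable {A : ValuationSubring L} [Algebra A F] [IsScalarTower A L F]
variable {res : A →+* k} {BA : Subalgebra A F} {s : BA}
  {Gon : Subring F} {redon : Gon →+* Ft} {Goff : Subring F} {redoff : Goff →+* Ft}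
variable {I : Type*} {RK FK : I → Type*} [∀ i, CommRing (RK i)] [∀ i, Field (FK i)]
  [∀ i, Algebra (RK i) (FK i)] {BK : ∀ i, Subalgebra (RK i) (FK i)} {πK : ∀ i, RK i}
  {j : ∀ i, FK i →+* F} {Oon Ooff : ∀ i, ValuationSubring (FK i)}

variable (H : LevelFamily res BA s Gon redon Goff redoff RK FK BK πK j Oon Ooff)

/-- `redon` on the chart. -/
def rOn : BA →+* Ft :=
  redon.comp ((BA.val.toRingHom).codRestrict Gon (fun b => H.le_Gon b b.2))

/-- `redoff` on the chart. -/
def rOff : BA →+* Ft :=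
  redoff.comp ((BA.val.toRingHom).codRestrict Goff (fun b => H.le_Goff b b.2))

theorem rOn_apply (b : BA) : rOn H b = redon ⟨(b : F), H.le_Gon b b.2⟩ := rfl

theorem rOff_apply (b : BA) : rOff H b = redoff ⟨(b : F), H.le_Goff b b.2⟩ := rfl

theorem rOn_const (a : A) : rOn H (algebraMap A BA a) = algebraMap k Ft (res a) := by
  rw [rOn_apply, ← H.red_const_on a]
  congr 1
  apply Subtype.ext
  show ((algebraMap A BA a : BA) : F) = algebraMap L F (a : L)
  rw [← algebraMap_A_eq]; rfl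

/-- **global reducedness**: a function of the chart vanishing on both components is divisible by an
element of the maximal ideal of `A`. -/
theorem exists_eq_pi_mul (b : BA) (h1 : rOn H b = 0) (h2 : rOff H b = 0) :
    ∃ (ϖ : A) (d : BA), res ϖ = 0 ∧ b = algebraMap A BA ϖ * d := by
  obtain ⟨i, -, hS⟩ := H.desc 0 [b]
  obtain ⟨bK, hbK⟩ := hS b (by simp)
  obtain ⟨ϖ, hϖ0, hϖ, eϖ⟩ := H.pi_const i
  have hπ0 : algebraMap (RK i) (FK i) (πK i) ≠ 0 := by
    intro h0
    rw [h0, map_zero] at eϖ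
    have : (ϖ : L) = 0 := (map_eq_zero (algebraMap L F)).mp eϖ.symm
    exact hϖ0 (Subtype.ext this)
  have h1' : redon ⟨j i (bK : FK i), (H.on_iff i _).2 (H.le_on i _ bK.2)⟩ = 0 := by
    rw [← h1, rOn_apply]; congr 1; exact Subtype.ext hbK
  have h2' : redoff ⟨j i (bK : FK i), H.le_Goff _ (H.j_mem i _ bK.2)⟩ = 0 := by
    rw [← h2, rOff_apply]; congr 1; exact Subtype.ext hbK
  obtain ⟨c₁, hc₁, e₁⟩ := (H.on_zero_iff i _ (H.le_on i _ bK.2)).mp h1'
  obtain ⟨c₂, hc₂, e₂⟩ := H.off_zero i bK h2'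
  have hcc : c₁ = c₂ := mul_left_cancel₀ hπ0 (e₁.symm.trans e₂)
  have hcB : c₁ ∈ BK i := H.sat i _ bK.2 c₁ hc₁ (hcc ▸ hc₂) e₁
  refine ⟨ϖ, ⟨j i c₁, H.j_mem i _ hcB⟩, hϖ, ?_⟩
  apply Subtype.ext
  show (b : F) = ((algebraMap A BA ϖ : BA) : F) * j i c₁
  have : ((algebraMap A BA ϖ : BA) : F) = algebraMap L F (ϖ : L) := by
    rw [← algebraMap_A_eq]; rfl
  rw [this, ← eϖ, ← map_mul, ← e₁, hbK]

/-- **`Gon` is the localisation of the chart at the generic point of `on`.** -/
theorem exists_frac (c : BA) (hc_off : rOff H c = 0) (hc_on : rOn H c ≠ 0) (g : F) (hg : g ∈ Gon) :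
    ∃ a b : BA, rOn H b ≠ 0 ∧ g * (b : F) = (a : F) := by
  obtain ⟨i, ⟨x, hx⟩, hS⟩ := H.desc g [c]
  obtain ⟨cK, hcK⟩ := hS c (by simp)
  have hxOn : x ∈ Oon i := (H.on_iff i x).1 (hx ▸ hg)
  have hoff : ∃ o ∈ Ooff i, (cK : FK i) = algebraMap (RK i) (FK i) (πK i) * o := by
    apply H.off_zero i cK
    rw [← hc_off, rOff_apply]; congr 1; exact Subtype.ext hcK
  have hon : ¬ ∃ o ∈ Oon i, (cK : FK i) = algebraMap (RK i) (FK i) (πK i) * o := by
    intro hc
    apply hc_on
    have h0 := (H.on_zero_iff i _ (H.le_on i _ cK.2)).mpr hc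
    rw [← h0, rOn_apply]; congr 1; exact Subtype.ext hcK.symm
  obtain ⟨a, b, hb, hab⟩ := exists_frac_on (BK i) (πK i) (Oon i) (Ooff i) (H.le_on i)
    (H.unif_on i) (H.pi_nonunit_on i) (H.arch_on i) (H.sat i) (H.le_off i) (H.fracK i)
    cK hoff hon x hxOn
  refine ⟨⟨j i (a : FK i), H.j_mem i _ a.2⟩, ⟨j i (b : FK i), H.j_mem i _ b.2⟩, ?_, ?_⟩
  · intro h0
    exact hb ((H.on_zero_iff i _ (H.le_on i _ b.2)).mp h0)
  · show g * j i (b : FK i) = j i (a : FK i)
    rw [← hx, ← map_mul, hab]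

section Aut

variable (σ : F →+* F) (hσσ : ∀ x, σ (σ x) = x) (hσB : ∀ b ∈ BA, σ b ∈ BA)
  (hσc : ∀ a : A, σ (algebraMap L F (a : L)) = algebraMap L F (a : L))

/-- `σ` on the chart. -/
def sB : BA →+* BA := (σ.comp BA.val.toRingHom).codRestrict BA.toSubring (fun b => hσB b b.2)

@[simp] theorem coe_sB (b : BA) : ((sB σ hσB b : BA) : F) = σ (b : F) := rfl

include hσσ in
theorem sB_sB (b : BA) : sB σ hσB (sB σ hσB b) = b := Subtype.ext (hσσ _)

include hσc in
theorem sB_const (a : A) : sB σ hσB (algebraMap A BA a) = algebraMap A BA a := by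
  apply Subtype.ext
  show σ ((algebraMap A BA a : BA) : F) = ((algebraMap A BA a : BA) : F)
  have : ((algebraMap A BA a : BA) : F) = algebraMap L F (a : L) := by
    rw [← algebraMap_A_eq]; rfl
  rw [this, hσc]

variable (hσoff : ∀ b : BA, rOff H b = 0 → rOff H (sB σ hσB b) = 0)
  (c : BA) (hc_off : rOff H c = 0) (hc_on : rOn H c ≠ 0)

include hσσ hσc hσoff hc_off hc_on in
/-- `σ` maps the complement of the generic point of `on` into itself. -/
theorem rOn_sB_ne_zero (b : BA) (hb : rOn H b ≠ 0) : rOn H (sB σ hσB b) ≠ 0 := by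
  intro h0
  -- `σ b · c` vanishes on both components
  have h1 : rOn H (sB σ hσB b * c) = 0 := by rw [map_mul, h0, zero_mul]
  have h2 : rOff H (sB σ hσB b * c) = 0 := by rw [map_mul, hc_off, mul_zero]
  obtain ⟨ϖ, d, hϖ, e⟩ := exists_eq_pi_mul H _ h1 h2
  -- apply `σ`
  have e' : b * sB σ hσB c = algebraMap A BA ϖ * sB σ hσB d := by
    have := congrArg (sB σ hσB) e
    rwa [map_mul, map_mul, sB_sB σ hσσ hσB, sB_const σ hσB hσc] at this
  have h3 : rOn H (sB σ hσB c) = 0 := by
    have := congrArg (rOn H) e'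
    rw [map_mul, map_mul, rOn_const, hϖ, map_zero, zero_mul] at this
    rcases mul_eq_zero.mp this with h | h
    · exact absurd h hb
    · exact h
  have h4 : rOff H (sB σ hσB c) = 0 := hσoff c hc_off
  obtain ⟨ϖ', d', hϖ', e₂⟩ := exists_eq_pi_mul H _ h3 h4
  have e₂' : c = algebraMap A BA ϖ' * sB σ hσB d' := by
    have := congrArg (sB σ hσB) e₂
    rwa [map_mul, sB_sB σ hσσ hσB, sB_const σ hσB hσc] at this
  apply hc_on
  rw [e₂', map_mul, rOn_const, hϖ', map_zero, zero_mul]

include hσσ hσc hσoff hc_off hc_on in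
/-- **an involution of the chart preserving the component `off` preserves the component `on`.** -/
theorem map_mem_on (g : F) (hg : g ∈ Gon) : σ g ∈ Gon := by
  obtain ⟨a, b, hb, hab⟩ := exists_frac H c hc_off hc_on g hg
  have hb' := rOn_sB_ne_zero H σ hσσ hσB hσc hσoff c hc_off hc_on b hb
  have hinv : ((sB σ hσB b : BA) : F)⁻¹ ∈ Gon := H.inv_mem_on ⟨_, H.le_Gon _ (sB σ hσB b).2⟩ hb'
  have hb0 : σ (b : F) ≠ 0 := by
    intro h0
    apply hb'
    have : sB σ hσB b = 0 := Subtype.ext h0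
    rw [this, map_zero]
  have e : σ g = σ (a : F) * (σ (b : F))⁻¹ := by
    rw [← hab, map_mul]
    field_simp
  rw [e]
  exact Gon.mul_mem (H.le_Gon _ (hσB a a.2)) hinv

end Aut

end Fermat.Agent.MP.FUNC.TwoCompAut8
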