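/-
PROGRAMME MP (row 38 via S44), chapter FUNC, LAYER 3 (helper8): **the twist `s₁ : q ↦ -q` on the
two-component model of `X₀(M' p)`** (`4 ∣ M'`, `p ∤ M'`) — the Gauss half (H2) of helper1's `PtsMap1`.

`σ := sg p M' h4 = Twist4.s1Hom (M' * p) _`.

* `sg_mem_intF`, `seriesHom_sg`, `redB_sg_eq_zero_iff`, **`sg_mem_G1`** : `σ` acts coefficientwise on
  `q`-expansions, hence preserves the Gauss ring of the component through `∞`;
* `sg_tB`, `sg_mem_chart0` : `σ t = -t + b`, so `σ` preserves the chart `t ≠ ∞`;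
* `exists_witness` : a node gives `c ∈ chart0` vanishing on the component through `∞` and not on the
  component through `0`;
* **`sg_mem_G2`** : `σ` preserves the Gauss ring of the component through the cusp `0`
  (`TwoCompAut8.map_mem_on` with the level family `BadInstTwo8.lf20`);
* `theta1`, `theta2 : Ft ≃ₐ[k] Ft` the induced automorphisms of the residue fields
  (`InducedAut9.indAlgEquiv`), `theta`;
* **`gaussHyp_s1`** : `GaussHyp 𝔓 𝔓 σ id (fun v => theta v)` for `𝔓 = H.ptsData HL Hk`.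
-/
import Mathlib
import Fermat.Agent.MP.FUNC.TwoCompAut8
import Fermat.Agent.MP.FUNC.Twist4
import Fermat.Agent.MP.FUNC.PtsMap1
import Fermat.Agent.MP.TAU.InducedAut9
import Fermat.Agent.ORD.IFACEN.BadInstTwo8
import Fermat.Agent.ORD.IFACEN.TwoCompInst6

set_option autoImplicit false
set_option linter.unusedSectionVars false
set_option linter.unusedVariables false
set_option linter.style.longLine false
set_option synthInstance.maxHeartbeats 400000

open HahnSeries AlgebraicCurve ModularCurve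

noncomputable section

namespace Fermat.Agent.MP.FUNC.AutS8

open Fermat.Agent.X0 Fermat.Agent.X0.FF Fermat.Agent.RR.LSpace
open Fermat.Agent.RED.Interface4 Fermat.Agent.ES.RED.ChartIntegralA1
open Fermat.Agent.RED.PUR.ChartGeneric22
open Fermat.Agent.ORD.ANN.Side3
open Fermat.Agent.ORD.NODE.NodeSys4
open Fermat.Agent.ORD.IFACEN.LocAt8
open Fermat.Agent.ORD.IFACEN.PtsDict3 Fermat.Agent.ORD.IFACEN.AtlasPts6
open Fermat.Agent.ORD.IFACEN.PtsAssembly3 Fermat.Agent.ORD.IFACEN.TwoCompAssembly3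
  Fermat.Agent.ORD.IFACEN.TwoCompInst6
  Fermat.Agent.ORD.IFACEN.GaussBad1
  Fermat.Agent.ORD.IFACEN.SideOne1 Fermat.Agent.ORD.IFACEN.SideTwo1
  Fermat.Agent.ORD.IFACEN.ChartOne1 Fermat.Agent.ORD.IFACEN.ChartTwo1
open Fermat.Agent.ES.N34.ModelInput13
open Fermat.Agent.MP.FUNC.PtsMap1 Fermat.Agent.MP.FUNC.Twist4 Fermat.Agent.MP.FUNC.TwoCompAut8
open Fermat.Agent.MP.TAU.InducedAut9

/-- fast instance (the canonical search costs seconds). -/
local instance (priority := 100000) algKF8s (A : ValuationSubring Qbar) (M : ℕ) [NeZero M] :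
    Algebra (kA A) ↥(modularFunctionFieldFullC (kA A) M) := inferInstance

variable (p M' : ℕ) [Fact p.Prime] [NeZero M'] (A : ValuationSubring Qbar)
  (hA : A.LiesOverPrime p) (hpM : ¬ p ∣ M') (h4 : 4 ∣ M')

/-- **the twist `s₁`** as an endomorphism of `ℚ̄ · F_{M' p}`. -/
def sg : ↥(Fbar (M' * p)) →ₐ[Qbar] ↥(Fbar (M' * p)) :=
  Twist4.s1Hom (M' * p) (Dvd.dvd.mul_right h4 p)

theorem sg_eq : sg p M' h4 = Twist4.s1Hom (M' * p) (Dvd.dvd.mul_right h4 p) := rfl

theorem coe_sg (x : ↥(Fbar (M' * p))) :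
    ((sg p M' h4 x : ↥(Fbar (M' * p))) : LaurentSeries Qbar) = tw (x : LaurentSeries Qbar) := rfl

theorem sg_sg (x : ↥(Fbar (M' * p))) : sg p M' h4 (sg p M' h4 x) = x := Subtype.ext (tw_tw _)

/-! ### the component through `∞` -/

theorem sg_mem_intF {y : ↥(Fbar (M' * p))} (hy : y ∈ intF A (M' * p)) :
    sg p M' h4 y ∈ intF A (M' * p) := by
  obtain ⟨Y, hY⟩ := (mem_intF_iff A (M' * p)).mp hy
  exact (mem_intF_iff A (M' * p)).mpr ⟨tw Y, by rw [coeffMap_tw, hY]; rfl⟩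

theorem seriesHom_sg (y : intF A (M' * p)) :
    seriesHom A (M' * p) ⟨sg p M' h4 y, sg_mem_intF p M' A h4 y.2⟩ =
      tw (seriesHom A (M' * p) y) :=
  seriesHom_eq_of (by rw [coeffMap_tw, coeffMap_seriesHom]; rfl)

theorem redB_sg_eq_zero_iff (y : intF A (M' * p)) :
    redB p M' A hA hpM h4 ⟨sg p M' h4 y, sg_mem_intF p M' A h4 y.2⟩ = 0 ↔
      redB p M' A hA hpM h4 y = 0 := by
  rw [redB_eq_zero_iff, redB_eq_zero_iff, seriesHom_sg, coeffMap_tw]
  constructor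
  · intro h
    apply tw_injective
    rw [h, map_zero]
  · intro h
    rw [h, map_zero]

/-- **`s₁` preserves the Gauss ring of the component through `∞`.** -/
theorem sg_mem_G1 {g : ↥(Fbar (M' * p))} (hg : g ∈ G1 p M' A hA hpM h4) :
    sg p M' h4 g ∈ G1 p M' A hA hpM h4 := by
  obtain ⟨a, b, hb, hab⟩ := (mem_G1_iff p M' A hA hpM h4 g).mp hg
  refine (mem_G1_iff p M' A hA hpM h4 _).mpr
    ⟨⟨sg p M' h4 a, sg_mem_intF p M' A h4 a.2⟩, ⟨sg p M' h4 b, sg_mem_intF p M' A h4 b.2⟩, ?_, ?_⟩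
  · intro h0
    exact hb ((redB_sg_eq_zero_iff p M' A hA hpM h4 b).mp h0)
  · show sg p M' h4 g * sg p M' h4 (b : ↥(Fbar (M' * p))) = sg p M' h4 (a : ↥(Fbar (M' * p)))
    rw [← map_mul, hab]

/-- on the chart, `σ` preserves the functions vanishing on the component through `∞`. -/
theorem red1_sg_eq_zero {b : ↥(Fbar (M' * p))} (hb : b ∈ intF A (M' * p))
    (h0 : red1 p M' A hA hpM h4 ⟨b, intF_le_G1 p M' A hA hpM h4 hb⟩ = 0) :
    red1 p M' A hA hpM h4 ⟨sg p M' h4 b,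
      intF_le_G1 p M' A hA hpM h4 (sg_mem_intF p M' A h4 hb)⟩ = 0 := by
  have h1 := red1_of_mem p M' A hA hpM h4 ⟨b, hb⟩
  have h2 := red1_of_mem p M' A hA hpM h4 ⟨sg p M' h4 b, sg_mem_intF p M' A h4 hb⟩
  rw [h2]
  rw [h1] at h0
  exact (redB_sg_eq_zero_iff p M' A hA hpM h4 ⟨b, hb⟩).mpr h0

/-! ### the chart `t ≠ ∞` -/

/-- **`σ t = -t + b`**, `b ∈ ℤ`. -/
theorem sg_tB : sg p M' h4 (tB p M' h4) = -tB p M' h4 + ((twInt : ℤ) : ↥(Fbar (M' * p))) := by
  have h := Twist4.s1_tF (M' * p) (Dvd.dvd.mul_right h4 p) (tMem_bad p M' h4)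
  have e : algebraMap Kbar (FF (M' * p)) ((twInt : ℤ) : Kbar) =
      ((twInt : ℤ) : ↥(Fbar (M' * p))) := map_intCast _ _
  rw [e] at h
  exact h

/-- `t' ∈ chart R t` implies `chart R t' ⊆ chart R t`. -/
theorem chart_le_of_mem {R F : Type*} [CommRing R] [Field F] [Algebra R F] {s t : F}
    (h : t ∈ chart R s) : chart R t ≤ chart R s := by
  intro x hx
  apply chart_intcl
  rw [mem_chart_iff, isIntegral_subalgebra_iff] at hx
  rw [isIntegral_subalgebra_iff]
  obtain ⟨P, hP, hcoef, hev⟩ := hx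
  have hle : Algebra.adjoin R {t} ≤ chart R s :=
    Algebra.adjoin_le (by
      intro y hy
      rw [Set.mem_singleton_iff] at hy
      subst hy
      exact h)
  exact ⟨P, hP, fun i => hle (hcoef i), hev⟩

/-- **`σ` preserves the chart `t ≠ ∞`.** -/
theorem sg_mem_chart0 {b : ↥(Fbar (M' * p))} (hb : b ∈ chart ↥A (tB p M' h4)) :
    sg p M' h4 b ∈ chart ↥A (tB p M' h4) := by
  have h1 : ((sg p M' h4).restrictScalars ↥A) b ∈
      chart ↥A (((sg p M' h4).restrictScalars ↥A) (tB p M' h4)) :=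
    map_mem_chart ((sg p M' h4).restrictScalars ↥A) hb
  have h2 : ((sg p M' h4).restrictScalars ↥A) (tB p M' h4) ∈ chart ↥A (tB p M' h4) := by
    show sg p M' h4 (tB p M' h4) ∈ chart ↥A (tB p M' h4)
    rw [sg_tB]
    exact add_mem (neg_mem (self_mem_chart _)) (intCast_mem _ _)
  exact chart_le_of_mem h2 h1

/-! ### a function vanishing on the component through `∞` only -/

variable {p M' A hA hpM h4}

/-- a node gives a function on one of its charts vanishing on the first component only. -/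
theorem witness_of_nodeSys (x : PtsM p M' A h4)
    {Q Q' : Place (kA A) ↥(modularFunctionFieldFullC (kA A) M')} {u v w : ringPts x} {ϖ : Qbar}
    (N : NodeSys (base A) (S₁ p M' A hA hpM h4) (S₂ p M' A hA hpM h4) (ringPts x) (chiPts x)
      Q Q' u v w ϖ) :
    ∃ c : ↥(chart ↥A (tB p M' h4)),
      red1 p M' A hA hpM h4 ⟨(c : ↥(Fbar (M' * p))), chart0_le_G1 p M' A hA hpM h4 c.2⟩ = 0 ∧
      red2 p M' A hA hpM h4 ⟨(c : ↥(Fbar (M' * p))), chart0_le_G2 p M' A hA hpM h4 c.2⟩ ≠ 0 := by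
  -- `v` vanishes on the first component
  have hv1 : N.side.redC v = 0 := by
    have h := congrArg N.side.redC N.mulC
    rw [map_mul, map_mul, N.side.redC_const N.base, N.res_piA, map_zero, zero_mul] at h
    rcases mul_eq_zero.mp h with h' | h'
    · exact absurd h' N.redx_ne
    · exact h'
  have hv2 : N.side'.redC v ≠ 0 := N.redy_ne
  rcases x with x₀ | y
  · -- a point of the chart `t ≠ ∞`
    obtain ⟨a, d, hd, e⟩ := exists_rep (chart0 p M' A h4) x₀.χ v
    refine ⟨a, ?_, ?_⟩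
    · have h1 : red1 p M' A hA hpM h4 ⟨(v : ↥(Fbar (M' * p))), N.side.le_G _ v.2⟩ *
          red1 p M' A hA hpM h4 ⟨(d : ↥(Fbar (M' * p))), chart0_le_G1 p M' A hA hpM h4 d.2⟩ =
          red1 p M' A hA hpM h4 ⟨(a : ↥(Fbar (M' * p))), chart0_le_G1 p M' A hA hpM h4 a.2⟩ := by
        rw [← map_mul]
        congr 1
        exact Subtype.ext e
      rw [← h1]
      have : red1 p M' A hA hpM h4 ⟨(v : ↥(Fbar (M' * p))), N.side.le_G _ v.2⟩ = 0 := hv1
      rw [this, zero_mul]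
    · have h2 : red2 p M' A hA hpM h4 ⟨(v : ↥(Fbar (M' * p))), N.side'.le_G _ v.2⟩ *
          red2 p M' A hA hpM h4 ⟨(d : ↥(Fbar (M' * p))), chart0_le_G2 p M' A hA hpM h4 d.2⟩ =
          red2 p M' A hA hpM h4 ⟨(a : ↥(Fbar (M' * p))), chart0_le_G2 p M' A hA hpM h4 a.2⟩ := by
        rw [← map_mul]
        congr 1
        exact Subtype.ext e
      rw [← h2]
      refine mul_ne_zero hv2 ?_
      intro h0
      apply hd
      have h3 : chiC (chart0 p M' A h4) x₀.χ (ofBA (chart0 p M' A h4) x₀.χ d) = 0 :=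
        N.side'.chi_of_red (ofBA (chart0 p M' A h4) x₀.χ d) h0
      rwa [chiC_ofBA] at h3
  · -- a point of the chart `t ≠ 0`
    obtain ⟨a, d, hd, e⟩ := exists_rep (chart1 p M' A h4) y.1.χ v
    have ha1 : red1 p M' A hA hpM h4
        ⟨(a : ↥(Fbar (M' * p))), chart1_le_G1 p M' A hA hpM h4 a.2⟩ = 0 := by
      have h1 : red1 p M' A hA hpM h4 ⟨(v : ↥(Fbar (M' * p))), N.side.le_G _ v.2⟩ *
          red1 p M' A hA hpM h4 ⟨(d : ↥(Fbar (M' * p))), chart1_le_G1 p M' A hA hpM h4 d.2⟩ =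
          red1 p M' A hA hpM h4 ⟨(a : ↥(Fbar (M' * p))), chart1_le_G1 p M' A hA hpM h4 a.2⟩ := by
        rw [← map_mul]
        congr 1
        exact Subtype.ext e
      rw [← h1]
      have : red1 p M' A hA hpM h4 ⟨(v : ↥(Fbar (M' * p))), N.side.le_G _ v.2⟩ = 0 := hv1
      rw [this, zero_mul]
    have ha2 : red2 p M' A hA hpM h4
        ⟨(a : ↥(Fbar (M' * p))), chart1_le_G2 p M' A hA hpM h4 a.2⟩ ≠ 0 := by
      have h2 : red2 p M' A hA hpM h4 ⟨(v : ↥(Fbar (M' * p))), N.side'.le_G _ v.2⟩ *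
          red2 p M' A hA hpM h4 ⟨(d : ↥(Fbar (M' * p))), chart1_le_G2 p M' A hA hpM h4 d.2⟩ =
          red2 p M' A hA hpM h4 ⟨(a : ↥(Fbar (M' * p))), chart1_le_G2 p M' A hA hpM h4 a.2⟩ := by
        rw [← map_mul]
        congr 1
        exact Subtype.ext e
      rw [← h2]
      refine mul_ne_zero hv2 ?_
      intro h0
      apply hd
      have h3 : chiC (chart1 p M' A h4) y.1.χ (ofBA (chart1 p M' A h4) y.1.χ d) = 0 :=
        N.side'.chi_of_red (ofBA (chart1 p M' A h4) y.1.χ d) h0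
      rwa [chiC_ofBA] at h3
    -- move to the chart `t ≠ ∞`
    have ht0 : tB p M' h4 ≠ 0 := by
      intro h0
      apply red2_tB_ne_zero p M' A hA hpM h4
      have : (⟨tB p M' h4, tB_mem_G2 p M' A hA hpM h4⟩ : ↥(G2 p M' A hA hpM h4)) = 0 :=
        Subtype.ext h0
      rw [this, map_zero]
    obtain ⟨n, hn⟩ := exists_pow_mul_mem_chart (R := ↥A) ht0 a.2
    refine ⟨⟨_, hn⟩, ?_, ?_⟩
    · have h1 : (⟨tB p M' h4 ^ n * (a : ↥(Fbar (M' * p))), chart0_le_G1 p M' A hA hpM h4 hn⟩ :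
          ↥(G1 p M' A hA hpM h4)) = ⟨tB p M' h4, tB_mem_G1 p M' A hA hpM h4⟩ ^ n *
            ⟨(a : ↥(Fbar (M' * p))), chart1_le_G1 p M' A hA hpM h4 a.2⟩ := Subtype.ext rfl
      show red1 p M' A hA hpM h4 ⟨tB p M' h4 ^ n * (a : ↥(Fbar (M' * p))), _⟩ = 0
      rw [h1, map_mul, ha1, mul_zero]
    · have h1 : (⟨tB p M' h4 ^ n * (a : ↥(Fbar (M' * p))), chart0_le_G2 p M' A hA hpM h4 hn⟩ :
          ↥(G2 p M' A hA hpM h4)) = ⟨tB p M' h4, tB_mem_G2 p M' A hA hpM h4⟩ ^ n *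
            ⟨(a : ↥(Fbar (M' * p))), chart1_le_G2 p M' A hA hpM h4 a.2⟩ := Subtype.ext rfl
      show red2 p M' A hA hpM h4 ⟨tB p M' h4 ^ n * (a : ↥(Fbar (M' * p))), _⟩ ≠ 0
      rw [h1, map_mul, map_pow]
      exact mul_ne_zero (pow_ne_zero _ (red2_tB_ne_zero p M' A hA hpM h4)) ha2

/-- **a node gives a function of the chart `t ≠ ∞` vanishing on the component through `∞` and not on
the component through `0`.** -/
theorem exists_witness (H : Hyp p M' A hA hpM h4) (n : H.Nodes) :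
    ∃ c : ↥(chart ↥A (tB p M' h4)),
      red1 p M' A hA hpM h4 ⟨(c : ↥(Fbar (M' * p))), chart0_le_G1 p M' A hA hpM h4 c.2⟩ = 0 ∧
      red2 p M' A hA hpM h4 ⟨(c : ↥(Fbar (M' * p))), chart0_le_G2 p M' A hA hpM h4 c.2⟩ ≠ 0 := by
  obtain ⟨Q, Q', u, v, w, ϖ, N⟩ := H.nd n.1 n.2.1 n.2.2
  exact witness_of_nodeSys n.1 N

/-! ### the component through the cusp `0` -/

/-- **`s₁` preserves the Gauss ring of the component through the cusp `0`.** -/
theorem sg_mem_G2 (MI : ModelInput 4 8 p M' A) (H : Hyp p M' A hA hpM h4) (n : H.Nodes)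
    {g : ↥(Fbar (M' * p))} (hg : g ∈ G2 p M' A hA hpM h4) :
    sg p M' h4 g ∈ G2 p M' A hA hpM h4 := by
  obtain ⟨c, hc1, hc2⟩ := exists_witness H n
  exact map_mem_on (Fermat.Agent.ORD.IFACEN.BadInstTwo8.lf20 p M' A hA hpM h4 MI) (sg p M' h4 : ↥(Fbar (M' * p)) →+* ↥(Fbar (M' * p)))
    (sg_sg p M' h4) (fun b hb => sg_mem_chart0 p M' A h4 hb)
    (fun a => (sg p M' h4).commutes _)
    (fun b hb => red1_sg_eq_zero p M' A hA hpM h4 (chart0_le_intF p M' A hA h4 b.2) hb)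
    c hc1 hc2 g hg

/-! ### the induced automorphisms of the residue fields -/

variable (MI : ModelInput 4 8 p M' A) (H : Hyp p M' A hA hpM h4) (n : H.Nodes)

theorem hconst1 (c : kA A) : ∃ g : ↥(G1 p M' A hA hpM h4),
    red1 p M' A hA hpM h4 g = algebraMap (kA A) ↥(modularFunctionFieldFullC (kA A) M') c ∧
      (sg p M' h4 : ↥(Fbar (M' * p)) →+* ↥(Fbar (M' * p))) (g : ↥(Fbar (M' * p))) =
        (g : ↥(Fbar (M' * p))) := by
  obtain ⟨a, rfl⟩ := IsLocalRing.residue_surjective c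
  exact ⟨⟨_, const_mem p M' A hA hpM h4 a⟩, red1_const p M' A hA hpM h4 a,
    (sg p M' h4).commutes _⟩

theorem hconst2 (c : kA A) : ∃ g : ↥(G2 p M' A hA hpM h4),
    red2 p M' A hA hpM h4 g = algebraMap (kA A) ↥(modularFunctionFieldFullC (kA A) M') c ∧
      (sg p M' h4 : ↥(Fbar (M' * p)) →+* ↥(Fbar (M' * p))) (g : ↥(Fbar (M' * p))) =
        (g : ↥(Fbar (M' * p))) := by
  obtain ⟨a, rfl⟩ := IsLocalRing.residue_surjective c
  exact ⟨⟨_, const_mem2 p M' A hA hpM h4 a⟩, red2_const p M' A hA hpM h4 a,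
    (sg p M' h4).commutes _⟩

variable (p M' A hA hpM h4) in
/-- the automorphism of `k · F̃_{M'}` induced by `s₁` on the component through `∞`. -/
def theta1 : ↥(modularFunctionFieldFullC (kA A) M') ≃ₐ[kA A] ↥(modularFunctionFieldFullC (kA A) M') :=
  indAlgEquiv (red1 p M' A hA hpM h4) (red1_surjective p M' A hA hpM h4)
    (fun g hg => (side1 p M' A hA hpM h4).inv_mem (g := g) hg)
    (sg p M' h4 : ↥(Fbar (M' * p)) →+* ↥(Fbar (M' * p))) (sg_sg p M' h4)
    (fun g hg => sg_mem_G1 p M' A hA hpM h4 hg) hconst1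

theorem theta1_red1 (g : ↥(G1 p M' A hA hpM h4)) :
    theta1 p M' A hA hpM h4 (red1 p M' A hA hpM h4 g) =
      red1 p M' A hA hpM h4 ⟨sg p M' h4 g, sg_mem_G1 p M' A hA hpM h4 g.2⟩ :=
  indAlgEquiv_red _ _ _ _ _ _ _ g

/-- the automorphism of `k · F̃_{M'}` induced by `s₁` on the component through the cusp `0`. -/
def theta2 : ↥(modularFunctionFieldFullC (kA A) M') ≃ₐ[kA A] ↥(modularFunctionFieldFullC (kA A) M') :=
  indAlgEquiv (red2 p M' A hA hpM h4) (red2_surjective p M' A hA hpM h4)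
    (fun g hg => (side2 p M' A hA hpM h4).inv_mem (g := g) hg)
    (sg p M' h4 : ↥(Fbar (M' * p)) →+* ↥(Fbar (M' * p))) (sg_sg p M' h4)
    (fun g hg => sg_mem_G2 MI H n hg) hconst2

theorem theta2_red2 (g : ↥(G2 p M' A hA hpM h4)) :
    theta2 MI H n (red2 p M' A hA hpM h4 g) =
      red2 p M' A hA hpM h4 ⟨sg p M' h4 g, sg_mem_G2 MI H n g.2⟩ :=
  indAlgEquiv_red _ _ _ _ _ _ _ g

/-- the two induced automorphisms. -/
def theta : Fin 2 →
    ↥(modularFunctionFieldFullC (kA A) M') ≃ₐ[kA A] ↥(modularFunctionFieldFullC (kA A) M') :=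
  ![theta1 p M' A hA hpM h4, theta2 MI H n]

@[simp] theorem theta_zero : theta MI H n 0 = theta1 p M' A hA hpM h4 := rfl

@[simp] theorem theta_one : theta MI H n 1 = theta2 MI H n := rfl

/-- **(H2) for the twist `s₁`**: `s₁` preserves the Gauss rings of both components, compatibly with
the reductions (`cmap = id`, `φbar v = theta v`). -/
theorem gaussHyp_s1 (HL : LHyp Qbar ↥(Fbar (M' * p)))
    (Hk : LHyp (kA A) ↥(modularFunctionFieldFullC (kA A) M')) :
    GaussHyp (H.ptsData HL Hk) (H.ptsData HL Hk) (sg p M' h4) id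
      (fun v => ((theta MI H n v :
        ↥(modularFunctionFieldFullC (kA A) M') ≃ₐ[kA A] ↥(modularFunctionFieldFullC (kA A) M')) :
        ↥(modularFunctionFieldFullC (kA A) M') →+* ↥(modularFunctionFieldFullC (kA A) M'))) where
  inj := Function.injective_id
  map := by
    intro v₂
    fin_cases v₂
    · intro g
      have hg : (g : ↥(Fbar (M' * p))) ∈ G1 p M' A hA hpM h4 := g.2
      exact ⟨sg_mem_G1 p M' A hA hpM h4 hg, (theta1_red1 ⟨_, hg⟩).symm⟩
    · intro g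
      have hg : (g : ↥(Fbar (M' * p))) ∈ G2 p M' A hA hpM h4 := g.2
      exact ⟨sg_mem_G2 MI H n hg, (theta2_red2 MI H n ⟨_, hg⟩).symm⟩

end Fermat.Agent.MP.FUNC.AutS8
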