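/-
PROGRAMME MP (row 38 via S44), chapter FUNC, TOP (helper8, compiled and landed by helper6): **the two FUNC inputs `AutOut8` and `WOut`
of `S44Eight6.s44_of_four8`, unconditionally.**

`AutMain6` (helper6) reduced both to ONE named input, `S1Gauss hpM h4 hp2` ((H2) for the twist `s₁` on
the two-chart model of `MainDatum6.datum hpM h4 hp2`).  `AutS8.gaussHyp_s1` proves it for any
`H : TwoCompInst6.Hyp …`, `MI : ModelInput …` and any node `n : H.Nodes`; a node exists by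
`GlueTwoN9.nonempty_edges`.

* **`s1Gauss`** : `AutMain6.S1Gauss hpM h4 hp2`;
* **`autOut8`** : `S44Eight6.AutOut8 p hp2` (`s₁^*`, `W^*` preserve `kerRed datum` at all levels `4 ∥ M`);
* **`wOut`** : `S44Main6.WOut hpM h4 hp2 (Aut5.cWOp (M p) _)` (`τ(𝒲 y)_e = − τ(y)_{s e}`, `4 ∥ M`).
-/
import Mathlib
import Fermat.Agent.MP.FUNC.AutS8
import Fermat.Agent.MP.FUNC.AutMain6
import Fermat.Agent.ORD.IFACEN.GlueTwoN9

set_option autoImplicit false
set_option linter.unusedSectionVars false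
set_option linter.unusedVariables false
set_option linter.style.longLine false
set_option linter.style.haveILetI false
set_option synthInstance.maxHeartbeats 400000
set_option maxHeartbeats 1000000

open AlgebraicCurve ModularCurve

noncomputable section

namespace Fermat.Agent.MP.FUNC.AutSMain6

open Fermat.Agent.X0 Fermat.Agent.X0.FF Fermat.Agent.RR.LSpace Fermat.Agent.RED.TOP
open Fermat.Agent.RED.Interface4 Fermat.Agent.ES.RED.ChartIntegralA1
open Fermat.Agent.ORD.ANN.Side3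
open Fermat.Agent.TW.FLAT.FlatModule6
open Fermat.Agent.ORD.IFACEN.PtsAssembly3 Fermat.Agent.ORD.IFACEN.TwoCompAssembly3
  Fermat.Agent.ORD.IFACEN.TwoCompInst6
open Fermat.Agent.MP.FUNC.PtsMap1 Fermat.Agent.MP.FUNC.AutS8 Fermat.Agent.MP.FUNC.AutMain6
open Fermat.Agent.MP.FINAL.MainDatum6 Fermat.Agent.MP.FINAL.S44Main6
  Fermat.Agent.MP.FINAL.S44Eight6
open Fermat.Agent.MP.HECKE.Aut5

/-- fast instance (the canonical search costs seconds). -/
local instance (priority := 100000) algKF6sm (A : ValuationSubring Qb) (M : ℕ) [NeZero M] :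
    Algebra (kA A) ↥(modularFunctionFieldFullC (kA A) M) := inferInstance

variable {p M : ℕ} [Fact p.Prime] [NeZero M] (hpM : ¬ p ∣ M) (h4 : 4 ∣ M) (hp2 : p ≠ 2)

/-- the model has a node. -/
theorem nonempty_nodes : Nonempty (Nodes hpM h4 hp2) :=
  Fermat.Agent.ORD.IFACEN.GlueTwoN9.nonempty_edges (model hpM h4 hp2).toAssemblyData

/-- **(H2) for the twist `s₁` on the concrete datum.** -/
theorem s1Gauss : S1Gauss hpM h4 hp2 := by
  obtain ⟨n⟩ := nonempty_nodes hpM h4 hp2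
  exact ⟨theta (Fermat.Agent.ORD.FINAL.FinalOrd6.modelInput hpM h4 hp2) (hypMain hpM h4 hp2) n,
    gaussHyp_s1 (Fermat.Agent.ORD.FINAL.FinalOrd6.modelInput hpM h4 hp2) (hypMain hpM h4 hp2) n _ _⟩

/-- **`AutOut8`** : `s₁^*` and `W^*` preserve the kernel of reduction at all levels `4 ∥ M`. -/
theorem autOut8 (p : ℕ) [Fact p.Prime] (hp2 : p ≠ 2) : AutOut8 p hp2 :=
  autOut8_of_gauss hp2 fun M _ h4 _ hpM => s1Gauss hpM h4 hp2

/-- **`WOut`** : `τ(𝒲 y)_e = − τ(y)_{s e}` for `𝒲 = s₁ W s₁ W s₁ W`, `4 ∥ M`. -/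
theorem wOut (h8 : ¬ 8 ∣ M) : WOut hpM h4 hp2 (cWOp (M * p) (Dvd.dvd.mul_right h4 p)) :=
  wOut_of_gauss hpM h4 hp2 h8 (s1Gauss hpM h4 hp2)

end Fermat.Agent.MP.FUNC.AutSMain6
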