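/-
PROGRAMME MP (row 38 via S44), chapter FUNC (helper1): **the charts of the two-chart model of
`X₀(M' p)` over `A` are saturated: integral on the generic fibre and at the generic points of the two
components of the special fibre ⟹ integral.**

`t = tB p M' h4` the Hauptmodul of level `4` in `Fbar (M' p)`, `G1`, `G2` the Gauss rings of the two
components.  For `Y : Fbar (M' p)` with `Y ∈ G1`, `Y ∈ G2` :

  **`mem_chart0_of_isIntegral`** : `Y` integral over `ℚbar[t]`   ⟹ `Y ∈ chart A t`    (= `chart0`);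
  **`mem_chart1_of_isIntegral`** : `Y` integral over `ℚbar[t⁻¹]` ⟹ `Y ∈ chart A t⁻¹` (= `chart1`);
  `…_of_coe` : the same with the integrality stated for the `q`-expansions in `ℚbar((q))`.

Proof : descend `Y` to a finite level `K` of the N34 model `ModelInput 4 8 p M' A`
(`UnifDescent14.exists_descent_ge`), where integrality over `ℚbar[t]` descends to `K[t]`
(`ModEq23.isIntegral_adjoin_of_map`), `G1`, `G2` to the Gauss valuation rings `O1`, `O2`
(`on_iff_one`, `on_iff_two`), and conclude by the `π`-saturation of the model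
(`SatIntegral18.mem_of_isIntegral_field`) and `baseChangeHom_mem_chart0/1`.
-/
import Mathlib
import Fermat.Agent.ORD.IFACEN.BadInstTwo8
import Fermat.Agent.ES.N34.ItemsAd6

set_option autoImplicit false
set_option linter.unusedSectionVars false
set_option linter.unusedVariables false
set_option linter.style.longLine false
set_option synthInstance.maxHeartbeats 400000
set_option maxHeartbeats 1000000

open HahnSeries ModularCurve IntermediateField

noncomputable section

namespace Fermat.Agent.MP.FUNC.ChartSat1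

open Fermat.Agent.RED.Interface4 Fermat.Agent.RED.DESC.PlaceExtend27
  Fermat.Agent.ES.RED.ChartIntegralA1
  Fermat.Agent.RED.PUR.GaussGen8 Fermat.Agent.RED.PUR.GaussBridge10
  Fermat.Agent.RED.PUR.ChartGeneric22
  Fermat.Agent.RED.DESC.NumberFieldDVR27
  Fermat.Agent.RED.BASE.Interface12 Fermat.Agent.RED.BASE.EtaQuot12
  Fermat.Agent.RED.BASE.Hauptmodul12
  Fermat.Agent.ES.N34.ModelDefs9 Fermat.Agent.ES.N34.ModelInput13 Fermat.Agent.ES.N34.NumData13
  Fermat.Agent.ES.N34.NodalCore13 Fermat.Agent.ES.N34.FrickeFK8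
  Fermat.Agent.ES.N34.ModEq23 Fermat.Agent.ES.N34.SatIntegral18
  Fermat.Agent.ORD.IFACEN.GaussBad1 Fermat.Agent.ORD.IFACEN.SideOne1
  Fermat.Agent.ORD.IFACEN.SideTwo1
  Fermat.Agent.ORD.IFACEN.BadLevelOne8 Fermat.Agent.ORD.IFACEN.BadFamily8
  Fermat.Agent.ORD.IFACEN.BadInstTwo8

/-- fast instance (the canonical search costs seconds). -/
local instance (priority := 100000) algKFs (A : ValuationSubring Qbar) (M : ℕ) [NeZero M] :
    Algebra (kA A) ↥(modularFunctionFieldFullC (kA A) M) := inferInstance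

/-- shortcut instance (typeclass search takes seconds to find it). -/
local instance (priority := high) algAKFKs (A : ValuationSubring Qbar) (M : ℕ)
    (K : IntermediateField ℚ Qbar) : Algebra ↥(AK A K) ↥(FK M K) := inferInstance

/-! ### base change as a `K`-algebra map -/

/-- the base change `F_N(K) → Fbar N` as a `K`-algebra map. -/
def bcAlg (N : ℕ) [NeZero N] (K : IntermediateField ℚ Qbar) : ↥(FK N K) →ₐ[↥K] ↥(Fbar N) :=
  { baseChangeHom N K with
    commutes' := fun c => by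
      show baseChangeHom N K (algebraMap ↥K ↥(FK N K) c) = _
      rw [baseChangeHom_algebraMap, IsScalarTower.algebraMap_apply ↥K Qbar ↥(Fbar N)]
      rfl }

theorem bcAlg_apply (N : ℕ) [NeZero N] (K : IntermediateField ℚ Qbar) (x : ↥(FK N K)) :
    bcAlg N K x = baseChangeHom N K x := rfl

/-- integrality over `ℚbar[s]` descends to `K[s_K]`. -/
theorem isIntegral_descend (N : ℕ) [NeZero N] (K : IntermediateField ℚ Qbar) {s y : ↥(FK N K)}
    (h : IsIntegral (Algebra.adjoin Qbar {baseChangeHom N K s}) (baseChangeHom N K y)) :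
    IsIntegral (Algebra.adjoin ↥K {s}) y := by
  have : Algebra.IsIntegral ↥K Qbar := isIntegral_top_Qbar K
  exact isIntegral_adjoin_of_map (L := Qbar) (bcAlg N K) h

variable (p M' : ℕ) [Fact p.Prime] [NeZero M'] (A : ValuationSubring Qbar)
  (hA : A.LiesOverPrime p) (hpM : ¬ p ∣ M') (h4 : 4 ∣ M') (MI : ModelInput 4 8 p M' A)

include MI in
/-- **saturation of both charts.** -/
theorem mem_charts_of_isIntegral (Y : ↥(Fbar (M' * p))) (h1 : Y ∈ G1 p M' A hA hpM h4)
    (h2 : Y ∈ G2 p M' A hA hpM h4) :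
    (IsIntegral (Algebra.adjoin Qbar {tB p M' h4}) Y → Y ∈ chart ↥A (tB p M' h4)) ∧
    (IsIntegral (Algebra.adjoin Qbar {(tB p M' h4)⁻¹}) Y → Y ∈ chart ↥A (tB p M' h4)⁻¹) := by
  obtain ⟨K₀, hK₀, H⟩ := MI
  have := hK₀
  obtain ⟨K₁, hfd₁, hle₁, Hy⟩ := Fermat.Agent.RED.DESC.UnifDescent14.exists_descent_ge (M' * p) K₀ Y
  have := hfd₁
  obtain ⟨i, hi⟩ := exists_lvl_ge K₁ K₁ le_rfl
  have hfd : FiniteDimensional ℚ i.K := i.fd
  obtain ⟨ht, hE, HD⟩ := H i.K hfd (hle₁.trans hi)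
  obtain ⟨π, hπ⟩ := exists_unif (p := p) (A := A) hA i.K
  obtain ⟨y, rfl⟩ := Hy i.K hi
  have hy1 : y ∈ O1 M' p hπ hE := (on_iff_one p M' A hA hpM h4 i.K hπ hE y).1 h1
  have hy2 : y ∈ O2 M' p hπ hE := (on_iff_two p M' A hA hpM h4 i.K hπ hE y).1 h2
  have := Fermat.Agent.RED.NumInst4.isScalarTower_OE (AK A i.K) (FK (M' * p) i.K)
  have D' : NodalNumData ↥(AK A i.K) ↥i.K ↥(FK (M' * p) i.K) π (tN p ht) (B0 A p ht)
      (B1 A p ht) (O1 M' p hπ hE) (O2 M' p hπ hE) := HD π hπ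
  have hπ1 : algebraMap ↥(AK A i.K) ↥(FK (M' * p) i.K) π ∈ O1 M' p hπ hE :=
    D'.model.le_O1_0 _ ((B0 A p ht).algebraMap_mem π)
  have hπ2 : algebraMap ↥(AK A i.K) ↥(FK (M' * p) i.K) π ∈ O2 M' p hπ hE :=
    D'.model.le_O2_0 _ ((B0 A p ht).algebraMap_mem π)
  have hB0 : ∀ x : ↥(FK (M' * p) i.K),
      IsIntegral (Algebra.adjoin ↥(AK A i.K) {tN p ht}) x → x ∈ B0 A p ht := by
    intro x hx
    unfold B0
    exact mem_chart_iff.2 hx
  have hB1 : ∀ x : ↥(FK (M' * p) i.K),
      IsIntegral (Algebra.adjoin ↥(AK A i.K) {(tN p ht)⁻¹}) x → x ∈ B1 A p ht := by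
    intro x hx
    unfold B1
    exact mem_chart_iff.2 hx
  refine ⟨fun hint => ?_, fun hint => ?_⟩
  · have hintK : IsIntegral (Algebra.adjoin ↥i.K {tN p ht}) y := by
      apply isIntegral_descend (M' * p) i.K
      rw [baseChangeHom_tN p M' h4 i.K ht]
      exact hint
    exact baseChangeHom_mem_chart0 p M' A h4 i.K ht
      (mem_of_isIntegral_field (R := ↥(AK A i.K)) (K := ↥i.K) (F := ↥(FK (M' * p) i.K)) π D'.dvrR
        (tN p ht) (B0 A p ht) hB0 _ _ hπ1 hπ2 D'.model.sat0 hintK hy1 hy2)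
  · have hintK : IsIntegral (Algebra.adjoin ↥i.K {(tN p ht)⁻¹}) y := by
      apply isIntegral_descend (M' * p) i.K
      rw [map_inv₀, baseChangeHom_tN p M' h4 i.K ht]
      exact hint
    exact baseChangeHom_mem_chart1 p M' A h4 i.K ht
      (mem_of_isIntegral_field (R := ↥(AK A i.K)) (K := ↥i.K) (F := ↥(FK (M' * p) i.K)) π D'.dvrR
        (tN p ht)⁻¹ (B1 A p ht) hB1 _ _ hπ1 hπ2 D'.model.sat1 hintK hy1 hy2)

include MI in
/-- **saturation of the chart `t ≠ ∞`.** -/
theorem mem_chart0_of_isIntegral {Y : ↥(Fbar (M' * p))} (h1 : Y ∈ G1 p M' A hA hpM h4)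
    (h2 : Y ∈ G2 p M' A hA hpM h4)
    (hint : IsIntegral (Algebra.adjoin Qbar {tB p M' h4}) Y) : Y ∈ chart ↥A (tB p M' h4) :=
  (mem_charts_of_isIntegral p M' A hA hpM h4 MI Y h1 h2).1 hint

include MI in
/-- **saturation of the chart `t ≠ 0`.** -/
theorem mem_chart1_of_isIntegral {Y : ↥(Fbar (M' * p))} (h1 : Y ∈ G1 p M' A hA hpM h4)
    (h2 : Y ∈ G2 p M' A hA hpM h4)
    (hint : IsIntegral (Algebra.adjoin Qbar {(tB p M' h4)⁻¹}) Y) :
    Y ∈ chart ↥A (tB p M' h4)⁻¹ :=
  (mem_charts_of_isIntegral p M' A hA hpM h4 MI Y h1 h2).2 hint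

/-! ### integrality stated on the `q`-expansions -/

/-- integrality over `ℚbar[s]` can be checked on the `q`-expansions. -/
theorem isIntegral_of_coe_bar (N : ℕ) [NeZero N] {s Y : ↥(Fbar N)}
    (h : IsIntegral (Algebra.adjoin Qbar {(s : LaurentSeries Qbar)}) (Y : LaurentSeries Qbar)) :
    IsIntegral (Algebra.adjoin Qbar {s}) Y := by
  apply Fermat.Agent.RED.PUR.PlaceIntegral3.isIntegral_polyRing_of_map (K := Qbar)
    (F' := LaurentSeries Qbar)
  exact h

include MI in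
/-- **saturation of the chart `t ≠ ∞`, series form.** -/
theorem mem_chart0_of_isIntegral_coe {Y : ↥(Fbar (M' * p))} (h1 : Y ∈ G1 p M' A hA hpM h4)
    (h2 : Y ∈ G2 p M' A hA hpM h4)
    (hint : IsIntegral (Algebra.adjoin Qbar {tq Qbar 4 8}) (Y : LaurentSeries Qbar)) :
    Y ∈ chart ↥A (tB p M' h4) :=
  mem_chart0_of_isIntegral p M' A hA hpM h4 MI h1 h2 (isIntegral_of_coe_bar (M' * p) hint)

include MI in
/-- **saturation of the chart `t ≠ 0`, series form.** -/
theorem mem_chart1_of_isIntegral_coe {Y : ↥(Fbar (M' * p))} (h1 : Y ∈ G1 p M' A hA hpM h4)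
    (h2 : Y ∈ G2 p M' A hA hpM h4)
    (hint : IsIntegral (Algebra.adjoin Qbar {(tq Qbar 4 8)⁻¹}) (Y : LaurentSeries Qbar)) :
    Y ∈ chart ↥A (tB p M' h4)⁻¹ :=
  mem_chart1_of_isIntegral p M' A hA hpM h4 MI h1 h2 (isIntegral_of_coe_bar (M' * p) hint)

end Fermat.Agent.MP.FUNC.ChartSat1
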