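/-
PROGRAMME MP (row 38 via S44), chapter FUNC (helper1): **(H2) for the degeneracy maps `α`, `β_ℓ`
between the two-component models of `X₀(M₁ p)` and `X₀(M₂ p)`** (`p ∤ M₁ M₂`, `4 ∣ M₁`, `4 ∣ M₂`).

The component through `∞` : Gauss ring `G1` = fractions of `A`-integral `q`-expansions, `red1` = reduction of
the coefficients; the component through the cusp `0` : `G2 = W⁻¹ G1`, `red2 = red1 ∘ W`.

* `SeriesOp A TQ Tk` : an operation on `q`-expansions defined over `A` (`id`, `q ↦ q^ℓ`);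
* `intF_transport`, `G1_transport` : a ring homomorphism `φ : Fbar (M₁ p) → Fbar (M₂ p)` acting by a
  series operation on `q`-expansions maps `G1` to `G1`, and `red1 ∘ φ = φbar ∘ red1`;
* `G2_transport` : the same on the second component through a Fricke partner `ψ`
  (`W₂ ∘ φ = ψ ∘ W₁`);
* `inclC`, `qexpC` : the maps `k · F̃_{M₁} → k · F̃_{M₂}` on the special fibres;
* **`alpha_G1`, `alpha_G2`, `beta_G1`, `beta_G2`** : for `IsAlpha φ`, `IsBeta ℓ ψ`, `M₁ * ℓ = M₂` :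
  `(φ, inclC)` on `G1`, `(φ, qexpC)` on `G2`, `(ψ, qexpC)` on `G1`, `(ψ, inclC)` on `G2`.
-/
import Mathlib
import Fermat.Agent.MP.FUNC.FrickeDeg1
import Fermat.Agent.ORD.IFACEN.GlueTwoN9

set_option autoImplicit false
set_option linter.unusedSectionVars false
set_option linter.unusedVariables false
set_option linter.style.longLine false
set_option synthInstance.maxHeartbeats 400000
set_option maxHeartbeats 1000000

open HahnSeries ModularCurve IntermediateField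

noncomputable section

namespace Fermat.Agent.MP.FUNC.GaussDeg1

open Fermat.Agent.X0 Fermat.Agent.RED.Interface4
  Fermat.Agent.ES.RED.ChartIntegralA1
  Fermat.Agent.ORD.IFACEN.GaussBad1 Fermat.Agent.ORD.IFACEN.SideOne1
  Fermat.Agent.ORD.IFACEN.SideTwo1 Fermat.Agent.ORD.IFACEN.GlueTwoN9
  Fermat.Agent.ES.N34.FrickeFK8 Fermat.Agent.MP.FUNC.FrickeDeg1

/-- fast instance (the canonical search costs seconds). -/
local instance (priority := 100000) algKFg (A : ValuationSubring Qbar) (M : ℕ) [NeZero M] :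
    Algebra (kA A) ↥(modularFunctionFieldFullC (kA A) M) := inferInstance

variable (p : ℕ) [Fact p.Prime] (A : ValuationSubring Qbar) (hA : A.LiesOverPrime p)

/-- **an operation on `q`-expansions defined over `A`** : `TQ` over `ℚbar`, `Tk` over the residue
field, both induced by an operation `TA` over `A`. -/
def SeriesOp (TQ : LaurentSeries Qbar →+* LaurentSeries Qbar)
    (Tk : LaurentSeries (kA A) →+* LaurentSeries (kA A)) : Prop :=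
  ∃ TA : LaurentSeries ↥A →+* LaurentSeries ↥A,
    (∀ Y, coeffMap A.subtype (TA Y) = TQ (coeffMap A.subtype Y)) ∧
    (∀ Y, coeffMap (IsLocalRing.residue ↥A) (TA Y) = Tk (coeffMap (IsLocalRing.residue ↥A) Y))

theorem seriesOp_id : SeriesOp A (RingHom.id _) (RingHom.id _) :=
  ⟨RingHom.id _, fun _ => rfl, fun _ => rfl⟩

theorem seriesOp_qExpand (ℓ : ℕ) [NeZero ℓ] :
    SeriesOp A (qExpand Qbar ℓ) (qExpand (kA A) ℓ) :=
  ⟨qExpand ↥A ℓ, fun Y => ModularCurve.coeffMap_qExpand _ ℓ Y,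
    fun Y => ModularCurve.coeffMap_qExpand _ ℓ Y⟩

variable {M₁ M₂ : ℕ} [NeZero M₁] [NeZero M₂] (hpM₁ : ¬ p ∣ M₁) (h4₁ : 4 ∣ M₁) (hpM₂ : ¬ p ∣ M₂)
  (h4₂ : 4 ∣ M₂)

section Transport

variable {A} {TQ : LaurentSeries Qbar →+* LaurentSeries Qbar}
  {Tk : LaurentSeries (kA A) →+* LaurentSeries (kA A)}
  (φ : ↥(Fbar (M₁ * p)) →+* ↥(Fbar (M₂ * p)))
  (φbar : ↥(modularFunctionFieldFullC (kA A) M₁) →+* ↥(modularFunctionFieldFullC (kA A) M₂))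

/-- `A`-integral `q`-expansions go to `A`-integral `q`-expansions, compatibly with the reduction of
the coefficients. -/
theorem intF_transport (S : SeriesOp A TQ Tk)
    (hφ : ∀ x, ((φ x : ↥(Fbar (M₂ * p))) : LaurentSeries Qbar) = TQ (x : LaurentSeries Qbar))
    (hbar : ∀ f, ((φbar f : ↥(modularFunctionFieldFullC (kA A) M₂)) : LaurentSeries (kA A)) =
      Tk (f : LaurentSeries (kA A)))
    (y : intF A (M₁ * p)) :
    ∃ h : φ (y : ↥(Fbar (M₁ * p))) ∈ intF A (M₂ * p),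
      redB p M₂ A hA hpM₂ h4₂ ⟨_, h⟩ = φbar (redB p M₁ A hA hpM₁ h4₁ y) := by
  obtain ⟨TA, h1, h2⟩ := S
  have e : coeffMap A.subtype (TA (seriesHom A (M₁ * p) y)) =
      ((φ (y : ↥(Fbar (M₁ * p))) : ↥(Fbar (M₂ * p))) : LaurentSeries Qbar) := by
    rw [h1, coeffMap_seriesHom, hφ]
  have hmem : φ (y : ↥(Fbar (M₁ * p))) ∈ intF A (M₂ * p) := ⟨_, e⟩
  refine ⟨hmem, Subtype.ext ?_⟩
  rw [coe_redB_eq_of p M₂ hA hpM₂ h4₂ (y := ⟨_, hmem⟩) e, h2, hbar, coe_redB]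

/-- **transport of the Gauss ring of the component through `∞`.** -/
theorem G1_transport
    (hint : ∀ y : intF A (M₁ * p), ∃ h : φ (y : ↥(Fbar (M₁ * p))) ∈ intF A (M₂ * p),
      redB p M₂ A hA hpM₂ h4₂ ⟨_, h⟩ = φbar (redB p M₁ A hA hpM₁ h4₁ y))
    (g : ↥(G1 p M₁ A hA hpM₁ h4₁)) :
    ∃ h : φ (g : ↥(Fbar (M₁ * p))) ∈ G1 p M₂ A hA hpM₂ h4₂,
      red1 p M₂ A hA hpM₂ h4₂ ⟨_, h⟩ = φbar (red1 p M₁ A hA hpM₁ h4₁ g) := by
  obtain ⟨a, b, hb, e⟩ := (mem_G1_iff p M₁ A hA hpM₁ h4₁ _).mp g.2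
  obtain ⟨ha', hra⟩ := hint a
  obtain ⟨hb', hrb⟩ := hint b
  have hb2 : redB p M₂ A hA hpM₂ h4₂ ⟨_, hb'⟩ ≠ 0 := by
    rw [hrb]
    exact (map_ne_zero φbar).mpr hb
  have rel : φ (g : ↥(Fbar (M₁ * p))) * ((⟨_, hb'⟩ : intF A (M₂ * p)) : ↥(Fbar (M₂ * p))) =
      ((⟨_, ha'⟩ : intF A (M₂ * p)) : ↥(Fbar (M₂ * p))) := by
    show φ _ * φ _ = φ _
    rw [← map_mul, e]
  have hmem : φ (g : ↥(Fbar (M₁ * p))) ∈ G1 p M₂ A hA hpM₂ h4₂ :=
    (mem_G1_iff p M₂ A hA hpM₂ h4₂ _).mpr ⟨⟨_, ha'⟩, ⟨_, hb'⟩, hb2, rel⟩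
  refine ⟨hmem, ?_⟩
  rw [red1_eq p M₂ A hA hpM₂ h4₂ ⟨_, hmem⟩ hb2 rel, hra, hrb,
    red1_eq p M₁ A hA hpM₁ h4₁ g hb e, map_div₀]

/-- **transport of the Gauss ring of the component through the cusp `0`**, through a Fricke
partner. -/
theorem G2_transport (ψ : ↥(Fbar (M₁ * p)) →+* ↥(Fbar (M₂ * p)))
    (hfr : ∀ y, frickeBar (M₂ * p) (φ y) = ψ (frickeBar (M₁ * p) y))
    (hψ : ∀ g : ↥(G1 p M₁ A hA hpM₁ h4₁),
      ∃ h : ψ (g : ↥(Fbar (M₁ * p))) ∈ G1 p M₂ A hA hpM₂ h4₂,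
        red1 p M₂ A hA hpM₂ h4₂ ⟨_, h⟩ = φbar (red1 p M₁ A hA hpM₁ h4₁ g))
    (g : ↥(side2 p M₁ A hA hpM₁ h4₁).G) :
    ∃ h : φ (g : ↥(Fbar (M₁ * p))) ∈ (side2 p M₂ A hA hpM₂ h4₂).G,
      (side2 p M₂ A hA hpM₂ h4₂).red ⟨_, h⟩ = φbar ((side2 p M₁ A hA hpM₁ h4₁).red g) := by
  obtain ⟨g, hg⟩ := g
  have hg1 := (mem_side2_iff p M₁ A hA hpM₁ h4₁ _).mp hg
  obtain ⟨h, hr⟩ := hψ ⟨_, hg1⟩
  have hmem : φ g ∈ (side2 p M₂ A hA hpM₂ h4₂).G :=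
    (mem_side2_iff p M₂ A hA hpM₂ h4₂ _).mpr (by rw [hfr]; exact h)
  refine ⟨hmem, ?_⟩
  rw [side2_red_eq p M₂ A hA hpM₂ h4₂ _ hmem, side2_red_eq p M₁ A hA hpM₁ h4₁ _ hg, ← hr]
  congr 1
  exact Subtype.ext (hfr _)

end Transport

/-! ### the maps on the special fibres -/

section Residue

variable (k : Type*) [Field k] {M₁ M₂ : ℕ} [NeZero M₁] [NeZero M₂]

/-- the inclusion `k · F̃_{M₁} → k · F̃_{M₂}` for `M₁ ∣ M₂`. -/
def inclC (h : M₁ ∣ M₂) :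
    ↥(modularFunctionFieldFullC k M₁) →+* ↥(modularFunctionFieldFullC k M₂) :=
  (IntermediateField.inclusion (full_degeneracyC_le k h)).toRingHom

theorem coe_inclC (h : M₁ ∣ M₂) (f : ↥(modularFunctionFieldFullC k M₁)) :
    ((inclC k h f : ↥(modularFunctionFieldFullC k M₂)) : LaurentSeries k) =
      (f : LaurentSeries k) := by
  show ((IntermediateField.inclusion (full_degeneracyC_le k h) f :
    ↥(modularFunctionFieldFullC k M₂)) : LaurentSeries k) = _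
  exact IntermediateField.coe_inclusion _ f

theorem qExpand_mem_fullC (ℓ : ℕ) [NeZero ℓ] (h : M₁ * ℓ ∣ M₂)
    (f : ↥(modularFunctionFieldFullC k M₁)) :
    qExpand k ℓ (f : LaurentSeries k) ∈ modularFunctionFieldFullC k M₂ := by
  have : NeZero (M₁ * ℓ) := ⟨Nat.mul_ne_zero (NeZero.ne M₁) (NeZero.ne ℓ)⟩
  apply full_degeneracyC_le k h
  apply full_degeneracyC_map_le k M₁ ℓ
  exact ⟨f, f.2, rfl⟩

/-- `q ↦ q^ℓ` : `k · F̃_{M₁} → k · F̃_{M₂}` for `M₁ ℓ ∣ M₂`. -/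
def qexpC (ℓ : ℕ) [NeZero ℓ] (h : M₁ * ℓ ∣ M₂) :
    ↥(modularFunctionFieldFullC k M₁) →+* ↥(modularFunctionFieldFullC k M₂) :=
  ((qExpand k ℓ).comp (modularFunctionFieldFullC k M₁).val.toRingHom).codRestrict
    (modularFunctionFieldFullC k M₂) (fun f => qExpand_mem_fullC k ℓ h f)

theorem coe_qexpC (ℓ : ℕ) [NeZero ℓ] (h : M₁ * ℓ ∣ M₂)
    (f : ↥(modularFunctionFieldFullC k M₁)) :
    ((qexpC k ℓ h f : ↥(modularFunctionFieldFullC k M₂)) : LaurentSeries k) =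
      qExpand k ℓ (f : LaurentSeries k) := rfl

end Residue

/-! ### the degeneracy maps -/

section Degeneracy

variable {A} {ℓ : ℕ} [NeZero ℓ] (hM : M₁ * ℓ = M₂)
  {φ ψ : ↥(Fbar (M₁ * p)) →ₐ[Qbar] ↥(Fbar (M₂ * p))}
  (hφ : IsAlpha (N₁ := M₁ * p) (N₂ := M₂ * p) φ)
  (hψ : IsBeta (N₁ := M₁ * p) (N₂ := M₂ * p) ℓ ψ)

include hφ in
/-- `α` on the component through `∞`. -/
theorem alpha_G1 (g : ↥(G1 p M₁ A hA hpM₁ h4₁)) :
    ∃ h : φ (g : ↥(Fbar (M₁ * p))) ∈ G1 p M₂ A hA hpM₂ h4₂,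
      red1 p M₂ A hA hpM₂ h4₂ ⟨_, h⟩ =
        inclC (kA A) (Dvd.intro _ hM) (red1 p M₁ A hA hpM₁ h4₁ g) :=
  G1_transport p hA hpM₁ h4₁ hpM₂ h4₂ φ.toRingHom _
    (intF_transport p hA hpM₁ h4₁ hpM₂ h4₂ φ.toRingHom _ (seriesOp_id A) hφ
      (fun f => coe_inclC (kA A) _ f)) g

include hψ in
/-- `β_ℓ` on the component through `∞`. -/
theorem beta_G1 (g : ↥(G1 p M₁ A hA hpM₁ h4₁)) :
    ∃ h : ψ (g : ↥(Fbar (M₁ * p))) ∈ G1 p M₂ A hA hpM₂ h4₂,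
      red1 p M₂ A hA hpM₂ h4₂ ⟨_, h⟩ =
        qexpC (kA A) ℓ (dvd_of_eq hM) (red1 p M₁ A hA hpM₁ h4₁ g) :=
  G1_transport p hA hpM₁ h4₁ hpM₂ h4₂ ψ.toRingHom _
    (intF_transport p hA hpM₁ h4₁ hpM₂ h4₂ ψ.toRingHom _ (seriesOp_qExpand A ℓ) hψ
      (fun f => coe_qexpC (kA A) ℓ _ f)) g

include hφ hψ in
/-- `α` on the component through the cusp `0`. -/
theorem alpha_G2 (g : ↥(side2 p M₁ A hA hpM₁ h4₁).G) :
    ∃ h : φ (g : ↥(Fbar (M₁ * p))) ∈ (side2 p M₂ A hA hpM₂ h4₂).G,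
      (side2 p M₂ A hA hpM₂ h4₂).red ⟨_, h⟩ =
        qexpC (kA A) ℓ (dvd_of_eq hM) ((side2 p M₁ A hA hpM₁ h4₁).red g) :=
  G2_transport p hA hpM₁ h4₁ hpM₂ h4₂ φ.toRingHom _ ψ.toRingHom
    (fun y => fricke_alpha (by rw [← hM]; ring) hφ hψ y)
    (beta_G1 p hA hpM₁ h4₁ hpM₂ h4₂ hM hψ) g

include hφ hψ in
/-- `β_ℓ` on the component through the cusp `0`. -/
theorem beta_G2 (g : ↥(side2 p M₁ A hA hpM₁ h4₁).G) :
    ∃ h : ψ (g : ↥(Fbar (M₁ * p))) ∈ (side2 p M₂ A hA hpM₂ h4₂).G,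
      (side2 p M₂ A hA hpM₂ h4₂).red ⟨_, h⟩ =
        inclC (kA A) (Dvd.intro _ hM) ((side2 p M₁ A hA hpM₁ h4₁).red g) :=
  G2_transport p hA hpM₁ h4₁ hpM₂ h4₂ ψ.toRingHom _ φ.toRingHom
    (fun y => fricke_beta (by rw [← hM]; ring) hφ hψ y)
    (alpha_G1 p hA hpM₁ h4₁ hpM₂ h4₂ hM hφ) g

end Degeneracy

end Fermat.Agent.MP.FUNC.GaussDeg1
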