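/-
PROGRAMME MP (row 38 via S44), chapter FUNC (helper1): **LAYER 3 — the degeneracy maps `α`, `β_ℓ`
(`ℓ` an odd prime, `ℓ ≠ p`) and the Hecke operator `T_ℓ` respect the kernel of reduction of the
semistable datum `MainDatum6.datum` of `X₀(M p)` along `padicPlace p`.**

Levels : `M₁`, `M₂ = M₁ * ℓ`, both divisible by `4` and prime to `p`; `φ ψ : Fbar (M₁ p) → Fbar (M₂ p)` ARBITRARY
`ℚbar`-algebra maps with `IsAlpha φ` (`q`-expansions preserved) and `IsBeta ℓ ψ` (`q ↦ q^ℓ`).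

* `pts hpM h4 hp2` : the two-chart data of `MainDatum6` (`datum_eq : MainDatum6.datum … = PtsMap1.datum (pts …)`, `rfl`);
* `chartHyp_alpha`, `chartHyp_beta` : (H1) (`φ t = t`; `ψ t = t(q^ℓ)` : `ChartBeta1`);
* `gaussHyp_alpha`, `gaussHyp_beta` : (H2) (`GaussDeg1`), `cmap = id`,
  `φbar = ![inclC, qexpC]` for `α`, `![qexpC, inclC]` for `β`;
* **`alphaPush_mem_kerRed`, `alphaPull_mem_kerRed`, `betaPush_mem_kerRed`, `betaPull_mem_kerRed`**;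
* **`corr_mem_kerRed`** : `Pic0.correspondence ψ φ` (= `φ_* ψ^*`) and `Pic0.correspondence φ ψ`
  (`corr_mem_kerRed'`) preserve `kerRed (datum M₁)`, for maps into `Fbar N'`, `N' = M₂ * p`;
* **`heckeT_mem_kerRed`** : the Prelude's `heckePic0Bar` (`T_ℓ` on `J₀(M₁ p)`) preserves
  `kerRed (MainDatum6.datum hpM₁ h4₁ hp2)`; `heckeT_transpose_mem_kerRed`.
-/
import Mathlib
import Fermat.Agent.MP.FUNC.PtsMap1
import Fermat.Agent.MP.FUNC.GaussDeg1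
import Fermat.Agent.MP.FUNC.ChartBeta1
import Fermat.Agent.MP.FINAL.MainDatum6

set_option autoImplicit false
set_option linter.unusedSectionVars false
set_option linter.unusedVariables false
set_option linter.style.longLine false
set_option synthInstance.maxHeartbeats 400000
set_option maxHeartbeats 1000000

open AlgebraicCurve ModularCurve IntermediateField

noncomputable section

namespace Fermat.Agent.MP.FUNC.HeckeKer1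

open Fermat.Agent.X0 Fermat.Agent.X0.FF Fermat.Agent.RR.LSpace Fermat.Agent.RED.Interface4
  Fermat.Agent.ES.RED.ChartIntegralA1
  Fermat.Agent.RED.PUR.ChartGeneric22
  Fermat.Agent.RED.BASE.Interface12 Fermat.Agent.RED.BASE.EtaQuot12
  Fermat.Agent.ORD.ANN.Side3
  Fermat.Agent.ORD.SEMIRED Fermat.Agent.ORD.KERN Fermat.Agent.ORD.KERN.KerN9
  Fermat.Agent.ORD.IFACEN.GaussBad1 Fermat.Agent.ORD.IFACEN.SideOne1
  Fermat.Agent.ORD.IFACEN.SideTwo1 Fermat.Agent.ORD.IFACEN.GlueTwoN9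
  Fermat.Agent.ORD.IFACEN.ChartOne1 Fermat.Agent.ORD.IFACEN.ChartTwo1
  Fermat.Agent.ORD.IFACEN.PtsAssembly3 Fermat.Agent.ORD.IFACEN.TwoCompAssembly3
  Fermat.Agent.ORD.IFACEN.TwoCompInst6
  Fermat.Agent.ORD.FINAL.LevelOrd0
  Fermat.Agent.FF.BASE.Place2
  Fermat.Agent.ES.N34.FrickeFK8 Fermat.Agent.ES.N35.PushO12 Fermat.Agent.ES.HECKE.LevelPullback12
  Fermat.Agent.MP.FINAL
  Fermat.Agent.MP.FUNC.FrickeDeg1 Fermat.Agent.MP.FUNC.GaussDeg1 Fermat.Agent.MP.FUNC.PtsMap1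

/-- fast instance (the canonical search costs seconds). -/
local instance (priority := 100000) algKFh (A : ValuationSubring Qbar) (M : ℕ) [NeZero M] :
    Algebra (kA A) ↥(modularFunctionFieldFullC (kA A) M) := inferInstance

variable {p : ℕ} [Fact p.Prime]

/-- **the two-chart data of the model of `X₀(M p)` along `padicPlace p`** (that of `MainDatum6`). -/
abbrev pts {M : ℕ} [NeZero M] (hpM : ¬ p ∣ M) (h4 : 4 ∣ M) (hp2 : p ≠ 2) :=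
  (MainDatum6.hypMain hpM h4 hp2).ptsData (lHyp_bad (M * p))
    (lHyp_good p M (padicPlace p) (liesOverPrime (ℓ := p)) hpM h4)

theorem datum_eq {M : ℕ} [NeZero M] (hpM : ¬ p ∣ M) (h4 : 4 ∣ M) (hp2 : p ≠ 2) :
    MainDatum6.datum hpM h4 hp2 = PtsMap1.datum (pts hpM h4 hp2) := rfl

variable {M₁ M₂ : ℕ} [NeZero M₁] [NeZero M₂] (hpM₁ : ¬ p ∣ M₁) (h4₁ : 4 ∣ M₁) (hpM₂ : ¬ p ∣ M₂)
  (h4₂ : 4 ∣ M₂) (hp2 : p ≠ 2)
  {φ ψ : ↥(Fbar (M₁ * p)) →ₐ[Qbar] ↥(Fbar (M₂ * p))}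
  {ℓ : ℕ} [NeZero ℓ]

/-! ### (H1) -/

theorem coe_tB {M : ℕ} [NeZero M] (h4 : 4 ∣ M) :
    ((tB p M h4 : ↥(Fbar (M * p))) : LaurentSeries Qbar) = tq Qbar 4 8 := rfl

/-- (H1) for `α` : `α t = t`. -/
theorem chartHyp_alpha (hφ : IsAlpha (N₁ := M₁ * p) (N₂ := M₂ * p) φ) :
    ChartHyp (pts hpM₁ h4₁ hp2) (pts hpM₂ h4₂ hp2) φ := by
  have e : φ (tB p M₁ h4₁) = tB p M₂ h4₂ :=
    Subtype.ext ((hφ _).trans ((coe_tB h4₁).trans (coe_tB h4₂).symm))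
  refine ChartHyp.of_mem (fun z hz => chart_intcl _ z hz) (fun z hz => chart_intcl _ z hz) ?_ ?_
  · show φ (tB p M₁ h4₁) ∈ chart ↥(padicPlace p) (tB p M₂ h4₂)
    rw [e]
    exact self_mem_chart _
  · show (φ (tB p M₁ h4₁))⁻¹ ∈ chart ↥(padicPlace p) (tB p M₂ h4₂)⁻¹
    rw [e]
    exact self_mem_chart _

/-- (H1) for `β_ℓ` : `β t = t(q^ℓ)` is integral on the chart `t ≠ ∞` and its inverse on the chart `t ≠ 0`. -/
theorem chartHyp_beta (hℓ : ℓ.Prime) (hℓ4 : ¬ ℓ ∣ 4) (hM : M₁ * ℓ = M₂)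
    (hψ : IsBeta (N₁ := M₁ * p) (N₂ := M₂ * p) ℓ ψ) :
    ChartHyp (pts hpM₁ h4₁ hp2) (pts hpM₂ h4₂ hp2) ψ := by
  subst hM
  obtain ⟨h0, h1⟩ := Fermat.Agent.MP.FUNC.ChartBeta1.beta_t_mem_charts p M₁ ℓ (padicPlace p)
    (liesOverPrime (ℓ := p)) hpM₁ h4₁ hℓ hℓ4
    (Fermat.Agent.ORD.FINAL.FinalOrd6.modelInput hpM₂ h4₂ hp2) h4₂ (ψ (tB p M₁ h4₁))
    ((hψ _).trans (congrArg (qExpand Qbar ℓ) (coe_tB h4₁)))
  exact ChartHyp.of_mem (fun z hz => chart_intcl _ z hz) (fun z hz => chart_intcl _ z hz) h0 h1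

/-! ### (H2) -/

/-- (H2) for `α`. -/
theorem gaussHyp_alpha (hM : M₁ * ℓ = M₂) (hφ : IsAlpha (N₁ := M₁ * p) (N₂ := M₂ * p) φ)
    (hψ : IsBeta (N₁ := M₁ * p) (N₂ := M₂ * p) ℓ ψ) :
    GaussHyp (pts hpM₁ h4₁ hp2) (pts hpM₂ h4₂ hp2) φ id
      ![inclC (kA (padicPlace p)) (Dvd.intro _ hM), qexpC (kA (padicPlace p)) ℓ (dvd_of_eq hM)] where
  inj := Function.injective_id
  map := by
    intro v₂ g
    fin_cases v₂
    · exact alpha_G1 p (liesOverPrime (ℓ := p)) hpM₁ h4₁ hpM₂ h4₂ hM hφ g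
    · exact alpha_G2 p (liesOverPrime (ℓ := p)) hpM₁ h4₁ hpM₂ h4₂ hM hφ hψ g

/-- (H2) for `β_ℓ`. -/
theorem gaussHyp_beta (hM : M₁ * ℓ = M₂) (hφ : IsAlpha (N₁ := M₁ * p) (N₂ := M₂ * p) φ)
    (hψ : IsBeta (N₁ := M₁ * p) (N₂ := M₂ * p) ℓ ψ) :
    GaussHyp (pts hpM₁ h4₁ hp2) (pts hpM₂ h4₂ hp2) ψ id
      ![qexpC (kA (padicPlace p)) ℓ (dvd_of_eq hM), inclC (kA (padicPlace p)) (Dvd.intro _ hM)] where
  inj := Function.injective_id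
  map := by
    intro v₂ g
    fin_cases v₂
    · exact beta_G1 p (liesOverPrime (ℓ := p)) hpM₁ h4₁ hpM₂ h4₂ hM hψ g
    · exact beta_G2 p (liesOverPrime (ℓ := p)) hpM₁ h4₁ hpM₂ h4₂ hM hφ hψ g

/-! ### the kernels of reduction -/

/-- a (junk) default value for the map on the closed points. -/
def dflt : Fin 2 × Place (kA (padicPlace p)) ↥(modularFunctionFieldFullC (kA (padicPlace p)) M₁) :=
  (0, (pts hpM₁ h4₁ hp2).Qs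
    (Classical.choice (nonempty_edges (pts hpM₁ h4₁ hp2).toAssemblyData)))

theorem inertia_one {N N' : ℕ} [NeZero N] [NeZero N'] (χ : ↥(Fbar N) →ₐ[Qbar] ↥(Fbar N'))
    (hχ : χ.toRingHom.IsIntegral) (w : Place Qbar ↥(Fbar N')) : w.inertiaDegAlong χ hχ = 1 :=
  Fermat.Agent.ES.HECKE.PointFormula28.inertiaDegAlong_eq_one χ hχ w
    (Fermat.Agent.RED.TOP.FbarFacts20.deg_eq_one_bar N' w)

section Maps

variable (hℓ : ℓ.Prime) (hℓ4 : ¬ ℓ ∣ 4) (hM : M₁ * ℓ = M₂)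
  (hφ : IsAlpha (N₁ := M₁ * p) (N₂ := M₂ * p) φ) (hψ : IsBeta (N₁ := M₁ * p) (N₂ := M₂ * p) ℓ ψ)

include hM hφ hψ in
/-- **`α_*` maps `kerRed` of level `M₂ p` into `kerRed` of level `M₁ p`.** -/
theorem alphaPush_mem_kerRed (hint : φ.toRingHom.IsIntegral) (hfin : FiniteAlong Qbar φ)
    (hN : NormFormulaAlong Qbar φ hfin) {x : Pic0 Qbar ↥(Fbar (M₂ * p))}
    (hx : x ∈ kerRed (MainDatum6.datum hpM₂ h4₂ hp2)) :
    pic0PushAlong φ hint hfin hN x ∈ kerRed (MainDatum6.datum hpM₁ h4₁ hp2) :=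
  pic0Push_mem_kerRed_of_hyp (chartHyp_alpha hpM₁ h4₁ hpM₂ h4₂ hp2 hφ)
    (gaussHyp_alpha hpM₁ h4₁ hpM₂ h4₂ hp2 hM hφ hψ) hint (dflt hpM₁ h4₁ hp2)
    (inertia_one φ hint) hfin hN hx

include hM hφ hψ in
/-- **`α^*` maps `kerRed` of level `M₁ p` into `kerRed` of level `M₂ p`.** -/
theorem alphaPull_mem_kerRed [HasPrincipalDivisors Qbar ↥(Fbar (M₂ * p))]
    (hint : φ.toRingHom.IsIntegral) (hFI : FundamentalIdentityAlong Qbar φ hint)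
    {x : Pic0 Qbar ↥(Fbar (M₁ * p))} (hx : x ∈ kerRed (MainDatum6.datum hpM₁ h4₁ hp2)) :
    pic0PullbackAlong φ hint hFI x ∈ kerRed (MainDatum6.datum hpM₂ h4₂ hp2) :=
  pic0Pull_mem_kerRed_of_hyp (chartHyp_alpha hpM₁ h4₁ hpM₂ h4₂ hp2 hφ)
    (gaussHyp_alpha hpM₁ h4₁ hpM₂ h4₂ hp2 hM hφ hψ) hint (dflt hpM₁ h4₁ hp2) hFI hx

include hℓ hℓ4 hM hφ hψ in
/-- **`(β_ℓ)_*` maps `kerRed` of level `M₂ p` into `kerRed` of level `M₁ p`.** -/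
theorem betaPush_mem_kerRed (hint : ψ.toRingHom.IsIntegral) (hfin : FiniteAlong Qbar ψ)
    (hN : NormFormulaAlong Qbar ψ hfin) {x : Pic0 Qbar ↥(Fbar (M₂ * p))}
    (hx : x ∈ kerRed (MainDatum6.datum hpM₂ h4₂ hp2)) :
    pic0PushAlong ψ hint hfin hN x ∈ kerRed (MainDatum6.datum hpM₁ h4₁ hp2) :=
  pic0Push_mem_kerRed_of_hyp (chartHyp_beta hpM₁ h4₁ hpM₂ h4₂ hp2 hℓ hℓ4 hM hψ)
    (gaussHyp_beta hpM₁ h4₁ hpM₂ h4₂ hp2 hM hφ hψ) hint (dflt hpM₁ h4₁ hp2)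
    (inertia_one ψ hint) hfin hN hx

include hℓ hℓ4 hM hφ hψ in
/-- **`β_ℓ^*` maps `kerRed` of level `M₁ p` into `kerRed` of level `M₂ p`.** -/
theorem betaPull_mem_kerRed [HasPrincipalDivisors Qbar ↥(Fbar (M₂ * p))]
    (hint : ψ.toRingHom.IsIntegral) (hFI : FundamentalIdentityAlong Qbar ψ hint)
    {x : Pic0 Qbar ↥(Fbar (M₁ * p))} (hx : x ∈ kerRed (MainDatum6.datum hpM₁ h4₁ hp2)) :
    pic0PullbackAlong ψ hint hFI x ∈ kerRed (MainDatum6.datum hpM₂ h4₂ hp2) :=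
  pic0Pull_mem_kerRed_of_hyp (chartHyp_beta hpM₁ h4₁ hpM₂ h4₂ hp2 hℓ hℓ4 hM hψ)
    (gaussHyp_beta hpM₁ h4₁ hpM₂ h4₂ hp2 hM hφ hψ) hint (dflt hpM₁ h4₁ hp2) hFI hx

end Maps

/-! ### correspondences -/

section Corr

variable {K F F' : Type*} [Field K] [Field F] [Field F'] [Algebra K F] [Algebra K F']
  [HasPrincipalDivisors K F']

/-- a correspondence on `Pic⁰` is a pull-back followed by a push-forward. -/
theorem correspondence_eq (χ₁ χ₂ : F →ₐ[K] F') (h₁ : χ₁.toRingHom.IsIntegral)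
    (h₂ : χ₂.toRingHom.IsIntegral) (hFI : FundamentalIdentityAlong K χ₁ h₁)
    (hfin : FiniteAlong K χ₂) (hN : NormFormulaAlong K χ₂ hfin) (x : Pic0 K F) :
    Pic0.correspondence χ₁ χ₂ h₁ h₂ hFI hfin hN x =
      pic0PushAlong χ₂ h₂ hfin hN (pic0PullbackAlong χ₁ h₁ hFI x) := by
  obtain ⟨D, rfl⟩ := QuotientAddGroup.mk_surjective x
  rfl

end Corr

section CorrKer

variable (hℓ : ℓ.Prime) (hℓ4 : ¬ ℓ ∣ 4) (hM : M₁ * ℓ = M₂)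

include hpM₂ h4₂ hℓ hℓ4 hM in
/-- **`α_* β_ℓ^*` preserves the kernel of reduction** (maps into `Fbar N'`, `N' = M₂ p`). -/
theorem corr_mem_kerRed {N' : ℕ} [NeZero N'] (e : M₂ * p = N')
    {φ' ψ' : ↥(Fbar (M₁ * p)) →ₐ[Qbar] ↥(Fbar N')}
    (hφ : IsAlpha (N₁ := M₁ * p) (N₂ := N') φ') (hψ : IsBeta (N₁ := M₁ * p) (N₂ := N') ℓ ψ')
    [HasPrincipalDivisors Qbar ↥(Fbar N')]
    (hφi : φ'.toRingHom.IsIntegral) (hψi : ψ'.toRingHom.IsIntegral)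
    (hFI : FundamentalIdentityAlong Qbar ψ' hψi) (hfin : FiniteAlong Qbar φ')
    (hN : NormFormulaAlong Qbar φ' hfin) {x : Pic0 Qbar ↥(Fbar (M₁ * p))}
    (hx : x ∈ kerRed (MainDatum6.datum hpM₁ h4₁ hp2)) :
    Pic0.correspondence ψ' φ' hψi hφi hFI hfin hN x ∈ kerRed (MainDatum6.datum hpM₁ h4₁ hp2) := by
  subst e
  rw [correspondence_eq]
  exact alphaPush_mem_kerRed hpM₁ h4₁ hpM₂ h4₂ hp2 hM hφ hψ hφi hfin hN
    (betaPull_mem_kerRed hpM₁ h4₁ hpM₂ h4₂ hp2 hℓ hℓ4 hM hφ hψ hψi hFI hx)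

include hpM₂ h4₂ hℓ hℓ4 hM in
/-- **`(β_ℓ)_* α^*` preserves the kernel of reduction.** -/
theorem corr_mem_kerRed' {N' : ℕ} [NeZero N'] (e : M₂ * p = N')
    {φ' ψ' : ↥(Fbar (M₁ * p)) →ₐ[Qbar] ↥(Fbar N')}
    (hφ : IsAlpha (N₁ := M₁ * p) (N₂ := N') φ') (hψ : IsBeta (N₁ := M₁ * p) (N₂ := N') ℓ ψ')
    [HasPrincipalDivisors Qbar ↥(Fbar N')]
    (hφi : φ'.toRingHom.IsIntegral) (hψi : ψ'.toRingHom.IsIntegral)
    (hFI : FundamentalIdentityAlong Qbar φ' hφi) (hfin : FiniteAlong Qbar ψ')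
    (hN : NormFormulaAlong Qbar ψ' hfin) {x : Pic0 Qbar ↥(Fbar (M₁ * p))}
    (hx : x ∈ kerRed (MainDatum6.datum hpM₁ h4₁ hp2)) :
    Pic0.correspondence φ' ψ' hφi hψi hFI hfin hN x ∈ kerRed (MainDatum6.datum hpM₁ h4₁ hp2) := by
  subst e
  rw [correspondence_eq]
  exact betaPush_mem_kerRed hpM₁ h4₁ hpM₂ h4₂ hp2 hℓ hℓ4 hM hφ hψ hψi hfin hN
    (alphaPull_mem_kerRed hpM₁ h4₁ hpM₂ h4₂ hp2 hM hφ hψ hφi hFI hx)

end CorrKer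

/-! ### the Hecke operator `T_ℓ` of the Prelude -/

section Hecke

variable (hℓ : ℓ.Prime) (hℓ4 : ¬ ℓ ∣ 4) (hpℓ : ¬ p ∣ M₁ * ℓ)

include hℓ hℓ4 hpℓ in
/-- **`T_ℓ` (the Prelude's `heckePic0Bar` at the level `M₁ p`, `ℓ` an odd prime, `p ∤ M₁ ℓ`) preserves
the kernel of reduction of `MainDatum6.datum hpM₁ h4₁ hp2`.** -/
theorem heckeT_mem_kerRed
    (hα : HeckeAlphaBarIntegral Qbar (M₁ * p) ℓ) (hβ : HeckeBetaBarIntegral Qbar (M₁ * p) ℓ)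
    [HasPrincipalDivisors Qbar ↥(Fbar (M₁ * p * ℓ))]
    (hFI : FundamentalIdentityAlong Qbar (heckeBetaBar Qbar (M₁ * p) ℓ) hβ)
    (hfin : FiniteAlong Qbar (heckeAlphaBar Qbar (M₁ * p) ℓ))
    (hN : NormFormulaAlong Qbar (heckeAlphaBar Qbar (M₁ * p) ℓ) hfin)
    {x : Pic0 Qbar ↥(Fbar (M₁ * p))} (hx : x ∈ kerRed (MainDatum6.datum hpM₁ h4₁ hp2)) :
    heckePic0Bar hα hβ hFI hfin hN x ∈ kerRed (MainDatum6.datum hpM₁ h4₁ hp2) :=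
  corr_mem_kerRed hpM₁ h4₁ hpℓ (Dvd.dvd.mul_right h4₁ ℓ) hp2 hℓ hℓ4 rfl
    (by ring : M₁ * ℓ * p = M₁ * p * ℓ)
    (isAlpha_heckeAlphaBar (M₁ * p) ℓ) (isBeta_heckeBetaBar (M₁ * p) ℓ) hα hβ hFI hfin hN hx

include hℓ hℓ4 hpℓ in
/-- the transpose `(β_ℓ)_* α^*` of `T_ℓ`. -/
theorem heckeT_transpose_mem_kerRed
    (hα : HeckeAlphaBarIntegral Qbar (M₁ * p) ℓ) (hβ : HeckeBetaBarIntegral Qbar (M₁ * p) ℓ)
    [HasPrincipalDivisors Qbar ↥(Fbar (M₁ * p * ℓ))]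
    (hFI : FundamentalIdentityAlong Qbar (heckeAlphaBar Qbar (M₁ * p) ℓ) hα)
    (hfin : FiniteAlong Qbar (heckeBetaBar Qbar (M₁ * p) ℓ))
    (hN : NormFormulaAlong Qbar (heckeBetaBar Qbar (M₁ * p) ℓ) hfin)
    {x : Pic0 Qbar ↥(Fbar (M₁ * p))} (hx : x ∈ kerRed (MainDatum6.datum hpM₁ h4₁ hp2)) :
    heckePic0BarTranspose hα hβ hFI hfin hN x ∈ kerRed (MainDatum6.datum hpM₁ h4₁ hp2) :=
  corr_mem_kerRed' hpM₁ h4₁ hpℓ (Dvd.dvd.mul_right h4₁ ℓ) hp2 hℓ hℓ4 rfl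
    (by ring : M₁ * ℓ * p = M₁ * p * ℓ)
    (isAlpha_heckeAlphaBar (M₁ * p) ℓ) (isBeta_heckeBetaBar (M₁ * p) ℓ) hα hβ hFI hfin hN hx

end Hecke

end Fermat.Agent.MP.FUNC.HeckeKer1
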