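/-
PROGRAMME MP (row 38 via S44), chapter FUNC (helper1): **functoriality of the kernel of reduction**.

Two semistable data `𝔻₁` on `F₁ / L`, `𝔻₂` on `F₂ / L` and a finite embedding `φ : F₁ →ₐ[L] F₂`
(a covering `X₂ → X₁`).  `SpecMap 𝔻₁ 𝔻₂ φ hφ ρ` : the specialisation maps are compatible,
`r₁ (P₂|F₁) = ρ (r₂ P₂)`, smooth discs go to smooth discs and annuli to annuli (the covering extends
to the models and the preimage of the nodes is the set of nodes).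

* `pushforward_*` : `φ_*` maps `kerRed 𝔻₂` into `kerRed 𝔻₁`  (needs only `SpecMap`);
* `pullback_*` : `φ^*` maps `kerRed 𝔻₁` into `kerRed 𝔻₂`, provided the number of points (with
  multiplicity) of a fibre of `φ` in a given smooth disc of `𝔻₂` does not depend on the point of the
  disc of `𝔻₁` (`Mult`);
* `mult_of_gauss` : `Mult` from the compatibility of the Gauss rings and reductions
  (`GaussMap` : `φ (G₁ v₁) ⊆ G₂ v₂`, `red₂ ∘ φ = φ̄ ∘ red₁`, `φ̄` maps units at `Q₁` to units at `Q₂`)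
  through the good uniformizers and the fibre-sum compatibility of the data.
-/
import Mathlib
import Fermat.Agent.ORD.KERN.KerN9
import Fermat.Agent.ES.N35.PushO12
import Fermat.Agent.ES.HECKE.LevelPullback12

set_option autoImplicit false
set_option linter.unusedSectionVars false
set_option linter.unusedVariables false
set_option linter.style.longLine false

namespace Fermat.Agent.MP.FUNC.KerMap1

open AlgebraicCurve Fermat.Agent.X0.FF Fermat.Agent.RR.LSpace Fermat.Agent.MW.EMB.Value6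
open Fermat.Agent.ORD.ANN.Side3 Fermat.Agent.ORD.ANN.Node3
open Fermat.Agent.ORD.SEMIRED.SemiRedDatum9
open Fermat.Agent.ORD.KERN.KerDefs9 Fermat.Agent.ORD.KERN.KerN9
open Fermat.Agent.ES.N35.PushO12 Fermat.Agent.ES.HECKE.LevelPullback12

noncomputable section

variable {L F₁ F₂ k Ft₁ Ft₂ : Type*} [Field L] [Field F₁] [Field F₂] [Algebra L F₁] [Algebra L F₂]
  [Field k] [Field Ft₁] [Field Ft₂] [Algebra k Ft₁] [Algebra k Ft₂]
variable {ι₁ E₁ ι₂ E₂ : Type*}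
variable (𝔻₁ : SemiRedDatum L F₁ k Ft₁ ι₁ E₁) (𝔻₂ : SemiRedDatum L F₂ k Ft₂ ι₂ E₂)
  (φ : F₁ →ₐ[L] F₂) (hφ : φ.toRingHom.IsIntegral)

/-- **compatibility of the specialisation maps** along `φ`. -/
structure SpecMap (ρ : Pts ι₂ E₂ k Ft₂ → Pts ι₁ E₁ k Ft₁) : Prop where
  r_restrict : ∀ P₂ : Place L F₂, 𝔻₁.r (P₂.restrictAlong φ hφ) = ρ (𝔻₂.r P₂)
  inl_inl : ∀ x, ∃ y, ρ (Sum.inl x) = Sum.inl y
  inr_inr : ∀ e, ∃ e', ρ (Sum.inr e) = Sum.inr e'

variable {𝔻₁ 𝔻₂ φ hφ} {ρ : Pts ι₂ E₂ k Ft₂ → Pts ι₁ E₁ k Ft₁}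

/-! ### push-forward -/

section Push

variable (hf : ∀ w : Place L F₂, w.inertiaDegAlong φ hφ = 1)

include hf in
/-- with all inertia degrees one the push-forward is `mapDomain` of the restriction of places. -/
theorem pushforwardAlong_eq_mapDomain (D : Divisor L F₂) :
    Divisor.pushforwardAlong φ hφ D = Finsupp.mapDomain (fun w => w.restrictAlong φ hφ) D := by
  induction D using Finsupp.induction_linear with
  | zero => rw [map_zero, Finsupp.mapDomain_zero]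
  | add D D' h h' => rw [map_add, Finsupp.mapDomain_add, h, h']
  | single w n =>
    rw [Divisor.pushforwardAlong_single, Finsupp.mapDomain_single, hf]
    simp

include hf in
theorem mapDomain_pushforwardAlong (h : SpecMap 𝔻₁ 𝔻₂ φ hφ ρ) (D : Divisor L F₂) :
    Finsupp.mapDomain 𝔻₁.r (Divisor.pushforwardAlong φ hφ D) =
      Finsupp.mapDomain ρ (Finsupp.mapDomain 𝔻₂.r D) := by
  rw [pushforwardAlong_eq_mapDomain hf, ← Finsupp.mapDomain_comp, ← Finsupp.mapDomain_comp]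
  congr 1
  funext w
  exact h.r_restrict w

include hf in
theorem offAnn_pushforwardAlong (h : SpecMap 𝔻₁ 𝔻₂ φ hφ ρ) {D : Divisor L F₂}
    (hD : OffAnn 𝔻₂ D) : OffAnn 𝔻₁ (Divisor.pushforwardAlong φ hφ D) := by
  classical
  intro P₁ e₁ he₁
  rw [pushforwardAlong_eq_mapDomain hf, CompDatum.mapDomain_apply_eq_sum]
  refine Finset.sum_eq_zero fun w hw => ?_
  have hw' : w.restrictAlong φ hφ = P₁ := (Finset.mem_filter.mp hw).2
  have h1 : ρ (𝔻₂.r w) = Sum.inr e₁ := by rw [← h.r_restrict w, hw', he₁]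
  rcases hr : 𝔻₂.r w with x | e₂
  · obtain ⟨y, hy⟩ := h.inl_inl x
    rw [hr, hy] at h1
    exact absurd h1 (by simp)
  · exact hD w e₂ hr

include hf in
/-- **`φ_*` maps the kernel of reduction into the kernel of reduction.** -/
theorem pic0Push_mem_kerRed (h : SpecMap 𝔻₁ 𝔻₂ φ hφ ρ) (hfin : FiniteAlong L φ)
    (hN : NormFormulaAlong L φ hfin) {x : Pic0 L F₂} (hx : x ∈ kerRed 𝔻₂) :
    pic0PushAlong φ hφ hfin hN x ∈ kerRed 𝔻₁ := by
  obtain ⟨D', hoff, hr, rfl⟩ := hx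
  refine ⟨degZeroPushAlong φ hφ D', ?_, ?_, (pic0PushAlong_mk φ hφ hfin hN D').symm⟩
  · rw [coe_degZeroPushAlong]
    exact offAnn_pushforwardAlong hf h hoff
  · rw [coe_degZeroPushAlong, mapDomain_pushforwardAlong hf h, hr, Finsupp.mapDomain_zero]

end Push

/-! ### pull-back -/

section Pull

variable [HasPrincipalDivisors L F₂]

/-- **constancy of the local multiplicities**: the number of points (with multiplicity) of the fibre
of `φ` over `P₁` lying in the disc `x₂` only depends on the disc of `P₁`. -/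
def Mult (𝔻₁ : SemiRedDatum L F₁ k Ft₁ ι₁ E₁) (𝔻₂ : SemiRedDatum L F₂ k Ft₂ ι₂ E₂)
    (φ : F₁ →ₐ[L] F₂) (hφ : φ.toRingHom.IsIntegral) (ρ : Pts ι₂ E₂ k Ft₂ → Pts ι₁ E₁ k Ft₁)
    (m : Pts ι₂ E₂ k Ft₂ → ℤ) : Prop :=
  ∀ (P₁ : Place L F₁) (x₂ : ι₂ × Place k Ft₂), 𝔻₁.r P₁ = ρ (Sum.inl x₂) →
    Finsupp.mapDomain 𝔻₂.r (Divisor.pullbackAlong φ hφ (Finsupp.single P₁ 1)) (Sum.inl x₂) =
      m (Sum.inl x₂)

theorem pullbackAlong_single_apply_of_ne {P₁ : Place L F₁} {w : Place L F₂}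
    (hw : w.restrictAlong φ hφ ≠ P₁) (n : ℤ) :
    Divisor.pullbackAlong φ hφ (Finsupp.single P₁ n) w = 0 := by
  rw [Divisor.pullbackAlong_apply, Finsupp.single_eq_of_ne hw, mul_zero]

open Classical in
theorem mapDomain_apply_eq_zero_of_forall {α β : Type*} (f : α → β) (v : α →₀ ℤ) {b : β}
    (h : ∀ a, f a = b → v a = 0) : Finsupp.mapDomain f v b = 0 := by
  rw [CompDatum.mapDomain_apply_eq_sum]
  refine Finset.sum_eq_zero fun a ha => ?_
  exact h a (Finset.mem_filter.mp ha).2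

theorem mapDomain_pullbackAlong_single_of_ne (h : SpecMap 𝔻₁ 𝔻₂ φ hφ ρ) {P₁ : Place L F₁}
    {x₂ : Pts ι₂ E₂ k Ft₂} (hne : 𝔻₁.r P₁ ≠ ρ x₂) (n : ℤ) :
    Finsupp.mapDomain 𝔻₂.r (Divisor.pullbackAlong φ hφ (Finsupp.single P₁ n)) x₂ = 0 := by
  refine mapDomain_apply_eq_zero_of_forall _ _ fun w hw' => ?_
  refine pullbackAlong_single_apply_of_ne ?_ n
  intro hP
  apply hne
  rw [← hP, h.r_restrict w, hw']

theorem single_eq_zsmul {α : Type*} (a : α) (n : ℤ) :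
    (Finsupp.single a n : α →₀ ℤ) = n • Finsupp.single a 1 := by
  rw [Finsupp.smul_single, smul_eq_mul, mul_one]

/-- the fibre sums of a pull-back. -/
theorem mapDomain_pullbackAlong (h : SpecMap 𝔻₁ 𝔻₂ φ hφ ρ) {m : Pts ι₂ E₂ k Ft₂ → ℤ}
    (hm : Mult 𝔻₁ 𝔻₂ φ hφ ρ m) (D : Divisor L F₁) (x₂ : ι₂ × Place k Ft₂) :
    Finsupp.mapDomain 𝔻₂.r (Divisor.pullbackAlong φ hφ D) (Sum.inl x₂) =
      m (Sum.inl x₂) * Finsupp.mapDomain 𝔻₁.r D (ρ (Sum.inl x₂)) := by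
  classical
  induction D using Finsupp.induction_linear with
  | zero => simp
  | add D D' h1 h2 =>
    rw [map_add, Finsupp.mapDomain_add, Finsupp.add_apply, h1, h2, Finsupp.mapDomain_add,
      Finsupp.add_apply, mul_add]
  | single P₁ n =>
    rw [Finsupp.mapDomain_single]
    by_cases hP : 𝔻₁.r P₁ = ρ (Sum.inl x₂)
    · rw [single_eq_zsmul P₁ n, map_zsmul, Finsupp.mapDomain_smul, Finsupp.smul_apply,
        hm P₁ x₂ hP, hP]
      simp [mul_comm]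
    · rw [mapDomain_pullbackAlong_single_of_ne h hP, Finsupp.single_eq_of_ne (Ne.symm hP), mul_zero]

theorem offAnn_pullbackAlong (h : SpecMap 𝔻₁ 𝔻₂ φ hφ ρ) {D : Divisor L F₁}
    (hD : OffAnn 𝔻₁ D) : OffAnn 𝔻₂ (Divisor.pullbackAlong φ hφ D) := by
  intro w e₂ he₂
  obtain ⟨e₁, he₁⟩ := h.inr_inr e₂
  have h1 : 𝔻₁.r (w.restrictAlong φ hφ) = Sum.inr e₁ := by rw [h.r_restrict w, he₂, he₁]
  rw [Divisor.pullbackAlong_apply, hD _ e₁ h1, mul_zero]

/-- the reduction of a pull-back vanishes as soon as the reduction vanishes. -/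
theorem mapDomain_pullbackAlong_eq_zero (h : SpecMap 𝔻₁ 𝔻₂ φ hφ ρ) {m : Pts ι₂ E₂ k Ft₂ → ℤ}
    (hm : Mult 𝔻₁ 𝔻₂ φ hφ ρ m) {D : Divisor L F₁} (hoff : OffAnn 𝔻₁ D)
    (hr : Finsupp.mapDomain 𝔻₁.r D = 0) :
    Finsupp.mapDomain 𝔻₂.r (Divisor.pullbackAlong φ hφ D) = 0 := by
  ext x
  rcases x with x₂ | e₂
  · rw [mapDomain_pullbackAlong h hm D x₂, hr]
    simp
  · rw [(offAnn_pullbackAlong h hoff).mapDomain_inr e₂]
    rfl

/-- **`φ^*` maps the kernel of reduction into the kernel of reduction.** -/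
theorem pic0Pull_mem_kerRed (h : SpecMap 𝔻₁ 𝔻₂ φ hφ ρ) {m : Pts ι₂ E₂ k Ft₂ → ℤ}
    (hm : Mult 𝔻₁ 𝔻₂ φ hφ ρ m) (hFI : FundamentalIdentityAlong L φ hφ) {x : Pic0 L F₁}
    (hx : x ∈ kerRed 𝔻₁) : pic0PullbackAlong φ hφ hFI x ∈ kerRed 𝔻₂ := by
  obtain ⟨D', hoff, hr, rfl⟩ := hx
  refine ⟨⟨Divisor.pullbackAlong φ hφ (D' : Divisor L F₁),
    Divisor.pullbackAlong_mem_degZero φ hφ hFI D'.2⟩, ?_, ?_,
    (pic0PullbackAlong_mk φ hφ hFI D').symm⟩
  · exact offAnn_pullbackAlong h hoff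
  · exact mapDomain_pullbackAlong_eq_zero h hm hoff hr

end Pull

end

end Fermat.Agent.MP.FUNC.KerMap1
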