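/-
PROGRAMME MP, chapter FUNC (helper3, for helper8): **the twist `s₁ : q ↦ -q` on the component through
`∞` of the special fibre of `X₀(M' p)`** — the component-1 half of (H2) for `s₁`.

Setting of `ORD/IFACEN/SideOne1` (`p M' A hA hpM h4`, `N = M' * p`, `G1 = fracRing (redB …)`,
`red1 : G1 →+* Ft`, `Ft = ↥(modularFunctionFieldFullC (kA A) M')`).

* `s1_mem_intF`, `seriesHom_s1`, `coe_redB_s1` : `s₁` preserves the `A`-integral `q`-expansions and
  `redB (s₁ b) = tw (redB b)` coefficientwise;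
* **`s1_mem_G1`** : `g ∈ G1 → s₁ g ∈ G1`;
* `coe_red1_s1` : `(red1 (s₁ g) : k((q))) = tw (red1 g)`;
* `tw_mem_Ft` : `tw` preserves `k · F̃_{M'}`;
* **`s1bar : Ft ≃ₐ[kA A] Ft`**, `coe_s1bar`, `s1bar_s1bar`;
* **`red1_s1`** : `red1 ⟨s₁ g, _⟩ = s1bar (red1 g)`.
-/
import Mathlib
import Fermat.Agent.ORD.IFACEN.SideOne1
import Fermat.Agent.MP.FUNC.Twist4

set_option autoImplicit false
set_option linter.unusedSectionVars false
set_option linter.style.longLine false
set_option synthInstance.maxHeartbeats 400000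

open HahnSeries ModularCurve

noncomputable section

namespace Fermat.Agent.MP.FUNC.TwistRed3

open Fermat.Agent.RED.Interface4 Fermat.Agent.RED.DESC.PlaceExtend27
  Fermat.Agent.RED.DESC Fermat.Agent.RED.NumInst4
  Fermat.Agent.RED.PUR.GaussGen8 Fermat.Agent.RED.PUR.GaussBridge10
  Fermat.Agent.ES.RED.ChartIntegralA1
  Fermat.Agent.FF.IFACE.GaussVal1
  Fermat.Agent.ORD.IFACEN.GaussBad1 Fermat.Agent.ORD.IFACEN.SideOne1
  Fermat.Agent.MP.FUNC.Twist4

/-- fast instance (the canonical search costs seconds). -/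
local instance (priority := 100000) algKF (A : ValuationSubring Qbar) (M : ℕ) [NeZero M] :
    Algebra (kA A) ↥(modularFunctionFieldFullC (kA A) M) := inferInstance

variable (p M' : ℕ) [Fact p.Prime] [NeZero M'] (A : ValuationSubring Qbar)
  (hA : A.LiesOverPrime p) (hpM : ¬ p ∣ M') (h4 : 4 ∣ M') (h4N : 4 ∣ M' * p)

/-! ### `s₁` on the integral `q`-expansions -/

/-- `s₁` preserves the `A`-integral `q`-expansions. -/
theorem s1_mem_intF {y : ↥(Fbar (M' * p))} (hy : y ∈ intF A (M' * p)) :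
    s1 (M' * p) h4N y ∈ intF A (M' * p) := by
  obtain ⟨Y, hY⟩ := (mem_intF_iff A (M' * p)).mp hy
  refine (mem_intF_iff A (M' * p)).mpr ⟨tw Y, ?_⟩
  rw [coeffMap_tw, hY, coe_s1]

/-- the `A`-expansion of `s₁ y` is the twist of the `A`-expansion of `y`. -/
theorem seriesHom_s1 (y : intF A (M' * p)) :
    seriesHom A (M' * p) ⟨s1 (M' * p) h4N (y : ↥(Fbar (M' * p))), s1_mem_intF p M' A h4N y.2⟩ =
      tw (seriesHom A (M' * p) y) := by
  apply seriesHom_eq_of
  rw [coeffMap_tw, coeffMap_seriesHom]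
  rfl

/-- `redB (s₁ b) = tw (redB b)` coefficientwise. -/
theorem coe_redB_s1 (y : intF A (M' * p)) :
    ((redB p M' A hA hpM h4
        ⟨s1 (M' * p) h4N (y : ↥(Fbar (M' * p))), s1_mem_intF p M' A h4N y.2⟩ :
      ↥(modularFunctionFieldFullC (kA A) M')) : LaurentSeries (kA A)) =
      tw ((redB p M' A hA hpM h4 y : ↥(modularFunctionFieldFullC (kA A) M')) :
        LaurentSeries (kA A)) := by
  rw [coe_redB, coe_redB, seriesHom_s1, coeffMap_tw]

theorem redB_s1_ne_zero {y : intF A (M' * p)} (hy : redB p M' A hA hpM h4 y ≠ 0) :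
    redB p M' A hA hpM h4
      ⟨s1 (M' * p) h4N (y : ↥(Fbar (M' * p))), s1_mem_intF p M' A h4N y.2⟩ ≠ 0 := by
  intro h0
  apply hy
  apply Subtype.ext
  apply tw_injective
  rw [← coe_redB_s1 p M' A hA hpM h4 h4N y, h0]
  exact (map_zero tw).symm

/-! ### `s₁` on the Gauss valuation ring -/

/-- **(S-a)** : `s₁` preserves the Gauss valuation ring `G1` of the expansion at `∞`. -/
theorem s1_mem_G1 {g : ↥(Fbar (M' * p))} (hg : g ∈ G1 p M' A hA hpM h4) :
    s1 (M' * p) h4N g ∈ G1 p M' A hA hpM h4 := by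
  obtain ⟨a, b, hb, hab⟩ := (mem_G1_iff p M' A hA hpM h4 g).mp hg
  refine (mem_G1_iff p M' A hA hpM h4 _).mpr
    ⟨⟨_, s1_mem_intF p M' A h4N a.2⟩, ⟨_, s1_mem_intF p M' A h4N b.2⟩,
      redB_s1_ne_zero p M' A hA hpM h4 h4N hb, ?_⟩
  show s1 (M' * p) h4N g * s1 (M' * p) h4N (b : ↥(Fbar (M' * p))) =
    s1 (M' * p) h4N (a : ↥(Fbar (M' * p)))
  rw [← map_mul, hab]

/-- the reduction of `s₁ g` is the twist of the reduction of `g`, as Laurent series. -/
theorem coe_red1_s1 (g : ↥(G1 p M' A hA hpM h4)) :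
    ((red1 p M' A hA hpM h4
        ⟨s1 (M' * p) h4N (g : ↥(Fbar (M' * p))), s1_mem_G1 p M' A hA hpM h4 h4N g.2⟩ :
      ↥(modularFunctionFieldFullC (kA A) M')) : LaurentSeries (kA A)) =
      tw ((red1 p M' A hA hpM h4 g : ↥(modularFunctionFieldFullC (kA A) M')) :
        LaurentSeries (kA A)) := by
  obtain ⟨a, b, hb, hab⟩ := (mem_G1_iff p M' A hA hpM h4 (g : ↥(Fbar (M' * p)))).mp g.2
  have hb' := redB_s1_ne_zero p M' A hA hpM h4 h4N hb
  have hab' : s1 (M' * p) h4N (g : ↥(Fbar (M' * p))) *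
      ((⟨_, s1_mem_intF p M' A h4N b.2⟩ : intF A (M' * p)) : ↥(Fbar (M' * p))) =
      ((⟨_, s1_mem_intF p M' A h4N a.2⟩ : intF A (M' * p)) : ↥(Fbar (M' * p))) := by
    show s1 (M' * p) h4N (g : ↥(Fbar (M' * p))) * s1 (M' * p) h4N (b : ↥(Fbar (M' * p))) =
      s1 (M' * p) h4N (a : ↥(Fbar (M' * p)))
    rw [← map_mul, hab]
  have e1 := red1_mul_red p M' A hA hpM h4 g hb hab
  have e2 := red1_mul_red p M' A hA hpM h4
    ⟨s1 (M' * p) h4N (g : ↥(Fbar (M' * p))), s1_mem_G1 p M' A hA hpM h4 h4N g.2⟩ hb' hab'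
  have e1' := congrArg (fun z : ↥(modularFunctionFieldFullC (kA A) M') =>
    tw (z : LaurentSeries (kA A))) e1
  have e2' := congrArg (fun z : ↥(modularFunctionFieldFullC (kA A) M') =>
    (z : LaurentSeries (kA A))) e2
  simp only [MulMemClass.coe_mul, map_mul] at e1' e2'
  rw [coe_redB_s1 p M' A hA hpM h4 h4N b, coe_redB_s1 p M' A hA hpM h4 h4N a, ← e1'] at e2'
  have hne : tw ((redB p M' A hA hpM h4 b : ↥(modularFunctionFieldFullC (kA A) M')) :
      LaurentSeries (kA A)) ≠ 0 := by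
    intro h0
    apply hb
    apply Subtype.ext
    apply tw_injective
    rw [h0, ZeroMemClass.coe_zero, map_zero]
  exact mul_right_cancel₀ hne e2'

/-! ### the induced automorphism of `k · F̃_{M'}` -/

include hA hpM h4 h4N in
/-- `tw` preserves `k · F̃_{M'}`. -/
theorem tw_mem_Ft {x : LaurentSeries (kA A)} (hx : x ∈ modularFunctionFieldFullC (kA A) M') :
    tw x ∈ modularFunctionFieldFullC (kA A) M' := by
  obtain ⟨g, hg⟩ := red1_surjective p M' A hA hpM h4 ⟨x, hx⟩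
  have h1 := coe_red1_s1 p M' A hA hpM h4 h4N g
  rw [hg] at h1
  rw [← h1]
  exact Subtype.property _

/-- the twist as an endomorphism of `k · F̃_{M'}`. -/
def s1barHom : ↥(modularFunctionFieldFullC (kA A) M') →ₐ[kA A]
    ↥(modularFunctionFieldFullC (kA A) M') where
  toFun x := ⟨tw (x : LaurentSeries (kA A)), tw_mem_Ft p M' A hA hpM h4 h4N x.2⟩
  map_one' := Subtype.ext (map_one tw)
  map_mul' _ _ := Subtype.ext (map_mul tw _ _)
  map_zero' := Subtype.ext (map_zero tw)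
  map_add' _ _ := Subtype.ext (map_add tw _ _)
  commutes' c := Subtype.ext ((twAlg (kA A)).commutes c)

/-- **(S-c), component 1** : the automorphism `s̄₁ : q ↦ -q` of `k · F̃_{M'}`. -/
def s1bar : ↥(modularFunctionFieldFullC (kA A) M') ≃ₐ[kA A]
    ↥(modularFunctionFieldFullC (kA A) M') :=
  AlgEquiv.ofAlgHom (s1barHom p M' A hA hpM h4 h4N) (s1barHom p M' A hA hpM h4 h4N)
    (AlgHom.ext fun _ => Subtype.ext (tw_tw _)) (AlgHom.ext fun _ => Subtype.ext (tw_tw _))

@[simp] theorem coe_s1bar (x : ↥(modularFunctionFieldFullC (kA A) M')) :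
    ((s1bar p M' A hA hpM h4 h4N x : ↥(modularFunctionFieldFullC (kA A) M')) :
      LaurentSeries (kA A)) = tw (x : LaurentSeries (kA A)) := rfl

@[simp] theorem s1bar_s1bar (x : ↥(modularFunctionFieldFullC (kA A) M')) :
    s1bar p M' A hA hpM h4 h4N (s1bar p M' A hA hpM h4 h4N x) = x := Subtype.ext (tw_tw _)

theorem s1bar_symm : (s1bar p M' A hA hpM h4 h4N).symm = s1bar p M' A hA hpM h4 h4N := by
  apply AlgEquiv.ext
  intro x
  apply (s1bar p M' A hA hpM h4 h4N).injective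
  rw [AlgEquiv.apply_symm_apply, s1bar_s1bar]

/-- **(H2), component 1, for `s₁`** : `red1 (s₁ g) = s̄₁ (red1 g)`. -/
theorem red1_s1 (g : ↥(G1 p M' A hA hpM h4)) :
    red1 p M' A hA hpM h4
        ⟨s1 (M' * p) h4N (g : ↥(Fbar (M' * p))), s1_mem_G1 p M' A hA hpM h4 h4N g.2⟩ =
      s1bar p M' A hA hpM h4 h4N (red1 p M' A hA hpM h4 g) :=
  Subtype.ext (coe_red1_s1 p M' A hA hpM h4 h4N g)

end Fermat.Agent.MP.FUNC.TwistRed3
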